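import Fermat.Agent.S44.Alg.Cover

/-!
# S44 / GEO / COVER / C3 (SHEET) : from an approximate sheet idempotent to `Alg.Sheet`      [key S44/C3-ABS1]   (Mathlib + Alg/Cover only)   (helper4)

`R ⊂ E ⊂ E' ⊂ F'`, `δ ∈ Aut(E'/E)`, `δ' ∈ Aut(F'/F)` extending `δ`.  `O ⊂ F'` a `δ'`-stable subring (in the application: the integral closure of `O_s` in `F'`) with
`hdesc : x ∈ E' ∩ O ⟹ x` integral over `R`.   `c0 ∈ F'`, `δ' c0 = c0`, `c0 ^ N ∈ ϖ O`.   `eA ∈ O` with `eA * δ'^k eA ∈ c0 O` (`0 < k < n`), `∑_k δ'^k eA ∈ 1 + c0 O`;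
`e0 ∈ E'` with `e0 - eA ∈ c0 O`.   Then there is a `Sheet R E' ϖ` with the given `δ`, `n`.

## Proof  (write `J = c0 O`: an ideal of `O`, `δ'`-stable; `x ∈ J ⟹ x ^ N ∈ ϖ O`; everything below happens in `F'`, identify `E'` with its image)
0. `e0 ∈ O` (`= eA + (e0 - eA)`; note `c0 * a ∈ O` is NOT known a priori, so assume `hc0 : c0 ∈ O`).  `(δ'^k) (algebraMap x) = algebraMap ((δ^k) x)` by induction.
1. `e0 * δ^k e0 ∈ J`:  `e0 δ^k e0 - eA δ'^k eA = (e0 - eA) δ^k e0 + eA δ'^k (e0 - eA)`.   `∑ δ^k e0 - 1 ∈ J` likewise.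
2. `e0^2 - e0 ∈ J`:  `e0 (∑_k δ^k e0 - 1) = e0^2 - e0 + ∑_{0<k<n} e0 δ^k e0`.   Hence `e0^m - e0 ∈ J` for `m ≥ 1` (induction).  (`N ≥ 1` because `c0^0 = 1 = ϖ a` would make... simply take `N' = N + 1`: `c0^(N+1) ∈ ϖ O` too.)
3. `T := ∑_k δ^k (e0^N')`, `δ T = T` so `T = algebraMap t0`, `t0 ∈ E`; `T ∈ O` so `T` is integral over `R` (`hdesc`), `t0 = algebraMap r`, `r : R` (`IsIntegrallyClosed`).   `T - 1 ∈ J` (2. + 1.).
   `(T - 1)^N' = ϖ a`, `a ∈ O`, `a = (T-1)^N'/ϖ ∈ E'` is `δ`-fixed and integral: `a = algebraMap r'`; so `(r - 1)^N' = ϖ r' ∈ 𝔪`, `r - 1 ∈ 𝔪`, `r` is a unit of `R`.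
4. `e := e0^N' * algebraMap (r⁻¹)`:  integral (`hdesc` for `e0`, `IsIntegral.pow`, `isIntegral_algebraMap`);  `∑_k δ^k e = T / r = 1` (take `a = 0` in `sum`);
   `e δ^k e = (e0 δ^k e0)^N' r⁻² = ϖ (a r⁻²)`, `a ∈ O`; `a r⁻² = e δ^k e / ϖ ∈ E' ∩ O` is integral over `R` by `hdesc`.
-/

set_option autoImplicit false

open Finset

namespace Fermat.Agent.S44.Cov.Sh

theorem sheet_of_big {R E E' F F' : Type*} [CommRing R] [IsDomain R] [IsIntegrallyClosed R] [IsLocalRing R]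
    [Field E] [Field E'] [Field F] [Field F'] [Algebra R E] [IsFractionRing R E] [Algebra E E'] [Algebra R E']
    [IsScalarTower R E E'] [Algebra E' F'] [Algebra F F']
    (ϖ : R) (hϖ : ϖ ∈ IsLocalRing.maximalIdeal R) (hϖ0 : ϖ ≠ 0)
    (δ : E' ≃ₐ[E] E') (n : ℕ) (hn : 0 < n) (pow : ∀ x, (δ ^ n) x = x)
    (fix : ∀ x, δ x = x → ∃ y : E, algebraMap E E' y = x)
    (δ' : F' ≃ₐ[F] F') (hδ : ∀ x : E', δ' (algebraMap E' F' x) = algebraMap E' F' (δ x))
    (O : Subring F') (hOδ : ∀ x ∈ O, δ' x ∈ O)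
    (hR : ∀ r : R, algebraMap E' F' (algebraMap R E' r) ∈ O)
    (hdesc : ∀ x : E', algebraMap E' F' x ∈ O → IsIntegral R x)
    (c0 : F') (hc0 : c0 ∈ O) (hc0δ : δ' c0 = c0) (N : ℕ)
    (hN : ∃ a ∈ O, c0 ^ N = algebraMap E' F' (algebraMap R E' ϖ) * a)
    (eA : F') (heA : eA ∈ O)
    (orth : ∀ k, 0 < k → k < n → ∃ a ∈ O, eA * (δ' ^ k) eA = c0 * a)
    (sum : ∃ a ∈ O, ∑ k ∈ range n, (δ' ^ k) eA = 1 + c0 * a)
    (e0 : E') (he0 : ∃ a ∈ O, algebraMap E' F' e0 - eA = c0 * a) :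
    ∃ D : Alg.Sheet (E := E) R E' ϖ, D.δ = δ ∧ D.n = n := by
  classical
  have hinj : Function.Injective (algebraMap R E') := by
    rw [IsScalarTower.algebraMap_eq R E E']
    exact (algebraMap E E').injective.comp (IsFractionRing.injective R E)
  have hϖE : algebraMap R E' ϖ ≠ 0 := fun h => hϖ0 (hinj (by rw [h, map_zero]))
  have hϖF : algebraMap E' F' (algebraMap R E' ϖ) ≠ 0 := (map_ne_zero _).mpr hϖE
  -- powers of `δ`, `δ'`
  have hDι : ∀ (k : ℕ) (x : E'), (δ' ^ k) (algebraMap E' F' x) = algebraMap E' F' ((δ ^ k) x) := by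
    intro k
    induction k with
    | zero => intro x; rfl
    | succ k ih =>
      intro x
      rw [pow_succ', pow_succ', AlgEquiv.mul_apply, AlgEquiv.mul_apply, ih, hδ]
  have hDc : ∀ k : ℕ, (δ' ^ k) c0 = c0 := by
    intro k
    induction k with
    | zero => rfl
    | succ k ih => rw [pow_succ', AlgEquiv.mul_apply, ih, hc0δ]
  have hDO : ∀ (k : ℕ), ∀ x ∈ O, (δ' ^ k) x ∈ O := by
    intro k
    induction k with
    | zero => exact fun x hx => hx
    | succ k ih =>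
      intro x hx
      rw [pow_succ', AlgEquiv.mul_apply]
      exact hOδ _ (ih x hx)
  have hdR : ∀ (k : ℕ) (r : R), (δ ^ k) (algebraMap R E' r) = algebraMap R E' r := by
    intro k r
    rw [IsScalarTower.algebraMap_apply R E E', AlgEquiv.commutes]
  -- the ideal `J = c0 O`
  let J : AddSubgroup F' :=
    { carrier := {x | ∃ a ∈ O, x = c0 * a}
      zero_mem' := ⟨0, O.zero_mem, by simp⟩
      add_mem' := by
        rintro _ _ ⟨a, ha, rfl⟩ ⟨b, hb, rfl⟩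
        exact ⟨a + b, add_mem ha hb, by ring⟩
      neg_mem' := by
        rintro _ ⟨a, ha, rfl⟩
        exact ⟨-a, neg_mem ha, by ring⟩ }
  have Jmul : ∀ {x b : F'}, b ∈ O → x ∈ J → b * x ∈ J := by
    rintro _ b hb ⟨a, ha, rfl⟩
    exact ⟨b * a, mul_mem hb ha, by ring⟩
  have JD : ∀ (k : ℕ) {x : F'}, x ∈ J → (δ' ^ k) x ∈ J := by
    rintro k _ ⟨a, ha, rfl⟩
    exact ⟨(δ' ^ k) a, hDO k a ha, by rw [map_mul, hDc]⟩
  have JO : ∀ {x : F'}, x ∈ J → x ∈ O := by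
    rintro _ ⟨a, ha, rfl⟩
    exact mul_mem hc0 ha
  have Jpow : ∀ {x : F'}, x ∈ J →
      ∃ a ∈ O, x ^ (N + 1) = algebraMap E' F' (algebraMap R E' ϖ) * a := by
    rintro _ ⟨a, ha, rfl⟩
    obtain ⟨a0, ha0, h0⟩ := hN
    exact ⟨a0 * c0 * a ^ (N + 1), mul_mem (mul_mem ha0 hc0) (pow_mem ha _), by
      rw [mul_pow, pow_succ c0, h0]; ring⟩
  -- descent of divisibility by `ϖ`
  have key : ∀ w : E', (∃ a ∈ O, algebraMap E' F' w = algebraMap E' F' (algebraMap R E' ϖ) * a) →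
      ∃ a' : E', IsIntegral R a' ∧ w = algebraMap R E' ϖ * a' := by
    rintro w ⟨a, ha, hw⟩
    refine ⟨w / algebraMap R E' ϖ, hdesc _ ?_, by rw [mul_div_cancel₀ _ hϖE]⟩
    rw [map_div₀, hw, mul_div_cancel_left₀ _ hϖF]
    exact ha
  set x : F' := algebraMap E' F' e0 with hx
  -- step 0
  have hxA : x - eA ∈ J := he0
  have hxO : x ∈ O := by
    have := add_mem (JO hxA) heA
    rwa [sub_add_cancel] at this
  -- step 1
  have h1 : ∀ k, 0 < k → k < n → x * (δ' ^ k) x ∈ J := by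
    intro k hk0 hk
    have e1 : x * (δ' ^ k) x = eA * (δ' ^ k) eA + (δ' ^ k) x * (x - eA) + eA * (δ' ^ k) (x - eA) := by
      rw [map_sub]; ring
    rw [e1]
    exact add_mem (add_mem (orth k hk0 hk) (Jmul (hDO k x hxO) hxA)) (Jmul heA (JD k hxA))
  have h1' : ∑ k ∈ range n, (δ' ^ k) x - 1 ∈ J := by
    obtain ⟨a, ha, hs⟩ := sum
    have e1 : ∑ k ∈ range n, (δ' ^ k) x - 1 = c0 * a + ∑ k ∈ range n, (δ' ^ k) (x - eA) := by
      simp only [map_sub, sum_sub_distrib, hs]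
      ring
    rw [e1]
    exact add_mem ⟨a, ha, rfl⟩ (sum_mem fun k _ => JD k hxA)
  -- step 2
  have h2 : x * x - x ∈ J := by
    obtain ⟨m, rfl⟩ : ∃ m, n = m + 1 := ⟨n - 1, by omega⟩
    have e1 : x * x - x = x * (∑ k ∈ range (m + 1), (δ' ^ k) x - 1) -
        ∑ k ∈ range m, x * (δ' ^ (k + 1)) x := by
      rw [sum_range_succ', ← mul_sum]
      have : (δ' ^ 0) x = x := rfl
      rw [this]
      ring
    rw [e1]
    exact sub_mem (Jmul hxO h1') (sum_mem fun k hk => h1 (k + 1) k.succ_pos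
      (Nat.succ_lt_succ (mem_range.mp hk)))
  have h2' : ∀ m : ℕ, x ^ (m + 1) - x ∈ J := by
    intro m
    induction m with
    | zero => simp
    | succ m ih =>
      have e1 : x ^ (m + 1 + 1) - x = x * (x ^ (m + 1) - x) + (x * x - x) := by ring
      rw [e1]
      exact add_mem (Jmul hxO ih) h2
  -- step 3
  set T : E' := ∑ k ∈ range n, (δ ^ k) (e0 ^ (N + 1)) with hT
  have hTfix : δ T = T := by
    have g1 : δ T = ∑ k ∈ range n, (δ ^ (k + 1)) (e0 ^ (N + 1)) := by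
      rw [hT, map_sum]
      refine sum_congr rfl fun k _ => ?_
      rw [pow_succ' δ k, AlgEquiv.mul_apply]
    have g2 := sum_range_succ (fun k => (δ ^ k) (e0 ^ (N + 1))) n
    have g3 := sum_range_succ' (fun k => (δ ^ k) (e0 ^ (N + 1))) n
    have g4 : (δ ^ 0) (e0 ^ (N + 1)) = e0 ^ (N + 1) := rfl
    rw [g2, pow, g4] at g3
    rw [g1, hT]
    exact (add_right_cancel g3).symm
  have hιT : algebraMap E' F' T = ∑ k ∈ range n, (δ' ^ k) (x ^ (N + 1)) := by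
    rw [hT, map_sum]
    refine sum_congr rfl fun k _ => ?_
    rw [hx, ← map_pow, hDι]
  have hTJ : algebraMap E' F' T - 1 ∈ J := by
    have e1 : algebraMap E' F' T - 1 = ∑ k ∈ range n, (δ' ^ k) (x ^ (N + 1) - x) +
        (∑ k ∈ range n, (δ' ^ k) x - 1) := by
      rw [hιT]
      simp only [map_sub, sum_sub_distrib]
      ring
    rw [e1]
    exact add_mem (sum_mem fun k _ => JD k (h2' N)) h1'
  have hTO : algebraMap E' F' T ∈ O := by
    have := add_mem (JO hTJ) O.one_mem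
    rwa [sub_add_cancel] at this
  have toR : ∀ w : E, IsIntegral R (algebraMap E E' w) → ∃ r : R, algebraMap R E r = w := by
    intro w hw
    exact IsIntegrallyClosed.isIntegral_iff.1
      ((isIntegral_algebraMap_iff (algebraMap E E').injective).1 hw)
  obtain ⟨t0, ht0⟩ := fix T hTfix
  obtain ⟨r, hr⟩ := toR t0 (by rw [ht0]; exact hdesc T hTO)
  have hrT : algebraMap R E' r = T := by
    rw [IsScalarTower.algebraMap_apply R E E', hr, ht0]
  have hru : IsUnit r := by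
    obtain ⟨a, ha, hpa⟩ := Jpow hTJ
    obtain ⟨a', ha', hw⟩ := key (algebraMap R E' ((r - 1) ^ (N + 1))) ⟨a, ha, by
      rw [map_pow, map_sub, map_one, hrT, map_pow, map_sub, map_one, hpa]⟩
    have e2 : a' = algebraMap E E' (algebraMap R E ((r - 1) ^ (N + 1)) / algebraMap R E ϖ) := by
      rw [map_div₀, ← IsScalarTower.algebraMap_apply R E E', ← IsScalarTower.algebraMap_apply R E E',
        hw, mul_div_cancel_left₀ _ hϖE]
    obtain ⟨r', hr'⟩ := toR _ (by rw [← e2]; exact ha')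
    have e3 : (r - 1) ^ (N + 1) = ϖ * r' := by
      apply hinj
      rw [hw, map_mul, e2, ← hr', ← IsScalarTower.algebraMap_apply R E E']
    have h4 : (r - 1) ^ (N + 1) ∈ IsLocalRing.maximalIdeal R := by
      rw [e3]
      exact Ideal.mul_mem_right _ _ hϖ
    have h5 : r - 1 ∈ IsLocalRing.maximalIdeal R := Ideal.IsPrime.mem_of_pow_mem inferInstance _ h4
    by_contra hnu
    have h6 : r ∈ IsLocalRing.maximalIdeal R := (IsLocalRing.mem_maximalIdeal r).mpr hnu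
    have h7 : (1 : R) ∈ IsLocalRing.maximalIdeal R := by
      have := sub_mem h6 h5
      rwa [sub_sub_cancel] at this
    exact (Ideal.ne_top_iff_one _).mp (IsLocalRing.maximalIdeal.isMaximal R).ne_top h7
  obtain ⟨u, rfl⟩ := hru
  -- step 4
  have hint0 : IsIntegral R e0 := hdesc e0 hxO
  refine ⟨{ δ := δ, n := n, hn := hn, pow := pow, fix := fix,
            e := e0 ^ (N + 1) * algebraMap R E' ((u⁻¹ : Rˣ) : R),
            int := (hint0.pow _).mul isIntegral_algebraMap,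
            orth := ?_, sum := ?_ }, rfl, rfl⟩
  · intro k hk0 hk
    apply key
    obtain ⟨a, ha, hpa⟩ := Jpow (h1 k hk0 hk)
    refine ⟨a * (algebraMap E' F' (algebraMap R E' ((u⁻¹ : Rˣ) : R))) ^ 2,
      mul_mem ha (pow_mem (hR _) 2), ?_⟩
    rw [map_mul (δ ^ k), hdR, map_pow (δ ^ k)]
    simp only [map_mul, map_pow]
    rw [← hDι, ← hx]
    rw [mul_pow] at hpa
    linear_combination (algebraMap E' F' (algebraMap R E' ((u⁻¹ : Rˣ) : R))) ^ 2 * hpa
  · refine ⟨0, isIntegral_zero, ?_⟩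
    rw [mul_zero, add_zero]
    have e1 : ∑ k ∈ range n, (δ ^ k) (e0 ^ (N + 1) * algebraMap R E' ((u⁻¹ : Rˣ) : R)) =
        T * algebraMap R E' ((u⁻¹ : Rˣ) : R) := by
      rw [hT, sum_mul]
      refine sum_congr rfl fun k _ => ?_
      rw [map_mul, hdR]
    rw [e1, ← hrT, ← map_mul, Units.mul_inv, map_one]

end Fermat.Agent.S44.Cov.Sh
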