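import Mathlib

/-!
# S44 / GEO / COVER / C3 (SHEET) : the norm trick      [key S44/C3-ABS2]   (Mathlib only)   (helper4)

`G` acts on the field `F'`, `O ⊂ F'` a `G`-stable subring, `c0 ∈ O`, `J = c0 O`.
`e ∈ O` with finite `G`-orbit, `e^2 - e ∈ J`, `σ e - e ∈ J` for all `σ`.  Then `e0 := ∏_{z ∈ orbit} z` is `G`-fixed, in `O`, and `e0 - e ∈ J`.

## Proof
`Ω := hfin.toFinset` (`classical`).  `e ∈ Ω` (`σ = 1`), so `m := Ω.card ≥ 1`.
* fixed: `act τ (∏_{z ∈ Ω} z) = ∏_{z ∈ Ω} act τ z = ∏_{z ∈ Ω.image (act τ)} z` (`Finset.prod_image`, injectivity) and `Ω.image (act τ) = Ω`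
  (`⊆`: `act τ (act σ e) = act (τ σ) e`;  `⊇`: `act σ e = act τ (act (τ⁻¹ σ) e)`).
* `∏_{z ∈ s} z - e ^ s.card ∈ J` for all `s ⊆ Ω` (`Finset.induction_on`: `z * P - e * e^k = (z - e) * P + e * (P - e^k)`; `P ∈ O`).
* `e ^ m - e ∈ J` for `m ≥ 1` (induction: `e^(m+1) - e = e (e^m - e) + (e^2 - e)`).

`finite_orbit`: `σ ↦ act σ x` factors through `σ ↦ f σ` (a map with finite range).
-/

set_option autoImplicit false

open Finset

namespace Fermat.Agent.S44.Cov.Sh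

theorem exists_fixed_approx {F' G : Type*} [Field F'] [Group G] (act : G →* (F' ≃+* F'))
    (O : Subring F') (hO : ∀ σ, ∀ x ∈ O, act σ x ∈ O) (c0 : F') (hc0 : c0 ∈ O)
    (e : F') (he : e ∈ O) (hfin : (Set.range fun σ : G => act σ e).Finite)
    (hidem : ∃ a ∈ O, e * e - e = c0 * a)
    (hst : ∀ σ, ∃ a ∈ O, act σ e - e = c0 * a) :
    ∃ e0 ∈ O, (∀ σ, act σ e0 = e0) ∧ ∃ a ∈ O, e0 - e = c0 * a := by
  classical
  have hmemΩ : ∀ z, z ∈ hfin.toFinset ↔ ∃ σ, act σ e = z := by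
    intro z
    rw [Set.Finite.mem_toFinset]
    rfl
  have heΩ : e ∈ hfin.toFinset := (hmemΩ e).2 ⟨1, by simp⟩
  have hΩO : ∀ z ∈ hfin.toFinset, z ∈ O := by
    intro z hz
    obtain ⟨σ, rfl⟩ := (hmemΩ z).1 hz
    exact hO σ e he
  -- products
  have hprod : ∀ s : Finset F', s ⊆ hfin.toFinset →
      (∏ z ∈ s, z) ∈ O ∧ ∃ a ∈ O, (∏ z ∈ s, z) - e ^ s.card = c0 * a := by
    intro s
    induction s using Finset.induction_on with
    | empty => intro _; exact ⟨by simp, 0, O.zero_mem, by simp⟩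
    | insert z s hz ih =>
      intro hs
      obtain ⟨hP, a, ha, e1⟩ := ih (fun y hy => hs (Finset.mem_insert_of_mem hy))
      have hzΩ := hs (Finset.mem_insert_self z s)
      obtain ⟨σ, rfl⟩ := (hmemΩ z).1 hzΩ
      obtain ⟨b, hb, e2⟩ := hst σ
      rw [Finset.prod_insert hz, Finset.card_insert_of_notMem hz]
      refine ⟨O.mul_mem (hΩO _ hzΩ) hP, b * (∏ z ∈ s, z) + e * a,
        O.add_mem (O.mul_mem hb hP) (O.mul_mem he ha), ?_⟩
      rw [pow_succ]
      linear_combination (∏ z ∈ s, z) * e2 + e * e1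
  have hpow : ∀ m : ℕ, ∃ a ∈ O, e ^ (m + 1) - e = c0 * a := by
    intro m
    induction m with
    | zero => exact ⟨0, O.zero_mem, by simp⟩
    | succ m ih =>
      obtain ⟨a, ha, e1⟩ := ih
      obtain ⟨b, hb, e2⟩ := hidem
      refine ⟨e * a + b, O.add_mem (O.mul_mem he ha) hb, ?_⟩
      rw [pow_succ]
      linear_combination e * e1 + e2
  obtain ⟨hP, a, ha, e1⟩ := hprod hfin.toFinset (Finset.Subset.refl _)
  obtain ⟨m, hm⟩ : ∃ m, hfin.toFinset.card = m + 1 :=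
    ⟨hfin.toFinset.card - 1, by have := Finset.card_pos.2 ⟨e, heΩ⟩; omega⟩
  obtain ⟨b, hb, e2⟩ := hpow m
  refine ⟨∏ z ∈ hfin.toFinset, z, hP, ?_, a + b, O.add_mem ha hb, ?_⟩
  · intro τ
    rw [map_prod]
    have himg : hfin.toFinset.image (act τ) = hfin.toFinset := by
      ext z
      rw [Finset.mem_image]
      constructor
      · rintro ⟨y, hy, rfl⟩
        obtain ⟨σ, rfl⟩ := (hmemΩ y).1 hy
        exact (hmemΩ _).2 ⟨τ * σ, by rw [map_mul]; rfl⟩
      · intro hz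
        obtain ⟨σ, rfl⟩ := (hmemΩ z).1 hz
        refine ⟨act (τ⁻¹ * σ) e, (hmemΩ _).2 ⟨_, rfl⟩, ?_⟩
        have : act τ * act (τ⁻¹ * σ) = act σ := by rw [← map_mul, mul_inv_cancel_left]
        rw [← this]; rfl
    conv_rhs => rw [← himg]
    rw [Finset.prod_image (fun x _ y _ hxy => (act τ).injective hxy)]
  · rw [hm] at e1
    linear_combination e1 + e2

/-- an orbit is finite if the stabiliser contains the stabiliser of a point with finite orbit -/
theorem finite_orbit {F' G X : Type*} [Field F'] [Group G] (act : G →* (F' ≃+* F')) [MulAction G X] (θ : X)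
    (hθ : (Set.range fun σ : G => σ • θ).Finite) (x : F') (h : ∀ σ : G, σ • θ = θ → act σ x = x) :
    (Set.range fun σ : G => act σ x).Finite := by
  classical
  -- choose a section
  have key : ∀ σ τ : G, σ • θ = τ • θ → act σ x = act τ x := by
    intro σ τ hστ
    have h1 : (τ⁻¹ * σ) • θ = θ := by rw [mul_smul, hστ, inv_smul_smul]
    have h2 := h _ h1
    have h3 : act σ = act τ * act (τ⁻¹ * σ) := by rw [← map_mul, mul_inv_cancel_left]
    rw [h3]
    show act τ (act (τ⁻¹ * σ) x) = _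
    rw [h2]
  let g : X → F' := fun y => if hy : ∃ σ : G, σ • θ = y then act hy.choose x else 0
  refine (hθ.image g).subset ?_
  rintro _ ⟨σ, rfl⟩
  refine ⟨σ • θ, ⟨σ, rfl⟩, ?_⟩
  have hy : ∃ τ : G, τ • θ = σ • θ := ⟨σ, rfl⟩
  show (if hy : ∃ τ : G, τ • θ = σ • θ then act hy.choose x else 0) = _
  rw [dif_pos hy]
  exact key _ _ hy.choose_spec

end Fermat.Agent.S44.Cov.Sh
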