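import Mathlib

/-!
# S44 / GEO / COVER / C3 (SHEET) : the idempotent `e_A = (1/p) ∑ y^i`      [key S44/C3-ABS3]   (Mathlib only)   (helper4)

`F'` a field, `O ⊂ F'` a subring, `ζ ∈ O` a primitive `p`-th root of unity, `π = ζ - 1`, `[i] := ∑_{m<i} ζ^m = (ζ^i - 1)/π`.
`ν ∈ O`, `y = 1 + π ν`, `δ' y = ζ y`, `δ' ζ = ζ`, `y^p - 1 = π^p c0 a`, `a ∈ O`.      `e := (1/p) ∑_{i<p} y^i`.

## Proof
(a) `X^p - 1 = ∏_{i<p} (X - ζ^i)` (`Polynomial.X_pow_sub_one_eq_prod` / `X_pow_sub_C_eq_prod hζ hp.pos (one_pow p)`), evaluate at `y`:  `y - ζ^i = π (ν - [i])`, so `π^p ∏_{i<p} (ν - [i]) = y^p - 1`,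
    `∏_{i<p} (ν - [i]) = c0 a`  (`π ≠ 0`).
(b) `∑_{i<p} X^i = ∏_{0<i<p} (X - ζ^i)` (divide (a) by `X - 1`; `Finset.prod_range_succ'`, `mul_geom_sum`/`geom_sum_mul`).  At `X = 1`: `p = ∏_{0<i<p} (1 - ζ^i) = π^(p-1) ∏_{0<i<p} (-[i])`.
    At `X = y`: `∑ y^i = π^(p-1) ∏_{0<i<p} (ν - [i])`.     So `e = ∏_{0<i<p} (ν - [i]) / ∏_{0<i<p} (-[i]) = ∏_{0<i<p} (1 - ν [i]⁻¹)`.
(c) `[i]⁻¹ ∈ O` for `0 < i < p`: choose `j` with `i j ≡ 1 mod p` (`Nat.exists_mul_emod_eq_one_of_coprime`): `ζ = (ζ^i)^j`, `[i]⁻¹ = (ζ - 1)/(ζ^i - 1) = ∑_{m<j} ζ^(i m) ∈ O`.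
    So `e ∈ O`; `e = 1 + ν b`, `b ∈ O` (induction on the product: `(1 + ν b)(1 - ν c) = 1 + ν (b - c - ν b c)`); `e ν = (∏_{0<i<p} (-[i])⁻¹) ∏_{i<p} (ν - [i]) ∈ c0 O` (`[0] = 0`).
(d) `∑_{k<p} δ'^k e = 1`:  `δ'^k y = ζ^k y`, `δ'^k (y^i) = ζ^(k i) y^i`, `δ'` fixes `(p : F')⁻¹`; `∑_{k<p} ζ^(k i) = p` if `i = 0`, `= 0` if `0 < i < p` (`IsPrimitiveRoot.geom_sum_eq_zero` for `ζ^i`, primitive by `hζ.pow_of_coprime`).
(e) `e * δ'^k e ∈ c0 O` (`0 < k < p`):  `δ'^k ν = ζ^k ν + [k]` (from `δ'^k y = ζ^k y`, cancel `π`).  Put `i := p - k`, `0 < i < p`: `[k] + ζ^k [i] = [p] = 0`, so `δ'^k ν = ζ^k (ν - [i])`.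
    By (c) applied with `δ'^k`: `δ'^k e = 1 + δ'^k ν * δ'^k b`... simpler: `e = (ν - [i]) * g`, `g ∈ O` (the factor number `i` of the product in (b), times units), hence `δ'^k e`... USE INSTEAD:
    `e * ν ∈ c0 O` ⟹ (apply `δ'^k`, `δ' O ⊆ O`, `δ' c0 = c0`) `δ'^k e * ζ^k (ν - [i]) ∈ c0 O` ⟹ `δ'^k e * (ν - [i]) ∈ c0 O` (`ζ^(p-k) ∈ O`), and `e = (ν - [i]) g`.  So `e * δ'^k e = g * (δ'^k e (ν - [i])) ∈ c0 O`.
-/

set_option autoImplicit false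

open Finset

namespace Fermat.Agent.S44.Cov.Sh

section Aux

variable {F' : Type*} [Field F']

/-- `[i] = ∑_{m<i} ζ^m` -/
def br (ζ : F') (i : ℕ) : F' := ∑ m ∈ range i, ζ ^ m

theorem br_mul (ζ : F') (i : ℕ) : (ζ - 1) * br ζ i = ζ ^ i - 1 := by
  rw [br, mul_comm]
  exact geom_sum_mul ζ i

theorem br_mem (O : Subring F') {ζ : F'} (hζO : ζ ∈ O) (i : ℕ) : br ζ i ∈ O :=
  sum_mem fun m _ => pow_mem hζO m

theorem br_zero (ζ : F') : br ζ 0 = 0 := by simp [br]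

/-- (a) -/
theorem prod_nu {p : ℕ} (hp : 0 < p) {ζ : F'} (hζ : IsPrimitiveRoot ζ p) (ν : F') :
    (1 + (ζ - 1) * ν) ^ p - 1 = (ζ - 1) ^ p * ∏ i ∈ range p, (ν - br ζ i) := by
  have h := congrArg (Polynomial.eval (1 + (ζ - 1) * ν)) (X_pow_sub_C_eq_prod hζ hp (one_pow p))
  simp only [Polynomial.eval_sub, Polynomial.eval_pow, Polynomial.eval_X, Polynomial.eval_C,
    Polynomial.eval_prod, mul_one] at h
  have hc : (ζ - 1) ^ p = ∏ _i ∈ range p, (ζ - 1) := by rw [prod_const, card_range]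
  rw [h, hc, ← prod_mul_distrib]
  refine prod_congr rfl fun i _ => ?_
  rw [mul_sub, br_mul]
  ring

/-- (b) -/
theorem geom_eq_prod {n : ℕ} {ζ : F'} (hζ : IsPrimitiveRoot ζ (n + 1)) (x : F') :
    ∑ i ∈ range (n + 1), x ^ i = ∏ i ∈ range n, (x - ζ ^ (i + 1)) := by
  have h := X_pow_sub_C_eq_prod hζ n.succ_pos (one_pow (n + 1))
  rw [prod_range_succ', pow_zero, mul_one, map_one] at h
  have h2 : (∑ i ∈ range (n + 1), (Polynomial.X : Polynomial F') ^ i) * (Polynomial.X - 1) =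
      Polynomial.X ^ (n + 1) - 1 := geom_sum_mul _ _
  rw [h] at h2
  have hne : (Polynomial.X - 1 : Polynomial F') ≠ 0 := by
    have := Polynomial.X_sub_C_ne_zero (1 : F')
    rwa [map_one] at this
  have h3 : (∑ i ∈ range (n + 1), (Polynomial.X : Polynomial F') ^ i) =
      ∏ k ∈ range n, (Polynomial.X - Polynomial.C (ζ ^ (k + 1) * 1)) := mul_right_cancel₀ hne h2
  have h4 := congrArg (Polynomial.eval x) h3
  simpa only [Polynomial.eval_finsetSum, Polynomial.eval_pow, Polynomial.eval_X,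
    Polynomial.eval_prod, Polynomial.eval_sub, Polynomial.eval_C, mul_one] using h4

theorem br_ne_zero {p : ℕ} {ζ : F'} (hζ : IsPrimitiveRoot ζ p) {i : ℕ} (h0 : 0 < i) (hi : i < p) :
    br ζ i ≠ 0 := by
  intro h
  have h1 := br_mul ζ i
  rw [h, mul_zero] at h1
  exact hζ.pow_ne_one_of_pos_of_lt h0.ne' hi (sub_eq_zero.mp h1.symm)

/-- (c) -/
theorem br_inv_mem {p : ℕ} (hp : p.Prime) (O : Subring F') {ζ : F'} (hζ : IsPrimitiveRoot ζ p)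
    (hζO : ζ ∈ O) {i : ℕ} (h0 : 0 < i) (hi : i < p) : (br ζ i)⁻¹ ∈ O := by
  have hπ : ζ - 1 ≠ 0 := sub_ne_zero.mpr (hζ.ne_one hp.one_lt)
  have hcop : Nat.Coprime i p :=
    ((Nat.Prime.coprime_iff_not_dvd hp).2 (Nat.not_dvd_of_pos_of_lt h0 hi)).symm
  obtain ⟨j, -, hj⟩ := Nat.exists_mul_mod_eq_one_of_coprime hcop hp.one_lt
  have h1 : (∑ m ∈ range j, (ζ ^ i) ^ m) * (ζ ^ i - 1) = ζ - 1 := by
    rw [geom_sum_mul, ← pow_mul, pow_eq_pow_mod _ hζ.pow_eq_one, hj, pow_one]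
  rw [← br_mul, mul_comm (ζ - 1), ← mul_assoc] at h1
  have h2 : (∑ m ∈ range j, (ζ ^ i) ^ m) * br ζ i = 1 :=
    mul_right_cancel₀ hπ (by rw [h1, one_mul])
  rw [← eq_inv_of_mul_eq_one_left h2]
  exact sum_mem fun m _ => pow_mem (pow_mem hζO i) m

end Aux

theorem exists_eA {F F' : Type*} [Field F] [Field F'] [Algebra F F'] (p : ℕ) (hp : p.Prime) (O : Subring F')
    (ζ : F') (hζ : IsPrimitiveRoot ζ p) (hζO : ζ ∈ O)
    (δ' : F' ≃ₐ[F] F') (hOδ : ∀ x ∈ O, δ' x ∈ O) (hδζ : δ' ζ = ζ) (ν : F') (hν : ν ∈ O)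
    (hδν : δ' (1 + (ζ - 1) * ν) = ζ * (1 + (ζ - 1) * ν))
    (c0 : F') (hc0δ : δ' c0 = c0) (hκ : ∃ a ∈ O, (1 + (ζ - 1) * ν) ^ p - 1 = (ζ - 1) ^ p * (c0 * a)) :
    ∃ e ∈ O, (∃ b ∈ O, e = 1 + ν * b) ∧ (∃ a ∈ O, e * ν = c0 * a) ∧
      (∀ k, 0 < k → k < p → ∃ a ∈ O, e * (δ' ^ k) e = c0 * a) ∧ ∑ k ∈ range p, (δ' ^ k) e = 1 := by
  classical
  obtain ⟨n, rfl⟩ : ∃ n, p = n + 1 := ⟨p - 1, (Nat.sub_add_cancel hp.one_le).symm⟩
  have hπ : ζ - 1 ≠ 0 := sub_ne_zero.mpr (hζ.ne_one hp.one_lt)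
  set y : F' := 1 + (ζ - 1) * ν with hy
  -- powers of `δ'`
  have hDζ : ∀ k : ℕ, (δ' ^ k) ζ = ζ := by
    intro k
    induction k with
    | zero => rfl
    | succ k ih => rw [pow_succ', AlgEquiv.mul_apply, ih, hδζ]
  have hDc : ∀ k : ℕ, (δ' ^ k) c0 = c0 := by
    intro k
    induction k with
    | zero => rfl
    | succ k ih => rw [pow_succ', AlgEquiv.mul_apply, ih, hc0δ]
  have hDO : ∀ (k : ℕ), ∀ x ∈ O, (δ' ^ k) x ∈ O := by
    intro k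
    induction k with
    | zero => exact fun x hx => hx
    | succ k ih =>
      intro x hx
      rw [pow_succ', AlgEquiv.mul_apply]
      exact hOδ _ (ih x hx)
  have hDy : ∀ k : ℕ, (δ' ^ k) y = ζ ^ k * y := by
    intro k
    induction k with
    | zero => rw [pow_zero, pow_zero, one_mul]; rfl
    | succ k ih => rw [pow_succ', AlgEquiv.mul_apply, ih, map_mul, map_pow, hδζ, hδν]; ring
  -- the units `β i = [i+1]`
  have hβ0 : ∀ i ∈ range n, br ζ (i + 1) ≠ 0 := fun i hi =>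
    br_ne_zero hζ i.succ_pos (Nat.succ_lt_succ (mem_range.mp hi))
  have hβO : ∀ i ∈ range n, (br ζ (i + 1))⁻¹ ∈ O := fun i hi =>
    br_inv_mem hp O hζ hζO i.succ_pos (Nat.succ_lt_succ (mem_range.mp hi))
  -- the idempotent
  set e : F' := ∏ i ∈ range n, (1 - ν * (br ζ (i + 1))⁻¹) with he
  have hfac : ∀ i ∈ range n, 1 - ν * (br ζ (i + 1))⁻¹ = (ν - br ζ (i + 1)) * (-(br ζ (i + 1))⁻¹) := by
    intro i hi
    have := hβ0 i hi
    field_simp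
    ring
  have hfO : ∀ i ∈ range n, 1 - ν * (br ζ (i + 1))⁻¹ ∈ O := fun i hi =>
    sub_mem O.one_mem (mul_mem hν (hβO i hi))
  have heO : e ∈ O := prod_mem hfO
  -- `p` and `∑ y^i`
  have hp1 : ((n + 1 : ℕ) : F') = ∏ i ∈ range n, ((ζ - 1) * (-br ζ (i + 1))) := by
    have h := geom_eq_prod hζ (1 : F')
    simp only [one_pow, sum_const, card_range, nsmul_eq_mul, mul_one] at h
    rw [h]
    refine prod_congr rfl fun i _ => ?_
    rw [mul_neg, br_mul]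
    ring
  have hp0 : ((n + 1 : ℕ) : F') ≠ 0 := by
    rw [hp1]
    exact prod_ne_zero_iff.mpr fun i hi => mul_ne_zero hπ (neg_ne_zero.mpr (hβ0 i hi))
  have hsum : ∑ i ∈ range (n + 1), y ^ i = ((n + 1 : ℕ) : F') * e := by
    rw [geom_eq_prod hζ y, hp1, he, ← prod_mul_distrib]
    refine prod_congr rfl fun i hi => ?_
    have := hβ0 i hi
    have h1 : y - ζ ^ (i + 1) = (ζ - 1) * (ν - br ζ (i + 1)) := by
      rw [mul_sub, br_mul, hy]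
      ring
    rw [h1]
    field_simp
    ring
  have he' : e = ((n + 1 : ℕ) : F')⁻¹ * ∑ i ∈ range (n + 1), y ^ i := by
    rw [hsum, inv_mul_cancel_left₀ hp0]
  -- (3)
  obtain ⟨a, haO, ha⟩ := hκ
  have hprod : (∏ i ∈ range n, (ν - br ζ (i + 1))) * ν = c0 * a := by
    have h1 := prod_nu n.succ_pos hζ ν
    rw [ha] at h1
    have h2 := mul_left_cancel₀ (pow_ne_zero _ hπ) h1
    rw [prod_range_succ', br_zero, sub_zero] at h2
    exact h2.symm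
  have he2 : e = (∏ i ∈ range n, (ν - br ζ (i + 1))) * ∏ i ∈ range n, (-(br ζ (i + 1))⁻¹) := by
    rw [he, ← prod_mul_distrib]
    exact prod_congr rfl hfac
  have huO : ∏ i ∈ range n, (-(br ζ (i + 1))⁻¹) ∈ O := prod_mem fun i hi => neg_mem (hβO i hi)
  have h3 : e * ν = c0 * (a * ∏ i ∈ range n, (-(br ζ (i + 1))⁻¹)) := by
    rw [he2, mul_right_comm, hprod]
    ring
  have h3O : a * ∏ i ∈ range n, (-(br ζ (i + 1))⁻¹) ∈ O := mul_mem haO huO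
  refine ⟨e, heO, ?_, ⟨_, h3O, h3⟩, ?_, ?_⟩
  · -- (2)
    rw [he]
    refine prod_induction _ (fun x => ∃ b ∈ O, x = 1 + ν * b) ?_ ⟨0, O.zero_mem, by ring⟩ ?_
    · rintro _ _ ⟨b, hb, rfl⟩ ⟨b', hb', rfl⟩
      exact ⟨b + b' + ν * b * b', add_mem (add_mem hb hb') (mul_mem (mul_mem hν hb) hb'), by ring⟩
    · intro i hi
      exact ⟨-(br ζ (i + 1))⁻¹, neg_mem (hβO i hi), by ring⟩
  · -- (4)
    intro k hk0 hk
    obtain ⟨i, hi⟩ : ∃ i, k + (i + 1) = n + 1 := ⟨n - k, by omega⟩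
    have hin : i ∈ range n := mem_range.mpr (by omega)
    have hDν : (δ' ^ k) ν = ζ ^ k * (ν - br ζ (i + 1)) := by
      have h1 := hDy k
      rw [hy, map_add, map_one, map_mul, map_sub, map_one, hDζ] at h1
      apply mul_left_cancel₀ hπ
      have h2 : ζ ^ k * ((ζ - 1) * br ζ (i + 1)) = 1 - ζ ^ k := by
        rw [br_mul, mul_sub, ← pow_add, hi, hζ.pow_eq_one, mul_one]
      linear_combination h1 + h2
    have h4 := congrArg (δ' ^ k) h3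
    rw [map_mul, map_mul, hDc, hDν] at h4
    have hg : e = (ν - br ζ (i + 1)) *
        (-(br ζ (i + 1))⁻¹ * ∏ j ∈ (range n).erase i, (1 - ν * (br ζ (j + 1))⁻¹)) := by
      rw [he, ← mul_prod_erase _ _ hin, hfac i hin, mul_assoc]
    have hgO : -(br ζ (i + 1))⁻¹ * ∏ j ∈ (range n).erase i, (1 - ν * (br ζ (j + 1))⁻¹) ∈ O :=
      mul_mem (neg_mem (hβO i hin)) (prod_mem fun j hj => hfO j (mem_of_mem_erase hj))
    set g := -(br ζ (i + 1))⁻¹ * ∏ j ∈ (range n).erase i, (1 - ν * (br ζ (j + 1))⁻¹) with hgdef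
    set a'' := (δ' ^ k) (a * ∏ i ∈ range n, (-(br ζ (i + 1))⁻¹)) with ha''
    have ha''O : a'' ∈ O := hDO k _ h3O
    have hζk : ζ ^ (i + 1) * ζ ^ k = 1 := by rw [← pow_add, add_comm, hi, hζ.pow_eq_one]
    refine ⟨g * ζ ^ (i + 1) * a'', mul_mem (mul_mem hgO (pow_mem hζO _)) ha''O, ?_⟩
    have h5 : (δ' ^ k) e * (ν - br ζ (i + 1)) = c0 * (ζ ^ (i + 1) * a'') := by
      linear_combination ζ ^ (i + 1) * h4 - (δ' ^ k) e * (ν - br ζ (i + 1)) * hζk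
    calc e * (δ' ^ k) e = ((ν - br ζ (i + 1)) * g) * (δ' ^ k) e :=
          congrArg (· * (δ' ^ k) e) hg
      _ = g * ((δ' ^ k) e * (ν - br ζ (i + 1))) := by ring
      _ = c0 * (g * ζ ^ (i + 1) * a'') := by rw [h5]; ring
  · -- (5)
    have h6 : ∀ k : ℕ, (δ' ^ k) e = ((n + 1 : ℕ) : F')⁻¹ * ∑ i ∈ range (n + 1), (ζ ^ i) ^ k * y ^ i := by
      intro k
      rw [he', map_mul, map_inv₀, map_natCast, map_sum]
      congr 1
      refine sum_congr rfl fun i _ => ?_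
      rw [map_pow, hDy, mul_pow, ← pow_mul, ← pow_mul, mul_comm k i]
    simp_rw [h6]
    rw [← mul_sum, sum_comm]
    simp_rw [← sum_mul]
    rw [sum_eq_single 0]
    · simp only [pow_zero, one_pow, sum_const, card_range, nsmul_eq_mul, mul_one]
      exact inv_mul_cancel₀ hp0
    · intro i hi hi0
      have hne : ζ ^ i - 1 ≠ 0 := sub_ne_zero.mpr
        (hζ.pow_ne_one_of_pos_of_lt hi0 (mem_range.mp hi))
      have h7 : (∑ k ∈ range (n + 1), (ζ ^ i) ^ k) * (ζ ^ i - 1) = 0 := by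
        rw [geom_sum_mul, ← pow_mul, mul_comm, pow_mul, hζ.pow_eq_one, one_pow, sub_self]
      rw [(mul_eq_zero.mp h7).resolve_right hne, zero_mul]
    · exact fun h => absurd (mem_range.mpr n.succ_pos) h

/-- `ν` is integral -/
theorem isIntegral_nu {F' : Type*} [Field F'] (p : ℕ) (hp : p.Prime) (O : Subring F')
    (ζ : F') (hζ : IsPrimitiveRoot ζ p) (hζO : ζ ∈ O) (ν κ : F') (hκO : κ ∈ O)
    (hκ : (1 + (ζ - 1) * ν) ^ p - 1 = (ζ - 1) ^ p * κ) : IsIntegral O ν := by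
  have hπ : ζ - 1 ≠ 0 := sub_ne_zero.mpr (hζ.ne_one hp.one_lt)
  have h1 := prod_nu hp.pos hζ ν
  rw [hκ] at h1
  have h2 := mul_left_cancel₀ (pow_ne_zero _ hπ) h1
  have hm : (∏ i ∈ range p, (Polynomial.X - Polynomial.C (⟨br ζ i, br_mem O hζO i⟩ : O))).Monic :=
    Polynomial.monic_prod_of_monic _ _ fun i _ => Polynomial.monic_X_sub_C _
  have hd : (∏ i ∈ range p, (Polynomial.X - Polynomial.C (⟨br ζ i, br_mem O hζO i⟩ : O))).natDegree = p := by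
    rw [Polynomial.natDegree_prod_of_monic _ _ fun i _ => Polynomial.monic_X_sub_C _]
    simp
  refine ⟨∏ i ∈ range p, (Polynomial.X - Polynomial.C (⟨br ζ i, br_mem O hζO i⟩ : O)) -
    Polynomial.C (⟨κ, hκO⟩ : O), hm.sub_of_left ?_, ?_⟩
  · rw [Polynomial.degree_eq_natDegree hm.ne_zero, hd]
    exact lt_of_le_of_lt Polynomial.degree_C_le (by exact_mod_cast hp.pos)
  · rw [Polynomial.eval₂_sub, Polynomial.eval₂_finsetProd, Polynomial.eval₂_C]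
    simp only [Polynomial.eval₂_sub, Polynomial.eval₂_X, Polynomial.eval₂_C]
    show ∏ i ∈ range p, (ν - br ζ i) - κ = 0
    rw [← h2, sub_self]

/-- two idempotents attached to associated parameters are congruent -/
theorem eA_congr {F' : Type*} [Field F'] (O : Subring F') (c0 : F') (hc0 : c0 ∈ O) {e e' ν ν' : F'} (he : e ∈ O) (he' : e' ∈ O)
    (h1 : ∃ b ∈ O, e = 1 + ν * b) (h2 : ∃ a ∈ O, e * ν = c0 * a)
    (h1' : ∃ b ∈ O, e' = 1 + ν' * b) (h2' : ∃ a ∈ O, e' * ν' = c0 * a)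
    (h : ∃ w ∈ O, ∃ a ∈ O, ν' = ν * w + c0 * a) (h' : ∃ w ∈ O, ∃ a ∈ O, ν = ν' * w + c0 * a) :
    ∃ a ∈ O, e' - e = c0 * a := by
  obtain ⟨b, hbO, hb⟩ := h1
  obtain ⟨a, haO, ha⟩ := h2
  obtain ⟨b', hbO', hb'⟩ := h1'
  obtain ⟨a', haO', ha'⟩ := h2'
  obtain ⟨w, hwO, a1, ha1O, hw⟩ := h
  obtain ⟨w', hwO', a2, ha2O, hw'⟩ := h'
  refine ⟨a * w * b' + e * a1 * b' - a' * w' * b - e' * a2 * b, ?_, ?_⟩
  · exact sub_mem (sub_mem (add_mem (mul_mem (mul_mem haO hwO) hbO') (mul_mem (mul_mem he ha1O) hbO'))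
      (mul_mem (mul_mem haO' hwO') hbO)) (mul_mem (mul_mem he' ha2O) hbO)
  · linear_combination e * hb' + e * b' * hw + w * b' * ha - e' * hb - e' * b * hw' - w' * b * ha'

end Fermat.Agent.S44.Cov.Sh
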