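import Mathlib

/-!
# S44 / GEO / COVER / C3 (SHEET) : descent of integrality      [key S44/C3-ABS4]   (Mathlib only)   (helper4)

`R ⊂ E ⊂ E' ⊂ F'`, `Os ⊂ F ⊂ F'`, `δ ∈ Aut(E'/E)` of finite order `n` with fixed field `E`, `δ' ∈ Aut(F'/F)` extending `δ`.
`hcl`: an element of `E` which is integral over `Os` (in `F'`) comes from `R`.      Then `x ∈ E'` integral over `Os` ⟹ `x` integral over `R`.

## Proof
`P := ∏_{k<n} (X - C (δ^k x)) ∈ E'[X]`, monic (`Polynomial.monic_prod_of_monic`, `monic_X_sub_C`), `P(x) = 0` (factor `k = 0`).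
* `P.map δ = P` (as in `Alg.Sheet.tr_fixed`: `Finset.prod_range_succ` / `prod_range_succ'`, `δ^n x = x`), so every coefficient is `δ`-fixed, so comes from `E` (`fix`).
* every coefficient, mapped to `F'`, is integral over `Os`:  `P.map (algebraMap E' F') = ∏ (X - C (δ'^k x'))`, `x' = algebraMap x`, `δ'^k x'` is integral over `Os`
  (`IsIntegral.map` for the `Os`-algebra hom `(δ'^k).restrictScalars`; or `hx.map ((δ' ^ k : F' ≃ₐ[F] F').toAlgHom.restrictScalars Os)`), so the polynomial lies in
  `Polynomial.lifts (algebraMap (integralClosure Os F') F')` (a subsemiring: `Subsemiring.prod_mem`, `Polynomial.lifts_iff_coeff_lifts`).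
* `hcl`: every coefficient comes from `R`: `P = Q.map (algebraMap R E')` (`Polynomial.lifts_iff_coeff_lifts`, `Polynomial.lifts_and_degree_eq_and_monic` gives `Q` monic).   `IsIntegral R x := ⟨Q, monic, eval₂ = 0⟩`.
-/

set_option autoImplicit false

open Finset

namespace Fermat.Agent.S44.Cov.Sh

theorem isIntegral_of_big {R E E' F F' : Type*} [CommRing R] [Field E] [Field E'] [Field F] [Field F'] [Algebra R E]
    [Algebra E E'] [Algebra R E'] [IsScalarTower R E E'] [Algebra E' F'] [Algebra F F']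
    (δ : E' ≃ₐ[E] E') (n : ℕ) (hn : 0 < n) (pow : ∀ x, (δ ^ n) x = x)
    (fix : ∀ x, δ x = x → ∃ y : E, algebraMap E E' y = x)
    (δ' : F' ≃ₐ[F] F') (hδ : ∀ x : E', δ' (algebraMap E' F' x) = algebraMap E' F' (δ x))
    (Os : Subring F)
    (hcl : ∀ z : E, IsIntegral Os (algebraMap E' F' (algebraMap E E' z)) → ∃ r : R, algebraMap R E r = z)
    (x : E') (hx : IsIntegral Os (algebraMap E' F' x)) : IsIntegral R x := by
  classical
  set P : Polynomial E' := ∏ k ∈ range n, (Polynomial.X - Polynomial.C ((δ ^ k) x)) with hP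
  have hmonic : P.Monic := Polynomial.monic_prod_of_monic _ _ fun k _ => Polynomial.monic_X_sub_C _
  have hroot : P.eval x = 0 := by
    rw [hP, Polynomial.eval_prod]
    exact Finset.prod_eq_zero (Finset.mem_range.2 hn) (by simp)
  -- `P` is `δ`-invariant
  have hinv : P.map (δ : E' →+* E') = P := by
    have h1 : P.map (δ : E' →+* E') = ∏ k ∈ range n, (Polynomial.X - Polynomial.C ((δ ^ (k + 1)) x)) := by
      rw [hP, Polynomial.map_prod]
      refine Finset.prod_congr rfl fun k _ => ?_
      rw [Polynomial.map_sub, Polynomial.map_X, Polynomial.map_C, pow_succ', AlgEquiv.mul_apply]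
      rfl
    have h2 := Finset.prod_range_succ (fun k => (Polynomial.X - Polynomial.C ((δ ^ k) x))) n
    have h3 := Finset.prod_range_succ' (fun k => (Polynomial.X - Polynomial.C ((δ ^ k) x))) n
    have h4 : (δ ^ 0) x = x := by simp
    rw [h2, pow, h4] at h3
    rw [h1, hP]
    exact (mul_right_cancel₀ (Polynomial.X_sub_C_ne_zero x) h3).symm
  -- powers of `δ'`
  have hδk : ∀ (k : ℕ) (y : E'), (δ' ^ k) (algebraMap E' F' y) = algebraMap E' F' ((δ ^ k) y) := by
    intro k
    induction k with
    | zero => intro y; simp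
    | succ k ih =>
      intro y
      rw [pow_succ', pow_succ', AlgEquiv.mul_apply, AlgEquiv.mul_apply, ih, hδ]
  -- the coefficients are integral over `Os`
  have hlift : P.map (algebraMap E' F') ∈ Polynomial.lifts (algebraMap (integralClosure Os F') F') := by
    rw [hP, Polynomial.map_prod]
    refine Subsemiring.prod_mem _ fun k _ => ?_
    have hk : IsIntegral Os ((δ' ^ k) (algebraMap E' F' x)) :=
      hx.map ((δ' ^ k : F' ≃ₐ[F] F').toAlgHom.restrictScalars Os)
    rw [Polynomial.map_sub, Polynomial.map_X, Polynomial.map_C, ← hδk]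
    refine ⟨Polynomial.X - Polynomial.C ⟨_, hk⟩, ?_⟩
    simp
  have hcoef : ∀ i, ∃ r : R, algebraMap R E' r = P.coeff i := by
    intro i
    have hfix : δ (P.coeff i) = P.coeff i := by
      conv_rhs => rw [← hinv, Polynomial.coeff_map]
      rfl
    obtain ⟨y, hy⟩ := fix _ hfix
    have hint : IsIntegral Os (algebraMap E' F' (algebraMap E E' y)) := by
      rw [hy]
      obtain ⟨z, hz⟩ := (Polynomial.lifts_iff_coeff_lifts _).1 hlift i
      rw [Polynomial.coeff_map] at hz
      rw [← hz]
      exact z.2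
    obtain ⟨r, hr⟩ := hcl y hint
    exact ⟨r, by rw [IsScalarTower.algebraMap_apply R E E', hr, hy]⟩
  have hPl : P ∈ Polynomial.lifts (algebraMap R E') :=
    (Polynomial.lifts_iff_coeff_lifts _).2 fun i => hcoef i
  obtain ⟨Q, hQ, -, hQm⟩ := Polynomial.lifts_and_degree_eq_and_monic hPl hmonic
  exact ⟨Q, hQm, by rw [Polynomial.eval₂_eq_eval_map, hQ, hroot]⟩

end Fermat.Agent.S44.Cov.Sh
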