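import Mathlib

/-!
# S44 / GEO / COVER / C3 (SHEET) : abstract form of `Sh/Fix.lean`      [key S44/C3-FIX]   (Mathlib only)   (helper12)

`K → F → F'` fields, `F' = F(y)` (`gen`), `δ ∈ Aut(F'/F)`, `δ y = ζ y`, `ζ ∈ K`, `ζ^q = 1`.
-/

set_option autoImplicit false

open Finset

namespace Fermat.Agent.S44.Cov.Sh.FixAbs

variable {K F F' : Type*} [Field K] [Field F] [Field F'] [Algebra K F] [Algebra F F']
  {q : ℕ} {ζ : K} {y : F'} {δ : F' ≃ₐ[F] F'}

theorem pow_y (δ_y : δ y = algebraMap F F' (algebraMap K F ζ) * y) (k : ℕ) :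
    (δ ^ k) y = algebraMap F F' (algebraMap K F (ζ ^ k)) * y := by
  induction k with
  | zero => rw [pow_zero, pow_zero, map_one, map_one, one_mul]; rfl
  | succ k ih =>
    rw [pow_succ' δ k, AlgEquiv.mul_apply, ih, map_mul, AlgEquiv.commutes, δ_y, pow_succ ζ k,
      map_mul, map_mul]
    ring

theorem pow_sum (δ_y : δ y = algebraMap F F' (algebraMap K F ζ) * y) (k : ℕ) (c : ℕ → F) :
    (δ ^ k) (∑ i ∈ range q, algebraMap F F' (c i) * y ^ i) =
      ∑ i ∈ range q, algebraMap F F' (c i) * y ^ i *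
        (algebraMap F F' (algebraMap K F ζ) ^ i) ^ k := by
  rw [map_sum]
  refine sum_congr rfl fun i _ => ?_
  rw [map_mul, AlgEquiv.commutes, map_pow, pow_y δ_y, mul_pow, map_pow, map_pow, ← pow_mul,
    ← pow_mul, mul_comm k i]
  ring

theorem pow_q (ζ_pow : ζ ^ q = 1)
    (gen : ∀ x : F', ∃ c : ℕ → F, x = ∑ i ∈ range q, algebraMap F F' (c i) * y ^ i)
    (δ_y : δ y = algebraMap F F' (algebraMap K F ζ) * y) (x : F') : (δ ^ q) x = x := by
  obtain ⟨c, rfl⟩ := gen x
  rw [pow_sum δ_y]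
  refine sum_congr rfl fun i _ => ?_
  have h1 : algebraMap F F' (algebraMap K F ζ) ^ q = 1 := by
    rw [← map_pow, ← map_pow, ζ_pow, map_one, map_one]
  rw [← pow_mul, mul_comm i q, pow_mul, h1, one_pow, mul_one]

theorem fix (hq : (q : F') ≠ 0) (hζ : IsPrimitiveRoot ζ q)
    (gen : ∀ x : F', ∃ c : ℕ → F, x = ∑ i ∈ range q, algebraMap F F' (c i) * y ^ i)
    (δ_y : δ y = algebraMap F F' (algebraMap K F ζ) * y) {x : F'} (hx : δ x = x) :
    ∃ f : F, algebraMap F F' f = x := by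
  have hq0 : 0 < q := Nat.pos_of_ne_zero (by rintro rfl; simp at hq)
  have hZ : IsPrimitiveRoot (algebraMap F F' (algebraMap K F ζ)) q :=
    (hζ.map_of_injective (algebraMap K F).injective).map_of_injective (algebraMap F F').injective
  set Z := algebraMap F F' (algebraMap K F ζ) with hZdef
  have hk : ∀ k : ℕ, (δ ^ k) x = x := by
    intro k
    induction k with
    | zero => rfl
    | succ k ih => rw [pow_succ' δ k, AlgEquiv.mul_apply, ih, hx]
  obtain ⟨c, hc⟩ := gen x
  have h1 : (q : F') * x = ∑ k ∈ range q, (δ ^ k) x := by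
    simp only [hk, sum_const, card_range, nsmul_eq_mul]
  have h2 : ∑ k ∈ range q, (δ ^ k) x = (q : F') * algebraMap F F' (c 0) := by
    conv_lhs => rw [hc]
    simp_rw [pow_sum δ_y]
    rw [sum_comm]
    simp_rw [← mul_sum]
    rw [sum_eq_single 0]
    · simp only [pow_zero, one_pow, sum_const, card_range, nsmul_eq_mul, mul_one]
      ring
    · intro i hi hi0
      have hne : Z ^ i - 1 ≠ 0 := sub_ne_zero.mpr
        (hZ.pow_ne_one_of_pos_of_lt hi0 (mem_range.mp hi))
      have h7 : (∑ k ∈ range q, (Z ^ i) ^ k) * (Z ^ i - 1) = 0 := by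
        rw [geom_sum_mul, ← pow_mul, mul_comm, pow_mul, hZ.pow_eq_one, one_pow, sub_self]
      rw [(mul_eq_zero.mp h7).resolve_right hne, mul_zero]
    · exact fun h => absurd (mem_range.mpr hq0) h
  exact ⟨c 0, (mul_left_cancel₀ hq (h1.trans h2)).symm⟩

theorem deg [NeZero q] {t g : F} (y_pow : y ^ q = algebraMap F F' t) (ht : t = g ^ q) {μ : K}
    (hμ : IsPrimitiveRoot μ q)
    (gen : ∀ x : F', ∃ c : ℕ → F, x = ∑ i ∈ range q, algebraMap F F' (c i) * y ^ i) (x : F') :
    ∃ f : F, algebraMap F F' f = x := by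
  have hy : ∃ f : F, algebraMap F F' f = y := by
    by_cases hg : g = 0
    · refine ⟨0, ?_⟩
      rw [ht, hg, zero_pow (NeZero.ne q), map_zero] at y_pow
      rw [map_zero, pow_eq_zero_iff (NeZero.ne q) |>.mp y_pow]
    · have hg' : algebraMap F F' g ≠ 0 := (map_ne_zero _).mpr hg
      have hZ : IsPrimitiveRoot (algebraMap F F' (algebraMap K F μ)) q :=
        (hμ.map_of_injective (algebraMap K F).injective).map_of_injective
          (algebraMap F F').injective
      have h1 : (y / algebraMap F F' g) ^ q = 1 := by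
        rw [div_pow, y_pow, ht, map_pow, div_self (pow_ne_zero _ hg')]
      obtain ⟨i, -, hi⟩ := hZ.eq_pow_of_pow_eq_one h1
      refine ⟨algebraMap K F μ ^ i * g, ?_⟩
      rw [map_mul, map_pow, hi, div_mul_cancel₀ _ hg']
  obtain ⟨f, rfl⟩ := hy
  obtain ⟨c, rfl⟩ := gen x
  exact ⟨∑ i ∈ range q, c i * f ^ i, by simp only [map_sum, map_mul, map_pow]⟩

end Fermat.Agent.S44.Cov.Sh.FixAbs
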