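import Fermat.Agent.S44.Geo.Cov.Defs
import Fermat.Agent.S44.Geo.Cov.Sh.FixAbs

/-!
# S44 / GEO / COVER / C3 (SHEET) : `δ` has order `p` and fixed field `E`; the degenerate case      [key S44/C3-FIX]   (helper4)

`C : Cov q M1 hc t F'`, `alg = algebraMap F F'`, `cst = kc q M1 F' : Kb →+* F'`, `cst a = alg (algebraMap Kb F a)` (by `rfl`).
* `δ_pow_y`: `δ^k y = cst (ζ^k) * y` (induction, `C.δ_y`, `AlgEquiv.commutes`, `pow_succ'`, `AlgEquiv.mul_apply`).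
* `δ_pow_q`: `x = ∑ alg (c i) y^i` (`C.gen`), `δ^q (y^i) = cst (ζ^q)^i y^i = y^i`.
* `δ_fix`: (`ζ` primitive) `δ x = x` ⟹ `q x = ∑_{k<q} δ^k x = ∑_i alg (c i) y^i ∑_k cst (ζ^(k i)) = q alg (c 0)` (`∑_{k<q} (ζ^i)^k = 0` for `0 < i < q`: `IsPrimitiveRoot.geom_sum_eq_zero` for `ζ^i`, `hζ.pow_of_coprime`), `(q : F') ≠ 0` (char. 0: `Kb → F'` is a ring hom from a char. 0 field).
* `δE_pow`, `δE_fix`: for `x ∈ E'`: `x = alg f`; `alg (gal σ f) = act σ x = x = alg f` (`C.act_alg`), so `f ∈ EE = ratF .. (Iq q)`.   (`(C.δE ^ k) x` coerces to `(C.δ ^ k) x`: induction, `coe_δE_pow`.)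
* `deg`: `ζ = 1` ⟹ (`C.ζ_iff 1`) `t = g^q`; `(y / alg g)^q = 1`; the `q`-th roots of unity of `F'` are the `cst μ`, `μ^q = 1` in `Kb` (`Kb` alg. closed: there is a primitive root `μ₀` (`IsAlgClosed`/`HasEnoughRootsOfUnity`, or `S33.exists_zeta`-type lemma, e.g. `Geo.exists_zeta` in `Geo/TlVal.lean`); `cst μ₀` is primitive in `F'` (`IsPrimitiveRoot.map_of_injective`), `eq_pow_of_pow_eq_one`); so `y = alg (μ g)`, and by `C.gen` every `x` is `alg f`.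
-/

set_option autoImplicit false
set_option synthInstance.maxHeartbeats 400000

open HahnSeries ModularCurve AlgebraicCurve Fermat.Agent.S24 Fermat.Agent.S29 Fermat.Agent.S18
  Fermat.Agent.ES Fermat.Agent.ES.Alg Fermat.Agent.S34.Mod Fermat.Agent.S05 Fermat.Agent.S55.B ExtCitation
  Fermat.Agent.S33 Fermat.Agent.S33.M
open Fermat.Agent.S55 (Dq Iq)

noncomputable section

namespace Fermat.Agent.S44.Cov.Sh

variable {q : Nat.Primes} {M1 r : ℕ} [NeZero M1] [NeZero (q : ℕ)] [NeZero r]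

variable {hc : Nat.Coprime (q : ℕ) M1} {t : FN (M1 * (q : ℕ))} {F' : Type} [Field F']
  [Algebra (FN (M1 * (q : ℕ))) F'] (C : Cov q M1 hc t F')

/-- constants `Kb → F'` -/
abbrev kc (q : Nat.Primes) (M1 : ℕ) [NeZero M1] [NeZero (q : ℕ)] (F' : Type) [Field F']
    [Algebra (FN (M1 * (q : ℕ))) F'] : Kb →+* F' :=
  (algebraMap (FN (M1 * (q : ℕ))) F').comp (algebraMap Kb (FN (M1 * (q : ℕ))))

theorem δ_pow_y (k : ℕ) : (C.δ ^ k) C.y = kc q M1 F' (C.ζ ^ k) * C.y :=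
  FixAbs.pow_y C.δ_y k

theorem δ_pow_q (x : F') : (C.δ ^ (q : ℕ)) x = x :=
  FixAbs.pow_q C.ζ_pow C.gen C.δ_y x

theorem δ_fix (hζ : IsPrimitiveRoot C.ζ (q : ℕ)) {x : F'} (hx : C.δ x = x) :
    ∃ f : FN (M1 * (q : ℕ)), algebraMap (FN (M1 * (q : ℕ))) F' f = x := by
  have hq : ((q : ℕ) : F') ≠ 0 := by
    have : CharZero F' := charZero_of_injective_ringHom (kc q M1 F').injective
    exact Nat.cast_ne_zero.mpr q.2.ne_zero
  exact FixAbs.fix hq hζ C.gen C.δ_y hx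

theorem coe_δE_pow (k : ℕ) (x : C.Ep) : (((C.δE ^ k) x : C.Ep) : F') = (C.δ ^ k) (x : F') := by
  induction k with
  | zero => rfl
  | succ k ih =>
    rw [pow_succ' C.δE k, pow_succ' C.δ k, AlgEquiv.mul_apply, AlgEquiv.mul_apply, Cov.coe_δE]
    exact congrArg C.δ ih

theorem δE_pow (x : C.Ep) : (C.δE ^ (q : ℕ)) x = x :=
  Subtype.ext (by rw [coe_δE_pow, δ_pow_q])

theorem mem_EE_of_alg_mem {f : FN (M1 * (q : ℕ))} (h : algebraMap (FN (M1 * (q : ℕ))) F' f ∈ C.Ep) :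
    f ∈ Mod.EE q M1 := by
  intro σ hσ
  apply (algebraMap (FN (M1 * (q : ℕ))) F').injective
  rw [← C.act_alg ⟨σ, hσ⟩]
  exact h ⟨σ, hσ⟩

theorem δE_fix (hζ : IsPrimitiveRoot C.ζ (q : ℕ)) (x : C.Ep) (hx : C.δE x = x) :
    ∃ y : Mod.EE q M1, algebraMap (Mod.EE q M1) C.Ep y = x := by
  obtain ⟨f, hf⟩ := δ_fix C hζ (x := (x : F')) (congrArg Subtype.val hx)
  refine ⟨⟨f, mem_EE_of_alg_mem C (by rw [hf]; exact x.2)⟩, Subtype.ext ?_⟩
  rw [Cov.coe_algebraMap_E]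
  exact hf

/-- the degenerate case -/
theorem deg (hζ : C.ζ = 1) (x : F') : ∃ f : FN (M1 * (q : ℕ)), algebraMap (FN (M1 * (q : ℕ))) F' f = x := by
  obtain ⟨g, hg⟩ := (C.ζ_iff 1).mp (by rw [pow_one, hζ])
  rw [pow_one] at hg
  obtain ⟨μ, hμ⟩ := HasEnoughRootsOfUnity.exists_primitiveRoot Kb (q : ℕ)
  exact FixAbs.deg C.y_pow hg hμ C.gen x

end Fermat.Agent.S44.Cov.Sh
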