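import Fermat.Agent.S44.Geo.Cov.Sh.OsCl
import Fermat.Agent.S44.Geo.Cov.Sh.Fix
import Fermat.Agent.S44.Geo.Cov.Sh.Abs4

/-!
# S44 / GEO / COVER / C3 (SHEET) : `𝒪' =` the integral closure of `O_s` in `F'`      [key S44/C3-OO]   (helper4)   (~150 lines)

* `alg_mem_OO`: `isIntegral_algebraMap` (for `⟨x, hx⟩ : Os`; `algebraMap (Os) F' ⟨x, hx⟩ = alg x` by `rfl`).
* `OO_closed`: `x` integral over the subring `OO` ⟹ `x ∈ OO` (`isIntegral_trans` / `IsIntegralClosure`; `integralClosure_idem`-argument; the algebra `↥(OO ..) → F'` is the inclusion).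
* `δ_mem_OO`: `hx.map ((C.δ : F' ≃ₐ[F] F').toAlgHom.restrictScalars (Os S b 𝔫))`.
* `act_mem_OO`: `P` monic over `Os` with `P(x) = 0`; `P^σ := P.map (gal σ restricted to Os)` (`gal_mem_Os`; as a ring hom `Os →+* Os`) is monic and `P^σ (act σ x) = act σ (P(x)) = 0` (`C.act_alg`; `Polynomial.eval₂_map`, `Polynomial.hom_eval₂`).
* `desc`: `Sh.isIntegral_of_big C.δE q q.2.pos (δE_pow C) (δE_fix C hζ) C.δ (fun _ => rfl) (Os S b 𝔫) hcl x hx`, `hcl`: `z : EE`, `alg z` integral over `Os` in `F'` ⟹ `z` integral over `Os` in `F`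
  (`isIntegral_algebraMap_iff (algebraMap F F').injective`) ⟹ `Os_closed` ⟹ `mem_Rn_of_mem_Os`.
-/

set_option autoImplicit false
set_option synthInstance.maxHeartbeats 400000

open HahnSeries ModularCurve AlgebraicCurve Fermat.Agent.S24 Fermat.Agent.S29 Fermat.Agent.S18
  Fermat.Agent.ES Fermat.Agent.ES.Alg Fermat.Agent.S34.Mod Fermat.Agent.S05 Fermat.Agent.S55.B ExtCitation
  Fermat.Agent.S33 Fermat.Agent.S33.M
open Fermat.Agent.S55 (Dq Iq)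

noncomputable section

namespace Fermat.Agent.S44.Cov.Sh

variable {q : Nat.Primes} {M1 r : ℕ} [NeZero M1] [NeZero (q : ℕ)] [NeZero r]

variable (S : Setup M1 (q : ℕ) r (AA q)) (b : Bool) (𝔫 : Ideal (Mod.BB S b)) [h𝔫 : 𝔫.IsPrime]

/-- `𝒪'` -/
def OO (F' : Type) [Field F'] [Algebra (FN (M1 * (q : ℕ))) F'] : Subring F' :=
  (integralClosure (Os S b 𝔫) F').toSubring

variable {S b 𝔫}
variable {t : FN (M1 * (q : ℕ))} {F' : Type} [Field F'] [Algebra (FN (M1 * (q : ℕ))) F']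

theorem mem_OO {x : F'} : x ∈ OO S b 𝔫 F' ↔ IsIntegral (Os S b 𝔫) x := Iff.rfl

theorem alg_mem_OO {x : FN (M1 * (q : ℕ))} (hx : x ∈ Os S b 𝔫) :
    algebraMap (FN (M1 * (q : ℕ))) F' x ∈ OO S b 𝔫 F' :=
  isIntegral_algebraMap (R := Os S b 𝔫) (A := F') (x := ⟨x, hx⟩)

theorem OO_closed {x : F'} (hx : IsIntegral (OO S b 𝔫 F') x) : x ∈ OO S b 𝔫 F' :=
  isIntegral_trans (R := Os S b 𝔫) (A := integralClosure (Os S b 𝔫) F') x hx

variable (C : Cov q M1 S.hc t F')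

theorem δ_mem_OO {x : F'} (hx : x ∈ OO S b 𝔫 F') : C.δ x ∈ OO S b 𝔫 F' := by
  refine IsIntegral.map_of_comp_eq (RingHom.id (Os S b 𝔫)) (C.δ : F' →+* F') ?_ hx
  ext z
  exact (C.δ.commutes (z : FN (M1 * (q : ℕ)))).symm

theorem act_mem_OO (σ : ↥(Iq q)) {x : F'} (hx : x ∈ OO S b 𝔫 F') : C.act σ x ∈ OO S b 𝔫 F' := by
  refine IsIntegral.map_of_comp_eq
    (((gal (M1 * (q : ℕ)) (σ : GQ) : FN (M1 * (q : ℕ)) ≃+* FN (M1 * (q : ℕ))) :
      FN (M1 * (q : ℕ)) →+* FN (M1 * (q : ℕ))).restrict (Os S b 𝔫) (Os S b 𝔫)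
        (fun z hz => gal_mem_Os σ.2 hz)) (C.act σ : F' →+* F') ?_ hx
  ext z
  exact (C.act_alg σ (z : FN (M1 * (q : ℕ)))).symm

/-- descent of integrality -/
theorem desc (hζ : IsPrimitiveRoot C.ζ (q : ℕ)) (x : C.Ep) (hx : (x : F') ∈ OO S b 𝔫 F') :
    IsIntegral (Rn S b 𝔫) x := by
  refine @isIntegral_of_big (Rn S b 𝔫) (Mod.EE q M1) C.Ep (FN (M1 * (q : ℕ))) F' _ _ _ _ _ _ _ _
    (IsScalarTower.of_algebraMap_eq' rfl) _ _ C.δE (q : ℕ) q.2.pos (δE_pow C) (δE_fix C hζ) C.δ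
    (fun _ => rfl) (Os S b 𝔫) ?_ x hx
  intro z hz
  have h1 : IsIntegral (Os S b 𝔫) (algebraMap (FN (M1 * (q : ℕ))) F' (z : FN (M1 * (q : ℕ)))) := hz
  have h2 : IsIntegral (Os S b 𝔫) (z : FN (M1 * (q : ℕ))) :=
    (isIntegral_algebraMap_iff (algebraMap (FN (M1 * (q : ℕ))) F').injective).1 h1
  exact ⟨⟨z, mem_Rn_of_mem_Os (Os_closed h2)⟩, rfl⟩

end Fermat.Agent.S44.Cov.Sh
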