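import Fermat.Agent.S44.Geo.Cov.Sh.Os

/-!
# S44 / GEO / COVER / C3 (SHEET) : `O_s` is integrally closed in `F`      (helper4)

## [S44/C3-OS2]  `Os_closed`   (~60 lines)
`x` integral over `Os`: monic `P`, finitely many coefficients `a_i ∈ Os`, `a_i d_i ∈ C_b`; `d := ∏ d_i ∉ 𝔫`; `d x` is integral over `C_b` (scale the roots: `Polynomial.scaleRoots`, or
`IsIntegral.exists_multiple_integral_of_isLocalization`), `C_b` is the integral closure of `A[θ]` in `F` (`KL.mem_C0`, `ch1_isIntegralElem_trans` in `S34/Mod/Chart.lean`), so `d x ∈ C_b`.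

-/

set_option autoImplicit false
set_option synthInstance.maxHeartbeats 400000

open HahnSeries ModularCurve AlgebraicCurve Fermat.Agent.S24 Fermat.Agent.S29 Fermat.Agent.S18
  Fermat.Agent.ES Fermat.Agent.ES.Alg Fermat.Agent.S34.Mod Fermat.Agent.S05 Fermat.Agent.S55.B ExtCitation
  Fermat.Agent.S33 Fermat.Agent.S33.M
open Fermat.Agent.S55 (Dq Iq)

noncomputable section

namespace Fermat.Agent.S44.Cov.Sh

variable {q : Nat.Primes} {M1 r : ℕ} [NeZero M1] [NeZero (q : ℕ)] [NeZero r]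
variable {S : Setup M1 (q : ℕ) r (AA q)} {b : Bool} {𝔫 : Ideal (Mod.BB S b)} [h𝔫 : 𝔫.IsPrime]

/-! ### [S44/C3-OS2] -/

/-- `O_s` is integrally closed in `F` -/
theorem Os_closed {x : FN (M1 * (q : ℕ))} (hx : IsIntegral (Os S b 𝔫) x) : x ∈ Os S b 𝔫 := by
  classical
  obtain ⟨P, hP, hPx⟩ := hx
  have hden : ∀ s : Finset ℕ, ∃ d : Mod.BB S b, d ∉ 𝔫 ∧ ∀ i ∈ s,
      ((P.coeff i : Os S b 𝔫) : FN (M1 * (q : ℕ))) * cF d ∈ KL.C0 (AA q) (S.θM b) (FN (M1 * (q : ℕ))) := by
    intro s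
    induction s using Finset.induction_on with
    | empty => exact ⟨1, one_not_mem, by simp⟩
    | insert a s ha ih =>
      obtain ⟨d, hd, h⟩ := ih
      obtain ⟨d', hd', h'⟩ := (P.coeff a).2
      refine ⟨d * d', fun h0 => (h𝔫.mem_or_mem h0).elim hd hd', ?_⟩
      intro i hi
      rcases Finset.mem_insert.1 hi with rfl | hi
      · have e : ((P.coeff i : Os S b 𝔫) : FN (M1 * (q : ℕ))) * cF (d * d') =
            (((P.coeff i : Os S b 𝔫) : FN (M1 * (q : ℕ))) * cF d') * cF d := by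
          show _ * (cF d * cF d') = _
          ring
        rw [e]
        exact mul_mem h' d.2
      · have e : ((P.coeff i : Os S b 𝔫) : FN (M1 * (q : ℕ))) * cF (d * d') =
            (((P.coeff i : Os S b 𝔫) : FN (M1 * (q : ℕ))) * cF d) * cF d' := by
          show _ * (cF d * cF d') = _
          ring
        rw [e]
        exact mul_mem (h i hi) d'.2
  obtain ⟨d, hd, hcoef⟩ := hden (Finset.range P.natDegree)
  have hle : KL.C0 (AA q) (S.θM b) (FN (M1 * (q : ℕ))) ≤ Os S b 𝔫 := fun y hy => C0_le_Os hy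
  have h1 := Polynomial.scaleRoots_eval₂_eq_zero (algebraMap (Os S b 𝔫) (FN (M1 * (q : ℕ))))
    (s := (⟨cF d, C0_le_Os d.2⟩ : Os S b 𝔫)) hPx
  have hlift : Polynomial.scaleRoots P (⟨cF d, C0_le_Os d.2⟩ : Os S b 𝔫) ∈
      Polynomial.lifts (Subring.inclusion hle) := by
    rw [Polynomial.lifts_iff_coeff_lifts]
    intro i
    rw [Polynomial.coeff_scaleRoots]
    rcases lt_trichotomy i P.natDegree with hi | hi | hi
    · have hm : ((P.coeff i : Os S b 𝔫) : FN (M1 * (q : ℕ))) * cF d * cF d ^ (P.natDegree - i - 1) ∈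
          KL.C0 (AA q) (S.θM b) (FN (M1 * (q : ℕ))) :=
        mul_mem (hcoef i (Finset.mem_range.2 hi)) (pow_mem d.2 _)
      refine ⟨⟨_, hm⟩, ?_⟩
      apply Subtype.ext
      show ((P.coeff i : Os S b 𝔫) : FN (M1 * (q : ℕ))) * cF d * cF d ^ (P.natDegree - i - 1) =
        ((P.coeff i : Os S b 𝔫) : FN (M1 * (q : ℕ))) * cF d ^ (P.natDegree - i)
      have : P.natDegree - i = (P.natDegree - i - 1) + 1 := by omega
      conv_rhs => rw [this, pow_succ]
      ring
    · refine ⟨1, ?_⟩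
      rw [hi, Polynomial.Monic.coeff_natDegree hP, map_one]
      simp
    · refine ⟨0, ?_⟩
      rw [Polynomial.coeff_eq_zero_of_natDegree_lt hi, map_zero, zero_mul]
  obtain ⟨Q, hQ, -, hQm⟩ := Polynomial.lifts_and_degree_eq_and_monic hlift
    ((Polynomial.monic_scaleRoots_iff _).2 hP)
  have hint : (KL.C0 (AA q) (S.θM b) (FN (M1 * (q : ℕ)))).subtype.IsIntegralElem (cF d * x) := by
    refine ⟨Q, hQm, ?_⟩
    rw [← hQ, Polynomial.eval₂_map] at h1
    exact h1
  have hmem : cF d * x ∈ KL.C0 (AA q) (S.θM b) (FN (M1 * (q : ℕ))) :=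
    ch1_isIntegralElem_trans (KL.evE (AA q) (S.θM b) (FN (M1 * (q : ℕ))))
      (KL.C0 (AA q) (S.θM b) (FN (M1 * (q : ℕ)))).subtype (fun a => a.2) hint
  exact ⟨d, hd, by rw [mul_comm x (cF d)]; exact hmem⟩

end Fermat.Agent.S44.Cov.Sh
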