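import Fermat.Agent.S44.Geo.Cov.Defs
import Fermat.Agent.S44.Geo.Cov.Fld

/-!
# S44 / GEO / COVER / C3 (SHEET) : `σ y_s = y_s^c G`, `G ∈ F`, `G ≡ 1`      [keys S44/C3-STAB1 (exists_G), S44/C3-STAB2 (G_val)]   (helper4)

`C : Cov q M1 hc t F'`, `alg = algebraMap F F'`, `Y := alg f * C.y`, `σ ∈ I`.

## [S44/C3-STAB1] `exists_G`  (~100 lines)
1. `c` with `Cyc q σ c`: `(σ ζ)^q = 1`, `hζ.eq_pow_of_pow_eq_one` gives `c < q` with `ζ^c = σ ζ`; every `μ` with `μ^q = 1` is a power of `ζ` (copy of `fldAux_exists_cyc` in `Geo/Cov/Fld.lean`).  `q ∤ c`: otherwise `σ ζ = 1`, `ζ = 1`.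
2. `ht.act σ σ.2 c hcyc : gal σ t = t^c * h^q`.   `(act σ y)^q = act σ (alg t) = alg (gal σ t) = (y^c * alg h)^q` (`C.y_pow`, `C.act_alg`).   `y ≠ 0` (`t ≠ 0 : ht.pdiv.1`), `h ≠ 0`.
   `cst ζ := alg (algebraMap Kb F ζ)` is a primitive `q`-th root of unity of `F'` (`hζ.map_of_injective`); `(act σ y / (y^c alg h))^q = 1` ⟹ `act σ y = cst (ζ^j) * y^c * alg h`.
3. `G := gal σ f * (ζ^j h) / f^c`.    `act σ Y = alg (gal σ f) * act σ y = Y^c * alg G`.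
4. `G^q * (f^q t)^c = gal σ (f^q t)`: apply `alg` (injective): `alg (gal σ (f^q t)) = act σ (Y^q) = (act σ Y)^q = Y^(q c) alg G^q`, `Y^q = alg (f^q t)`.

## [S44/C3-STAB2] `G_val`  (~100 lines)   (abstract in the valuation: apply with `(W₁, wG, ext₁, inv₁, y₁)` and `(W₂, wZ, ext₂, inv₂, y₂)`)
`e1 = 1/(q-1) ≤ 1 < 2`.  `W (Y - 1) > e1`: `Y - 1 = alg (f - 1) * y + (y - 1)`, `W y ≥ 0`.   `W (act σ Y - 1) = W (act σ (Y - 1)) > e1` (`inv`).   `W (Y^c - 1) > e1` (`Y^c - 1 = (Y - 1) ∑_{m<c} Y^m`, `W Y ≥ 0`), so `W (Y^c) = 0`.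
`alg (G - 1) * Y^c = (act σ Y - 1) - (Y^c - 1)` has `W > e1`; divide by `Y^c`; `ext`.
-/

set_option autoImplicit false
set_option synthInstance.maxHeartbeats 400000

open HahnSeries ModularCurve AlgebraicCurve Fermat.Agent.S24 Fermat.Agent.S29 Fermat.Agent.S18
  Fermat.Agent.ES Fermat.Agent.ES.Alg Fermat.Agent.S34.Mod Fermat.Agent.S05 Fermat.Agent.S55.B ExtCitation
  Fermat.Agent.S33 Fermat.Agent.S33.M
open Fermat.Agent.S55 (Dq Iq)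

noncomputable section

namespace Fermat.Agent.S44.Cov.Sh

variable {q : Nat.Primes} {M1 r : ℕ} [NeZero M1] [NeZero (q : ℕ)] [NeZero r]

variable {hc : Nat.Coprime (q : ℕ) M1} {t : FN (M1 * (q : ℕ))} {F' : Type} [Field F']
  [Algebra (FN (M1 * (q : ℕ))) F'] (C : Cov q M1 hc t F')

/-- [S44/C3-STAB1] -/
theorem exists_G (ht : GoodT q M1 hc t) (hζ : IsPrimitiveRoot C.ζ (q : ℕ)) {f : FN (M1 * (q : ℕ))}
    (hf : f ≠ 0) (σ : ↥(Iq q)) :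
    ∃ (c : ℕ) (G : FN (M1 * (q : ℕ))), ¬ (q : ℕ) ∣ c ∧ (σ : GQ) C.ζ = C.ζ ^ c ∧
      C.act σ (algebraMap (FN (M1 * (q : ℕ))) F' f * C.y) =
        (algebraMap (FN (M1 * (q : ℕ))) F' f * C.y) ^ c * algebraMap (FN (M1 * (q : ℕ))) F' G ∧
      G ^ (q : ℕ) * (f ^ (q : ℕ) * t) ^ c = gal (M1 * (q : ℕ)) (σ : GQ) (f ^ (q : ℕ) * t) := by
  obtain ⟨c, hcyc⟩ := fldAux_exists_cyc (σ : GQ) hζ
  have hσζ : (σ : GQ) C.ζ = C.ζ ^ c := hcyc C.ζ C.ζ_pow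
  have hqc : ¬ (q : ℕ) ∣ c := by
    rintro ⟨d, rfl⟩
    rw [pow_mul, C.ζ_pow, one_pow] at hσζ
    have h1 : C.ζ = 1 := by
      have := (map_eq_one_iff (σ : GQ) (σ : GQ).injective).1 hσζ
      exact this
    exact q.2.one_lt.ne' (hζ.unique (h1 ▸ IsPrimitiveRoot.one))
  obtain ⟨h₀, hh₀⟩ := ht.act σ σ.2 c hcyc
  have ht0 : t ≠ 0 := ht.pdiv.1
  have hy0 : C.y ≠ 0 := by
    intro h0
    have := C.y_pow
    rw [h0, zero_pow q.2.ne_zero] at this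
    exact ht0 ((map_eq_zero _).1 this.symm)
  have hh0 : h₀ ≠ 0 := by
    rintro rfl
    rw [zero_pow q.2.ne_zero, mul_zero] at hh₀
    exact ht0 ((map_eq_zero _).1 hh₀)
  have hz0 : algebraMap (FN (M1 * (q : ℕ))) F' h₀ * C.y ^ c ≠ 0 :=
    mul_ne_zero ((_root_.map_ne_zero _).2 hh0) (pow_ne_zero _ hy0)
  have h1 : (C.act σ C.y) ^ (q : ℕ) = (algebraMap (FN (M1 * (q : ℕ))) F' h₀ * C.y ^ c) ^ (q : ℕ) := by
    rw [← map_pow, C.y_pow, C.act_alg, hh₀, map_mul, map_pow, map_pow, mul_pow, ← pow_mul, mul_comm c,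
      pow_mul, C.y_pow, mul_comm]
  have hζ' : IsPrimitiveRoot (algebraMap (FN (M1 * (q : ℕ))) F' (algebraMap Kb (FN (M1 * (q : ℕ))) C.ζ))
      (q : ℕ) :=
    (hζ.map_of_injective (algebraMap Kb (FN (M1 * (q : ℕ)))).injective).map_of_injective
      (algebraMap (FN (M1 * (q : ℕ))) F').injective
  have h2 : (C.act σ C.y / (algebraMap (FN (M1 * (q : ℕ))) F' h₀ * C.y ^ c)) ^ (q : ℕ) = 1 := by
    rw [div_pow, h1, div_self (pow_ne_zero _ hz0)]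
  obtain ⟨i, -, hi⟩ := hζ'.eq_pow_of_pow_eq_one h2
  have hact : C.act σ C.y =
      algebraMap (FN (M1 * (q : ℕ))) F' (algebraMap Kb (FN (M1 * (q : ℕ))) (C.ζ ^ i) * h₀) * C.y ^ c := by
    rw [map_mul, map_pow, map_pow, hi, mul_assoc, div_mul_cancel₀ _ hz0]
  have hhq : (algebraMap Kb (FN (M1 * (q : ℕ))) (C.ζ ^ i) * h₀) ^ (q : ℕ) * t ^ c =
      gal (M1 * (q : ℕ)) (σ : GQ) t := by
    rw [mul_pow, ← map_pow, ← pow_mul, mul_comm i, pow_mul, C.ζ_pow, one_pow, map_one, one_mul, hh₀]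
    exact mul_comm _ _
  have hfc : f ^ c ≠ 0 := pow_ne_zero _ hf
  have hfc' : algebraMap (FN (M1 * (q : ℕ))) F' f ^ c ≠ 0 := pow_ne_zero _ ((_root_.map_ne_zero _).2 hf)
  refine ⟨c, gal (M1 * (q : ℕ)) (σ : GQ) f * (algebraMap Kb (FN (M1 * (q : ℕ))) (C.ζ ^ i) * h₀) / f ^ c,
    hqc, hσζ, ?_, ?_⟩
  · rw [map_mul, C.act_alg, hact, map_div₀, map_mul (algebraMap (FN (M1 * (q : ℕ))) F')
      (gal (M1 * (q : ℕ)) (σ : GQ) f), map_pow (algebraMap (FN (M1 * (q : ℕ))) F') f, mul_pow]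
    field_simp
  · rw [map_mul, map_pow, ← hhq, div_pow, mul_pow (f ^ (q : ℕ)), mul_pow (gal (M1 * (q : ℕ)) (σ : GQ) f)]
    have e : (f ^ (q : ℕ)) ^ c = (f ^ c) ^ (q : ℕ) := pow_right_comm f _ _
    rw [e]
    have hne : (f ^ c) ^ (q : ℕ) ≠ 0 := pow_ne_zero _ hfc
    field_simp
    simp only [map_pow]
    ring

/-- `Y ≡ 1 ⟹ Y^c ≡ 1` -/
theorem gvAux_pow {K : Type*} [Field K] (W : RVal K) {Y : K} {e : ℝ} (he : 0 ≤ e)
    (h : W.GT (Y - 1) e) (c : ℕ) : W.GT (Y ^ c - 1) e := by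
  have hY : W.GE Y 0 := (EQ_zero_of_GT_sub_one (h.mono he)).GE le_rfl
  induction c with
  | zero => rw [pow_zero, sub_self]; exact RVal.GT_zero e
  | succ n ih =>
    have e1 : Y ^ (n + 1) - 1 = (Y ^ n - 1) * Y + (Y - 1) := by ring
    rw [e1]
    have h1 := ih.mul_GE hY
    rw [add_zero] at h1
    exact h1.add h

/-- [S44/C3-STAB2] -/
theorem G_val (W : RVal F') (w : RVal (FN (M1 * (q : ℕ))))
    (ext : ∀ x : FN (M1 * (q : ℕ)), x ≠ 0 → W.w (algebraMap (FN (M1 * (q : ℕ))) F' x) = w.w x)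
    (inv : ∀ (σ : ↥(Iq q)) (x : F'), W.w (C.act σ x) = W.w x) (hy : W.GE (C.y - 1) 2)
    {f G : FN (M1 * (q : ℕ))} {c : ℕ} (σ : ↥(Iq q))
    (hG : C.act σ (algebraMap (FN (M1 * (q : ℕ))) F' f * C.y) =
      (algebraMap (FN (M1 * (q : ℕ))) F' f * C.y) ^ c * algebraMap (FN (M1 * (q : ℕ))) F' G)
    (h : w.GT (f - 1) (1 / (((q : ℕ) : ℝ) - 1))) : w.GT (G - 1) (1 / (((q : ℕ) : ℝ) - 1)) := by
  have hp2 : (2 : ℝ) ≤ ((q : ℕ) : ℝ) := by exact_mod_cast q.2.two_le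
  have hpm : (0 : ℝ) < ((q : ℕ) : ℝ) - 1 := by linarith
  obtain ⟨e, he⟩ : ∃ e : ℝ, e = 1 / (((q : ℕ) : ℝ) - 1) := ⟨_, rfl⟩
  rw [← he] at h ⊢
  have he0 : 0 < e := by rw [he]; positivity
  have he1 : e ≤ 1 := by rw [he, div_le_iff₀ hpm]; linarith
  have up : ∀ x : FN (M1 * (q : ℕ)), w.GT x e → W.GT (algebraMap (FN (M1 * (q : ℕ))) F' x) e := by
    intro x hx
    rcases hx with rfl | hx
    · rw [map_zero]; exact RVal.GT_zero e
    · by_cases hx0 : x = 0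
      · rw [hx0, map_zero]; exact RVal.GT_zero e
      · exact Or.inr (by rw [ext x hx0]; exact hx)
  have down : ∀ x : FN (M1 * (q : ℕ)), W.GT (algebraMap (FN (M1 * (q : ℕ))) F' x) e → w.GT x e := by
    intro x hx
    by_cases hx0 : x = 0
    · exact Or.inl hx0
    · have hx1 : algebraMap (FN (M1 * (q : ℕ))) F' x ≠ 0 := (map_ne_zero _).2 hx0
      exact Or.inr (by rw [← ext x hx0]; exact hx.lt_w hx1)
  obtain ⟨Y, hY⟩ : ∃ Y, Y = algebraMap (FN (M1 * (q : ℕ))) F' f * C.y := ⟨_, rfl⟩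
  rw [← hY] at hG
  have hy' : W.GT (C.y - 1) e := hy.GT (by linarith)
  have hy0 : W.GE C.y 0 := (EQ_zero_of_GT_sub_one (hy'.mono he0.le)).GE le_rfl
  have hY1 : W.GT (Y - 1) e := by
    have e1 : Y - 1 = algebraMap (FN (M1 * (q : ℕ))) F' (f - 1) * C.y + (C.y - 1) := by
      rw [hY, map_sub, map_one]; ring
    rw [e1]
    have h1 := (up _ h).mul_GE hy0
    rw [add_zero] at h1
    exact h1.add hy'
  have hσ : W.GT (C.act σ Y - 1) e := by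
    have e1 : C.act σ Y - 1 = C.act σ (Y - 1) := by rw [map_sub, map_one]
    rw [e1]
    rcases hY1 with h0 | h0
    · rw [h0, map_zero]; exact RVal.GT_zero e
    · exact Or.inr (by rw [inv]; exact h0)
  have hYc : W.GT (Y ^ c - 1) e := gvAux_pow W he0.le hY1 c
  have hYc0 : W.EQ (Y ^ c) 0 := EQ_zero_of_GT_sub_one (hYc.mono he0.le)
  have key : algebraMap (FN (M1 * (q : ℕ))) F' (G - 1) * Y ^ c = (C.act σ Y - 1) - (Y ^ c - 1) := by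
    rw [hG, map_sub, map_one]; ring
  have := RVal.GT.of_mul_eq_left key hYc0 (hσ.sub hYc)
  rw [sub_zero] at this
  exact down _ this

end Fermat.Agent.S44.Cov.Sh
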