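import Mathlib

/-!
# S44 / GEO / COVER / C3 (SHEET) : abstract half of the `I`-stability of the sheets      [key S44/C3-STABABS]   (Mathlib only)   (helper4; proofs helper6)

`ζ` a primitive `p`-th root of unity, `π = ζ - 1`, `[i] = ∑_{m<i} ζ^m`.

* `gamma_mem`: `O ⊂ F` integrally closed in `F`, `G^p - 1 = π^p κ`, `κ ∈ O` ⟹ `γ := (G - 1)/π ∈ O`.
* `unit_root`: moreover `κ = c0 a` and `γ - [i] ≠ 0`, `(γ - [i])⁻¹ ∈ O` for `0 < i < p` ⟹ `γ = γ - [0] = c0 a ∏_{0<i<p} (γ - [i])⁻¹ ∈ c0 O`, `G = 1 + π c0 a'`.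
* `act_nu`: `σ ζ = ζ^c`, `p ∤ c`, `y = 1 + π ν`, `σ y = y^c (1 + π c0 a)` ⟹ `σ ν = ν w + c0 a'`.
-/

set_option autoImplicit false

open Finset

namespace Fermat.Agent.S44.Cov.Sh

theorem stabAbs_pi_ne {F : Type*} [Field F] {p : ℕ} (hp : p.Prime) {ζ : F}
    (hζ : IsPrimitiveRoot ζ p) : ζ - 1 ≠ 0 := sub_ne_zero.2 (hζ.ne_one hp.one_lt)

/-- `∏_{i<p} (γ - [i]) = κ` -/
theorem stabAbs_prod {F : Type*} [Field F] {p : ℕ} (hp : p.Prime) {ζ : F}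
    (hζ : IsPrimitiveRoot ζ p) {G κ : F} (hG : G ^ p - 1 = (ζ - 1) ^ p * κ) :
    ∏ i ∈ range p, ((G - 1) / (ζ - 1) - ∑ m ∈ range i, ζ ^ m) = κ := by
  have hπ := stabAbs_pi_ne hp hζ
  have h1 := congrArg (Polynomial.eval G) (X_pow_sub_C_eq_prod hζ hp.pos (one_pow p))
  simp only [Polynomial.eval_sub, Polynomial.eval_pow, Polynomial.eval_X, Polynomial.eval_C,
    Polynomial.eval_prod, mul_one] at h1
  have h2 : ∀ i ∈ range p, G - ζ ^ i =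
      (ζ - 1) * ((G - 1) / (ζ - 1) - ∑ m ∈ range i, ζ ^ m) := by
    intro i _
    have := geom_sum_mul ζ i
    rw [mul_sub, mul_div_cancel₀ _ hπ, mul_comm (ζ - 1), this]
    ring
  rw [Finset.prod_congr rfl h2, Finset.prod_mul_distrib, Finset.prod_const, card_range, hG] at h1
  exact (mul_left_cancel₀ (pow_ne_zero p hπ) h1).symm

theorem stabAbs_br_mem {F : Type*} [Field F] (O : Subring F) {ζ : F} (hζO : ζ ∈ O) (i : ℕ) :
    ∑ m ∈ range i, ζ ^ m ∈ O := sum_mem fun m _ => pow_mem hζO m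

theorem gamma_mem {F : Type*} [Field F] (p : ℕ) (hp : p.Prime) (O : Subring F)
    (hcl : ∀ x : F, IsIntegral O x → x ∈ O) (ζ : F) (hζ : IsPrimitiveRoot ζ p) (hζO : ζ ∈ O) (G κ : F)
    (hκ : κ ∈ O) (hG : G ^ p - 1 = (ζ - 1) ^ p * κ) : (G - 1) / (ζ - 1) ∈ O := by
  apply hcl
  have hprod := stabAbs_prod hp hζ hG
  let Q : Polynomial O := ∏ i ∈ range p,
    (Polynomial.X - Polynomial.C (⟨∑ m ∈ range i, ζ ^ m, stabAbs_br_mem O hζO i⟩ : O))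
  have hQm : Q.Monic := Polynomial.monic_prod_of_monic _ _ fun i _ => Polynomial.monic_X_sub_C _
  have hQd : Q.degree = p := by
    rw [Polynomial.degree_prod]
    simp [Polynomial.degree_X_sub_C]
  refine ⟨Q - Polynomial.C (⟨κ, hκ⟩ : O), hQm.sub_of_left ?_, ?_⟩
  · rw [hQd]
    refine lt_of_le_of_lt Polynomial.degree_C_le ?_
    exact_mod_cast hp.pos
  · rw [Polynomial.eval₂_sub, Polynomial.eval₂_C, Polynomial.eval₂_finsetProd]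
    simp only [Polynomial.eval₂_sub, Polynomial.eval₂_X, Polynomial.eval₂_C]
    change ∏ i ∈ range p, ((G - 1) / (ζ - 1) - ∑ m ∈ range i, ζ ^ m) - κ = 0
    rw [hprod, sub_self]

theorem unit_root {F : Type*} [Field F] (p : ℕ) (hp : p.Prime) (O : Subring F)
    (ζ : F) (hζ : IsPrimitiveRoot ζ p) (hζO : ζ ∈ O) (c0 : F) (G : F)
    (hG : ∃ a ∈ O, G ^ p - 1 = (ζ - 1) ^ p * (c0 * a))
    (hu : ∀ i, 0 < i → i < p → ((G - 1) / (ζ - 1) - ∑ m ∈ range i, ζ ^ m)⁻¹ ∈ O)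
    (hne : ∀ i, 0 < i → i < p → (G - 1) / (ζ - 1) - ∑ m ∈ range i, ζ ^ m ≠ 0) :
    ∃ a ∈ O, G = 1 + (ζ - 1) * (c0 * a) := by
  have hπ := stabAbs_pi_ne hp hζ
  obtain ⟨a, ha, hG⟩ := hG
  have hprod := stabAbs_prod hp hζ hG
  obtain ⟨n, rfl⟩ : ∃ n, p = n + 1 := ⟨p - 1, by have := hp.pos; omega⟩
  rw [Finset.prod_range_succ'] at hprod
  simp only [range_zero, sum_empty, sub_zero] at hprod
  have hne' : ∏ i ∈ range n, ((G - 1) / (ζ - 1) - ∑ m ∈ range (i + 1), ζ ^ m) ≠ 0 :=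
    Finset.prod_ne_zero_iff.2 fun i hi => hne (i + 1) (Nat.succ_pos i)
      (Nat.succ_lt_succ (mem_range.1 hi))
  refine ⟨a * ∏ i ∈ range n, ((G - 1) / (ζ - 1) - ∑ m ∈ range (i + 1), ζ ^ m)⁻¹,
    mul_mem ha (prod_mem fun i hi => hu (i + 1) (Nat.succ_pos i)
      (Nat.succ_lt_succ (mem_range.1 hi))), ?_⟩
  rw [Finset.prod_inv_distrib, ← mul_assoc c0, ← hprod, mul_comm _ ((G - 1) / (ζ - 1)),
    mul_assoc, mul_inv_cancel₀ hne', mul_one, mul_div_cancel₀ _ hπ]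
  ring

theorem act_nu {F' : Type*} [Field F'] (p : ℕ) (hp : p.Prime) (O : Subring F') (ζ : F')
    (hζ : IsPrimitiveRoot ζ p) (hζO : ζ ∈ O) (σ : F' ≃+* F') (c : ℕ) (hc : ¬ p ∣ c) (hσζ : σ ζ = ζ ^ c)
    (ν : F') (hν : ν ∈ O) (c0 a : F') (ha : a ∈ O)
    (h : σ (1 + (ζ - 1) * ν) = (1 + (ζ - 1) * ν) ^ c * (1 + (ζ - 1) * (c0 * a))) :
    ∃ w ∈ O, ∃ a' ∈ O, σ ν = ν * w + c0 * a' := by
  have hπ := stabAbs_pi_ne hp hζ
  have hyO : 1 + (ζ - 1) * ν ∈ O := add_mem O.one_mem (mul_mem (sub_mem hζO O.one_mem) hν)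
  have hζc : ζ ^ c - 1 ≠ 0 := by
    intro h0
    exact hc ((hζ.pow_eq_one_iff_dvd c).1 (sub_eq_zero.1 h0))
  -- `[c]⁻¹ ∈ O`
  have hcop : Nat.Coprime p c := (Nat.Prime.coprime_iff_not_dvd hp).2 hc
  obtain ⟨j, -, hj⟩ := Nat.exists_mul_mod_eq_one_of_coprime hcop.symm hp.one_lt
  have hζj : (ζ ^ c) ^ j = ζ := by
    rw [← pow_mul, ← Nat.mod_add_div (c * j) p, hj, pow_add, pow_mul, hζ.pow_eq_one, one_pow,
      mul_one, pow_one]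
  obtain ⟨u, hu⟩ : ∃ u, u = ∑ m ∈ range j, (ζ ^ c) ^ m := ⟨_, rfl⟩
  have huO : u ∈ O := by
    rw [hu]
    exact sum_mem fun m _ => pow_mem (pow_mem hζO c) m
  have hu1 : u * (ζ ^ c - 1) = ζ - 1 := by
    rw [hu, geom_sum_mul, hζj]
  obtain ⟨s, hs⟩ : ∃ s, s = ∑ m ∈ range c, (1 + (ζ - 1) * ν) ^ m := ⟨_, rfl⟩
  have hsO : s ∈ O := by
    rw [hs]
    exact sum_mem fun m _ => pow_mem hyO m
  have hs1 : s * ((ζ - 1) * ν) = (1 + (ζ - 1) * ν) ^ c - 1 := by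
    have := geom_sum_mul (1 + (ζ - 1) * ν) c
    rw [add_sub_cancel_left] at this
    rw [hs, this]
  refine ⟨u * s, mul_mem huO hsO, u * (a * (1 + (ζ - 1) * ν) ^ c),
    mul_mem huO (mul_mem ha (pow_mem hyO c)), ?_⟩
  rw [map_add, map_one, map_mul, map_sub, map_one, hσζ] at h
  have h3 : (ζ ^ c - 1) * σ ν =
      (ζ ^ c - 1) * (ν * (u * s) + c0 * (u * (a * (1 + (ζ - 1) * ν) ^ c))) := by
    have e1 : (ζ ^ c - 1) * σ ν = ((1 + (ζ - 1) * ν) ^ c - 1) +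
        (ζ - 1) * (c0 * a) * (1 + (ζ - 1) * ν) ^ c := by linear_combination h
    rw [e1, ← hs1]
    linear_combination (- ν * s - c0 * a * (1 + (ζ - 1) * ν) ^ c) * hu1
  exact mul_left_cancel₀ hζc h3

end Fermat.Agent.S44.Cov.Sh
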