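import Fermat.Agent.S05.Defs
import Fermat.Agent.S44.Geo.Cov.Sh.StabAbs

/-!
# S44 / GEO / COVER / C3 (SHEET) : the abstract core of `stab`      [key S44/C3-STAB3]   (helper6)

`O ⊂ F` integrally closed, `w` a valuation `≥ 0` on `O`; `x ∈ O`, `w (x - n) > 0`, `n ∈ ℤ` prime to `p` ⟹ `x ∈ Oˣ`.
`ts = 1 + π^p c0 a`, `sts = 1 + π^p c0 a1`, `G^p ts^c = sts`, `w (G - 1) > w π` ⟹ `G = 1 + π c0 a'`, `a' ∈ O`.
-/

set_option autoImplicit false

open Finset Fermat.Agent.S05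

namespace Fermat.Agent.S44.Cov.Sh

theorem stabCore_GT_sum {F : Type*} [Field F] (w : RVal F) {e : ℝ} (g : ℕ → F) (n : ℕ)
    (h : ∀ m < n, w.GT (g m) e) : w.GT (∑ m ∈ range n, g m) e := by
  induction n with
  | zero => simpa using RVal.GT_zero e
  | succ n ih =>
    rw [sum_range_succ]
    exact (ih fun m hm => h m (Nat.lt_succ_of_lt hm)).add (h n (Nat.lt_succ_self n))

theorem stabCore_EQ_of_inv {F : Type*} [Field F] (w : RVal F) {x : F} {e : ℝ} (hx : x ≠ 0)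
    (h1 : w.GE x e) (h2 : w.GE x⁻¹ (-e)) : w.EQ x e := by
  refine ⟨hx, le_antisymm ?_ (h1.le_w hx)⟩
  have := h2.le_w (inv_ne_zero hx)
  rw [RVal.w_inv hx] at this
  linarith

theorem stab_core {F : Type*} [Field F] (p : ℕ) (hp : p.Prime) (O : Subring F)
    (hcl : ∀ x : F, IsIntegral O x → x ∈ O) (w : RVal F) (hGE : ∀ x ∈ O, w.GE x 0)
    (hinv : ∀ x ∈ O, ∀ n : ℤ, ¬ (p : ℤ) ∣ n → w.GT (x - (n : F)) 0 → x ≠ 0 ∧ x⁻¹ ∈ O)
    (ζ : F) (hζ : IsPrimitiveRoot ζ p) (hζO : ζ ∈ O) {e1 : ℝ} (he1 : 0 < e1)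
    (hπ : w.EQ (ζ - 1) e1) (c0 : F) (hc0 : c0 ∈ O) (ts a : F) (ha : a ∈ O)
    (hts : ts - 1 = (ζ - 1) ^ p * c0 * a) (sts a1 : F) (ha1 : a1 ∈ O)
    (hsts : sts - 1 = (ζ - 1) ^ p * c0 * a1) (G : F) (c : ℕ) (hG : G ^ p * ts ^ c = sts)
    (hGv : w.GT (G - 1) e1) : ∃ a' ∈ O, G = 1 + (ζ - 1) * (c0 * a') := by
  have hπO : ζ - 1 ∈ O := sub_mem hζO O.one_mem
  have hπ0 : ζ - 1 ≠ 0 := hπ.1
  have htsO : ts ∈ O := by
    have : ts = 1 + (ζ - 1) ^ p * c0 * a := by rw [← hts]; ring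
    rw [this]
    exact add_mem O.one_mem (mul_mem (mul_mem (pow_mem hπO p) hc0) ha)
  have hts1 : w.GT (ts - ((1 : ℤ) : F)) 0 := by
    rw [Int.cast_one, hts]
    have h1 : w.GT ((ζ - 1) ^ p) 0 := by
      refine (hπ.pow p).GT ?_
      have : (0 : ℝ) < p := by exact_mod_cast hp.pos
      positivity
    have := (h1.mul_GE (hGE c0 hc0)).mul_GE (hGE a ha)
    simpa using this
  obtain ⟨hts0, htsi⟩ := hinv ts htsO 1 (by
    intro h
    have : p ∣ 1 := by exact_mod_cast h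
    exact hp.one_lt.ne' (Nat.dvd_one.1 this)) hts1
  obtain ⟨s, hs⟩ : ∃ s, s = ∑ m ∈ range c, ts ^ m := ⟨_, rfl⟩
  have hsO : s ∈ O := by
    rw [hs]
    exact sum_mem fun m _ => pow_mem htsO m
  have hs1 : s * (ts - 1) = ts ^ c - 1 := by rw [hs, geom_sum_mul]
  have hG1 : G ^ p - 1 = (ζ - 1) ^ p * (c0 * ((a1 - a * s) * ts⁻¹ ^ c)) := by
    have h1 : G ^ p = sts * ts⁻¹ ^ c := by
      rw [← hG, mul_assoc, ← mul_pow, mul_inv_cancel₀ hts0, one_pow, mul_one]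
    have h2 : ts ^ c * ts⁻¹ ^ c = 1 := by rw [← mul_pow, mul_inv_cancel₀ hts0, one_pow]
    have h3 : sts - ts ^ c = (ζ - 1) ^ p * c0 * (a1 - a * s) := by
      have : sts - ts ^ c = (sts - 1) - (ts ^ c - 1) := by ring
      rw [this, hsts, ← hs1, hts]
      ring
    calc G ^ p - 1 = sts * ts⁻¹ ^ c - ts ^ c * ts⁻¹ ^ c := by rw [h1, h2]
      _ = (sts - ts ^ c) * ts⁻¹ ^ c := by ring
      _ = _ := by rw [h3]; ring
  have ha3 : (a1 - a * s) * ts⁻¹ ^ c ∈ O := mul_mem (sub_mem ha1 (mul_mem ha hsO)) (pow_mem htsi c)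
  have hγO : (G - 1) / (ζ - 1) ∈ O :=
    gamma_mem p hp O hcl ζ hζ hζO G _ (mul_mem hc0 ha3) hG1
  have hγv : w.GT ((G - 1) / (ζ - 1)) 0 := by
    have := RVal.GT.of_mul_eq_left (div_mul_cancel₀ (G - 1) hπ0) hπ hGv
    simpa using this
  have key : ∀ i, 0 < i → i < p → (G - 1) / (ζ - 1) - ∑ m ∈ range i, ζ ^ m ≠ 0 ∧
      ((G - 1) / (ζ - 1) - ∑ m ∈ range i, ζ ^ m)⁻¹ ∈ O := by
    intro i hi0 hip
    refine hinv _ (sub_mem hγO (stabAbs_br_mem O hζO i)) (-(i : ℤ)) ?_ ?_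
    · rw [Int.dvd_neg]
      intro h
      have : p ∣ i := by exact_mod_cast h
      exact absurd (Nat.le_of_dvd hi0 this) (not_le.2 hip)
    · have e : (G - 1) / (ζ - 1) - ∑ m ∈ range i, ζ ^ m - ((-(i : ℤ) : ℤ) : F) =
          (G - 1) / (ζ - 1) - ∑ m ∈ range i, (ζ ^ m - 1) := by
        rw [sum_sub_distrib, sum_const, card_range, nsmul_eq_mul, mul_one]
        push_cast
        ring
      rw [e]
      refine hγv.sub (stabCore_GT_sum w _ i fun m _ => ?_)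
      rw [← geom_sum_mul]
      have := (hGE _ (stabAbs_br_mem O hζO m)).mul_GT (hπ.GT he1)
      simpa using this
  exact unit_root p hp O ζ hζ hζO c0 G ⟨_, ha3, hG1⟩ (fun i h0 h1 => (key i h0 h1).2)
    (fun i h0 h1 => (key i h0 h1).1)

end Fermat.Agent.S44.Cov.Sh
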