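import Fermat.Agent.S44.Geo.Cov.Sh.OsInv
import Fermat.Agent.S44.Geo.Cov.Sh.OsCl
import Fermat.Agent.S44.Geo.Cov.Sh.Stab1
import Fermat.Agent.S44.Geo.Cov.Sh.StabAbs
import Fermat.Agent.S44.Geo.Cov.Sh.StabCore

/-!
# S44 / GEO / COVER / C3 (SHEET) : `σ y_s = y_s^c (1 + π c0 a)`, `a ∈ O_s`      [key S44/C3-STAB3]   (helper4)   (~220 lines)

Notation: `j = algebraMap Kb F`, `π = ζ - 1`, `ts := f^q t = 1 + j (π^q c0) a`, `a ∈ Os`.   `(c, G)` from `exists_G`.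
0. Component: `by_cases h : ker r1 ≤ 𝔫`; otherwise `ker r2 ≤ 𝔫` (`Mod.ker_inf`, `hq`, `Ideal.IsPrime.inf_le`).  Below `w` = `wG` resp. `wZ`, `inv_mem_Os` = `inv_mem_Os₁` resp. `₂`, `GE_of_mem_Os` likewise, `G_val` with `(C.W₁, wG, C.ext₁, C.inv₁, C.y₁)` resp. `₂`.
1. `gal σ ts - 1 = j (σ (π^q c0)) * gal σ a` (`gal_algebraMap`), `σ x = x u` with `u := σ x / x ∈ AA q` (`(wq q).w (σ x) = (wq q).w x` for `σ ∈ Dq q`: see `brAux_GE_gal` / `S33/Val`: `wq_gal`-type lemma; `mem_decomp_of_mem_inertia`), `gal σ a ∈ Os` (`gal_mem_Os`), `const_mem_Os`.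
   So `gal σ ts - 1 = j (π^q c0) a1`, `a1 ∈ Os`.     `ts^c - 1 = (ts - 1) ∑_{m<c} ts^m = j (π^q c0) a2`, `a2 ∈ Os` (`ts ∈ Os`).
2. `ts⁻¹ ∈ Os`: `inv_mem_Os` with `d = 1`: `w (ts - 1) > 0` (`w (j (π^q c0)) > 0`: `GT2_algebraMap`/`ratfAux_EQ_algebraMap`; `w a ≥ 0`: `GE_of_mem_Os`).
3. `G^q - 1 = (gal σ ts - ts^c) ts⁻¹^c = j π^q * (j c0 * a3)`, `a3 := (a1 - a2) ts⁻¹^c ∈ Os`.
4. `γ := (G - 1)/j π ∈ Os`: `Sh.gamma_mem q q.2 (Os S b 𝔫) (fun x => Os_closed) (j ζ) (hζ.map_of_injective ..) ..`.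
5. for `0 < i < q`: `x := γ - ∑_{m<i} (j ζ)^m ∈ Os`, `d := -(i : B) ∉ 𝔫` (else `i ∈ 𝔫\), `q ∈ 𝔫`, coprime ⟹ `1 ∈ 𝔫`: `Nat.Coprime` + Bezout `Int.gcd_eq_gcd_ab` or `Nat.exists_mul_emod_eq_one_of_coprime`).
   `x - cF d = γ - ∑_{m<i} ((j ζ)^m - 1)`: `w γ > 0` (`G_val`: `w (G - 1) > e1 = w π`, `S33.w_pi`), `w ((j ζ)^m - 1) > 0` (`ζ^m - 1 = π * ∑ ..`, integral).   `inv_mem_Os`.
6. `Sh.unit_root`: `G = 1 + j π * (j c0 * a')`.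
-/

set_option autoImplicit false
set_option synthInstance.maxHeartbeats 400000

open HahnSeries ModularCurve AlgebraicCurve Fermat.Agent.S24 Fermat.Agent.S29 Fermat.Agent.S18
  Fermat.Agent.ES Fermat.Agent.ES.Alg Fermat.Agent.S34.Mod Fermat.Agent.S05 Fermat.Agent.S55.B ExtCitation
  Fermat.Agent.S33 Fermat.Agent.S33.M
open Fermat.Agent.S55 (Dq Iq)

noncomputable section

namespace Fermat.Agent.S44.Cov.Sh

variable {q : Nat.Primes} {M1 r : ℕ} [NeZero M1] [NeZero (q : ℕ)] [NeZero r]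

variable {S : Setup M1 (q : ℕ) r (AA q)} {b : Bool} {𝔫 : Ideal (Mod.BB S b)} [h𝔫 : 𝔫.IsPrime]
variable {t : FN (M1 * (q : ℕ))} {F' : Type} [Field F'] [Algebra (FN (M1 * (q : ℕ))) F']

/-- the two components at once -/
theorem stab_aux (hq : ((q : ℕ) : Mod.BB S b) ∈ 𝔫) (w : RVal (FN (M1 * (q : ℕ))))
    (hGE : ∀ x ∈ Os S b 𝔫, w.GE x 0)
    (hinv : ∀ x ∈ Os S b 𝔫, ∀ d : Mod.BB S b, d ∉ 𝔫 → w.GT (x - cF d) 0 → x⁻¹ ∈ Os S b 𝔫)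
    (hker : ∀ d : Mod.BB S b, w.GT (cF d) 0 → d ∈ 𝔫)
    (hcst : ∀ (c : Kb) (e : ℝ), (wq q).GE c e → w.GE (algebraMap Kb (FN (M1 * (q : ℕ))) c) e)
    {ζ : Kb} (hζ : IsPrimitiveRoot ζ (q : ℕ)) {c0 : Kb} (hc0 : c0 ≠ 0) (hc0' : (wq q).GT c0 0)
    {ts : FN (M1 * (q : ℕ))}
    (ha : ∃ a ∈ Os S b 𝔫, ts - 1 = algebraMap Kb (FN (M1 * (q : ℕ))) ((ζ - 1) ^ (q : ℕ) * c0) * a)
    {σ : GQ} (hσ : σ ∈ Iq q) {G : FN (M1 * (q : ℕ))} {c : ℕ}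
    (hG : G ^ (q : ℕ) * ts ^ c = gal (M1 * (q : ℕ)) σ ts)
    (hGv : w.GT (G - 1) (1 / (((q : ℕ) : ℝ) - 1))) :
    ∃ a ∈ Os S b 𝔫, G = 1 + algebraMap Kb (FN (M1 * (q : ℕ))) (ζ - 1) *
      (algebraMap Kb (FN (M1 * (q : ℕ))) c0 * a) := by
  obtain ⟨a, haO, hts⟩ := ha
  have hq1 : (0 : ℝ) < 1 / (((q : ℕ) : ℝ) - 1) := by
    have : (1 : ℝ) < (q : ℕ) := by exact_mod_cast q.2.one_lt
    have : (0 : ℝ) < ((q : ℕ) : ℝ) - 1 := by linarith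
    positivity
  have hπ := w_pi q hζ
  have hζ0 : ζ ≠ 0 := hζ.ne_zero q.2.ne_zero
  have hζw : (wq q).w ζ = 0 := by
    have h1 : (wq q).w (ζ ^ (q : ℕ)) = (q : ℕ) * (wq q).w ζ := RVal.w_pow hζ0 _
    rw [hζ.pow_eq_one, RVal.w_one] at h1
    have : (((q : ℕ) : ℕ) : ℝ) ≠ 0 := by exact_mod_cast q.2.ne_zero
    exact (mul_eq_zero.1 h1.symm).resolve_left this
  have hζA : ζ ∈ AA q := (wq_nonneg_iff q hζ0).1 hζw.ge
  have hc0A : c0 ∈ AA q := (wq_nonneg_iff q hc0).1 (hc0'.lt_w hc0).le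
  obtain ⟨x, hx⟩ : ∃ x : Kb, x = (ζ - 1) ^ (q : ℕ) * c0 := ⟨_, rfl⟩
  have hx0 : x ≠ 0 := by
    rw [hx]
    exact mul_ne_zero (pow_ne_zero _ hπ.1) hc0
  have hσx0 : σ x ≠ 0 := by simpa using hx0
  have huA : σ x / x ∈ AA q := by
    rw [← wq_nonneg_iff q (div_ne_zero hσx0 hx0), RVal.w_div hσx0 hx0,
      pres_Dq q σ (Iq_le_Dq q hσ) x, sub_self]
  have hjx : algebraMap Kb (FN (M1 * (q : ℕ))) x =
      (algebraMap Kb (FN (M1 * (q : ℕ))) ζ - 1) ^ (q : ℕ) * algebraMap Kb (FN (M1 * (q : ℕ))) c0 := by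
    rw [hx, map_mul, map_pow, map_sub, map_one]
  have hEQ : w.EQ (algebraMap Kb (FN (M1 * (q : ℕ))) ζ - 1) (1 / (((q : ℕ) : ℝ) - 1)) := by
    have e : algebraMap Kb (FN (M1 * (q : ℕ))) ζ - 1 = algebraMap Kb (FN (M1 * (q : ℕ))) (ζ - 1) := by
      rw [map_sub, map_one]
    rw [e]
    refine stabCore_EQ_of_inv w ((map_ne_zero _).2 hπ.1) (hcst _ _ hπ.GE) ?_
    rw [← map_inv₀]
    exact hcst _ _ hπ.inv.GE
  rw [← hx] at hts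
  obtain ⟨a', ha', h⟩ := stab_core (q : ℕ) q.2 (Os S b 𝔫) (fun x hx => Os_closed hx) w hGE
    (by
      intro y hy n hn hgt
      have hd : ((n : ℤ) : Mod.BB S b) ∉ 𝔫 := by
        intro hmem
        have hcop : IsCoprime (((q : ℕ) : ℤ)) n :=
          ((Nat.prime_iff_prime_int.1 q.2).coprime_iff_not_dvd).2 hn
        obtain ⟨u, v, huv⟩ := hcop
        have e : (1 : Mod.BB S b) = (u : Mod.BB S b) * ((q : ℕ) : Mod.BB S b) +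
            (v : Mod.BB S b) * ((n : ℤ) : Mod.BB S b) := by
          have := congrArg (Int.cast : ℤ → Mod.BB S b) huv
          push_cast at this
          exact this.symm
        apply one_not_mem (𝔫 := 𝔫)
        rw [e]
        exact add_mem (𝔫.mul_mem_left _ hq) (𝔫.mul_mem_left _ hmem)
      have hcF : cF ((n : ℤ) : Mod.BB S b) = (n : FN (M1 * (q : ℕ))) :=
        map_intCast ((Mod.EE q M1).subtype.comp (Mod.BB S b).subtype) n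
      rw [← hcF] at hgt
      refine ⟨?_, hinv y hy _ hd hgt⟩
      rintro rfl
      rw [zero_sub] at hgt
      have h3 := hgt.neg
      rw [neg_neg] at h3
      exact hd (hker _ h3))
    (algebraMap Kb (FN (M1 * (q : ℕ))) ζ)
    (hζ.map_of_injective (algebraMap Kb (FN (M1 * (q : ℕ)))).injective) (const_mem_Os hζA) hq1 hEQ
    (algebraMap Kb (FN (M1 * (q : ℕ))) c0) (const_mem_Os hc0A) ts a haO (by rw [hts, hjx])
    (gal (M1 * (q : ℕ)) σ ts)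
    (algebraMap Kb (FN (M1 * (q : ℕ))) (σ x / x) * gal (M1 * (q : ℕ)) σ a)
    (mul_mem (const_mem_Os huA) (gal_mem_Os hσ haO))
    (by
      have e1 : gal (M1 * (q : ℕ)) σ ts - 1 = gal (M1 * (q : ℕ)) σ (ts - 1) := by
        rw [map_sub, map_one]
      have e2 : algebraMap Kb (FN (M1 * (q : ℕ))) (σ x) =
          algebraMap Kb (FN (M1 * (q : ℕ))) x * algebraMap Kb (FN (M1 * (q : ℕ))) (σ x / x) := by
        rw [← map_mul, mul_div_cancel₀ _ hx0]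
      rw [e1, hts, map_mul, gal_algebraMap, e2, hjx]
      ring)
    G c hG hGv
  exact ⟨a', ha', by rw [map_sub, map_one]; exact h⟩

/-- [S44/C3-STAB3] -/
theorem stab (hq : ((q : ℕ) : Mod.BB S b) ∈ 𝔫) (ht : GoodT q M1 S.hc t) (C : Cov q M1 S.hc t F')
    (hζ : IsPrimitiveRoot C.ζ (q : ℕ)) {f : FN (M1 * (q : ℕ))} {c0 : Kb} (hf : f ≠ 0) (hc0 : c0 ≠ 0)
    (hc0' : (wq q).GT c0 0)
    (ha : ∃ a ∈ Os S b 𝔫, f ^ (q : ℕ) * t - 1 =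
      algebraMap Kb (FN (M1 * (q : ℕ))) ((C.ζ - 1) ^ (q : ℕ) * c0) * a)
    (h1 : RingHom.ker (Mod.r1 S b) ≤ 𝔫 → (wG q (M1 * (q : ℕ))).GT (f - 1) (1 / (((q : ℕ) : ℝ) - 1)))
    (h2 : ¬ RingHom.ker (Mod.r1 S b) ≤ 𝔫 → (wZ q S.hc).GT (f - 1) (1 / (((q : ℕ) : ℝ) - 1)))
    (σ : ↥(Iq q)) :
    ∃ (c : ℕ) (a : FN (M1 * (q : ℕ))), ¬ (q : ℕ) ∣ c ∧ (σ : GQ) C.ζ = C.ζ ^ c ∧ a ∈ Os S b 𝔫 ∧
      C.act σ (algebraMap (FN (M1 * (q : ℕ))) F' f * C.y) =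
        (algebraMap (FN (M1 * (q : ℕ))) F' f * C.y) ^ c *
          algebraMap (FN (M1 * (q : ℕ))) F' (1 + algebraMap Kb (FN (M1 * (q : ℕ))) (C.ζ - 1) *
            (algebraMap Kb (FN (M1 * (q : ℕ))) c0 * a)) := by
  obtain ⟨c, G, hc, hσζ, hact, hG⟩ := exists_G C ht hζ hf σ
  have key : ∃ a ∈ Os S b 𝔫, G = 1 + algebraMap Kb (FN (M1 * (q : ℕ))) (C.ζ - 1) *
      (algebraMap Kb (FN (M1 * (q : ℕ))) c0 * a) := by
    by_cases h : RingHom.ker (Mod.r1 S b) ≤ 𝔫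
    · exact stab_aux hq (wG q (M1 * (q : ℕ))) (fun x hx => GE₁_of_mem_Os h hx)
        (fun x hx d hd hgt => inv_mem_Os₁ h hx hd hgt)
        (fun d hd => h ((Mod.r1_eq_zero_iff S b d).2 hd))
        (fun c e hc => (GE2_algebraMap (hc := S.hc) hc).1) hζ hc0 hc0' ha σ.2 hG
        (G_val C C.W₁ (wG q (M1 * (q : ℕ))) C.ext₁ C.inv₁ C.y₁ σ hact (h1 h))
    · have h' : RingHom.ker (Mod.r2 S b) ≤ 𝔫 := by
        have hle : RingHom.ker (Mod.r1 S b) ⊓ RingHom.ker (Mod.r2 S b) ≤ 𝔫 := by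
          rw [Mod.ker_inf, Ideal.span_singleton_le_iff_mem]
          exact hq
        exact (h𝔫.inf_le.1 hle).resolve_left h
      exact stab_aux hq (wZ q S.hc) (fun x hx => GE₂_of_mem_Os h' hx)
        (fun x hx d hd hgt => inv_mem_Os₂ h' hx hd hgt)
        (fun d hd => h' ((Mod.r2_eq_zero_iff S b d).2 hd))
        (fun c e hc => (GE2_algebraMap (hc := S.hc) hc).2) hζ hc0 hc0' ha σ.2 hG
        (G_val C C.W₂ (wZ q S.hc) C.ext₂ C.inv₂ C.y₂ σ hact (h2 h))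
  obtain ⟨a, ha', hGa⟩ := key
  exact ⟨c, a, hc, hσζ, ha', by rw [← hGa]; exact hact⟩

end Fermat.Agent.S44.Cov.Sh
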