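import Fermat.Agent.S44.Geo.Cov.Sh.Loc
import Fermat.Agent.S44.Geo.Cov.Sh.Stab
import Fermat.Agent.S44.Geo.Cov.Sh.OO
import Fermat.Agent.S44.Geo.Cov.Sh.Abs1
import Fermat.Agent.S44.Geo.Cov.Sh.Abs2
import Fermat.Agent.S44.Geo.Cov.Sh.Abs3

/-!
# S44 / GEO / COVER / C3 (SHEET) : `exists_sheet`      [key S44/C3-MAIN]   (helper4)

At every closed point `𝔫 ∋ q` of the chart `b` there is a `Sheet (Rn S b 𝔫) C.Ep q` with automorphism `C.δE`.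
-/

set_option autoImplicit false
set_option synthInstance.maxHeartbeats 400000
set_option maxHeartbeats 1000000

open HahnSeries ModularCurve AlgebraicCurve Fermat.Agent.S24 Fermat.Agent.S29 Fermat.Agent.S18
  Fermat.Agent.ES Fermat.Agent.ES.Alg Fermat.Agent.S34.Mod Fermat.Agent.S05 Fermat.Agent.S55.B ExtCitation
  Fermat.Agent.S33 Fermat.Agent.S33.M
open Fermat.Agent.S55 (Dq Iq)

noncomputable section

namespace Fermat.Agent.S44.Cov.Sh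

variable {q : Nat.Primes} {M1 r : ℕ} [NeZero M1] [NeZero (q : ℕ)] [NeZero r]

/-- a root of unity is integral -/
theorem mainAux_zeta_mem {ζ : Kb} {n : ℕ} (hn : 0 < n) (h : ζ ^ n = 1) : ζ ∈ AA q := by
  rcases (AA q).mem_or_inv_mem ζ with h1 | h1
  · exact h1
  · have h2 : ζ = ζ⁻¹ ^ (n - 1) := by
      have hζ0 : ζ ≠ 0 := by
        rintro rfl
        rw [zero_pow hn.ne'] at h
        exact zero_ne_one h
      obtain ⟨m, rfl⟩ : ∃ m, n = m + 1 := ⟨n - 1, by omega⟩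
      rw [Nat.add_sub_cancel, inv_pow]
      rw [pow_succ] at h
      field_simp
      rw [mul_comm]; exact h.symm ▸ rfl
    rw [h2]
    exact pow_mem h1 _

theorem mainAux_mem_of_GE {c : Kb} (h : (wq q).GE c 0) : c ∈ AA q := by
  by_cases hc : c = 0
  · rw [hc]; exact zero_mem _
  · exact (wq_nonneg_iff q hc).1 (h.le_w hc)

/-- `c0 ^ N ∈ q A` -/
theorem mainAux_pow {c0 : Kb} (hc0 : c0 ≠ 0) (h : (wq q).GT c0 0) :
    ∃ (N : ℕ) (u : Kb), u ∈ AA q ∧ c0 ^ N = ((q : ℕ) : Kb) * u := by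
  have hpos : 0 < (wq q).w c0 := h.lt_w hc0
  obtain ⟨N, hN⟩ := exists_nat_gt (1 / (wq q).w c0)
  have hq0 : ((q : ℕ) : Kb) ≠ 0 := Nat.cast_ne_zero.mpr q.2.ne_zero
  refine ⟨N, c0 ^ N / ((q : ℕ) : Kb), ?_, by field_simp⟩
  have hne : c0 ^ N / ((q : ℕ) : Kb) ≠ 0 := div_ne_zero (pow_ne_zero _ hc0) hq0
  refine (wq_nonneg_iff q hne).1 ?_
  rw [RVal.w_div (pow_ne_zero _ hc0) hq0, RVal.w_pow hc0, wq_q]
  have : 1 < (N : ℝ) * (wq q).w c0 := by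
    rwa [div_lt_iff₀ hpos] at hN
  linarith

/-- the orbit of an algebraic number is finite -/
theorem mainAux_finite (θ : Qb) : (Set.range fun σ : ↥(Iq q) => σ • θ).Finite := by
  have hint : IsIntegral ℚ θ := ((AlgebraicClosure.isAlgebraic ℚ).isAlgebraic θ).isIntegral
  refine ((minpoly ℚ θ).rootSet_finite Qb).subset ?_
  rintro _ ⟨σ, rfl⟩
  rw [Polynomial.mem_rootSet]
  refine ⟨minpoly.ne_zero hint, ?_⟩
  show Polynomial.aeval ((σ : GQ) θ) (minpoly ℚ θ) = 0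
  have := Polynomial.aeval_algHom_apply ((σ : GQ) : Qb →ₐ[ℚ] Qb) θ (minpoly ℚ θ)
  rw [minpoly.aeval, map_zero] at this
  exact this

variable (S : Setup M1 (q : ℕ) r (AA q)) {t : FN (M1 * (q : ℕ))} {F' : Type} [Field F']
  [Algebra (FN (M1 * (q : ℕ))) F']

theorem mainAux_q_mem (b : Bool) (𝔫 : Ideal (Mod.BB S b)) [𝔫.IsPrime] (hq : ((q : ℕ) : Mod.BB S b) ∈ 𝔫) :
    ((q : ℕ) : Rn S b 𝔫) ∈ IsLocalRing.maximalIdeal (Rn S b 𝔫) := by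
  have h := (IsLocalization.AtPrime.to_map_mem_maximal_iff (Rn S b 𝔫) 𝔫 ((q : ℕ) : Mod.BB S b)).2 hq
  rwa [map_natCast] at h

theorem mainAux_q_ne (b : Bool) (𝔫 : Ideal (Mod.BB S b)) [𝔫.IsPrime] : ((q : ℕ) : Rn S b 𝔫) ≠ 0 := by
  intro h
  have h1 : (((((q : ℕ) : Rn S b 𝔫) : Mod.EE q M1)) : FN (M1 * (q : ℕ))) = 0 := by rw [h]; rfl
  have h2 : (((((q : ℕ) : Rn S b 𝔫) : Mod.EE q M1)) : FN (M1 * (q : ℕ))) = ((q : ℕ) : FN (M1 * (q : ℕ))) := by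
    simp
  rw [h2] at h1
  exact (Mod.wG_q (q := q) (M1 := M1)).1 h1

/-- the non-degenerate case -/
theorem exists_sheet_of_prim (hT : GoodT q M1 S.hc t) (C : Cov q M1 S.hc t F') (b : Bool)
    (𝔫 : Ideal (Mod.BB S b)) [𝔫.IsPrime] (hq : ((q : ℕ) : Mod.BB S b) ∈ 𝔫)
    (hζ : IsPrimitiveRoot C.ζ (q : ℕ)) :
    ∃ D : Alg.Sheet (E := Mod.EE q M1) (Rn S b 𝔫) C.Ep ((q : ℕ) : Rn S b 𝔫),
      D.δ = C.δE ∧ D.n = (q : ℕ) := by
  obtain ⟨f, c0, hf, hc0, hc0', ⟨a, haO, ha⟩, h1, h2⟩ := exists_loc S b 𝔫 hq hT hζ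
  obtain ⟨O, hOdef⟩ : ∃ O, O = OO S b 𝔫 F' := ⟨_, rfl⟩
  obtain ⟨ζ', hζ'def⟩ : ∃ z, z = kc q M1 F' C.ζ := ⟨_, rfl⟩
  obtain ⟨c0', hc0'def⟩ : ∃ z, z = kc q M1 F' c0 := ⟨_, rfl⟩
  have hζ' : IsPrimitiveRoot ζ' (q : ℕ) := by
    rw [hζ'def]; exact hζ.map_of_injective (kc q M1 F').injective
  have hπ : ζ' - 1 ≠ 0 := sub_ne_zero.2 (hζ'.ne_one q.2.one_lt)
  have hkO : ∀ x : Kb, x ∈ AA q → kc q M1 F' x ∈ O := fun x hx => by
    rw [hOdef]; exact alg_mem_OO (const_mem_Os hx)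
  have hζO : ζ' ∈ O := by
    rw [hζ'def]; exact hkO _ (mainAux_zeta_mem q.2.pos C.ζ_pow)
  have hc0O : c0' ∈ O := by
    rw [hc0'def]; exact hkO _ (mainAux_mem_of_GE hc0'.GE)
  have haO' : algebraMap (FN (M1 * (q : ℕ))) F' a ∈ O := by rw [hOdef]; exact alg_mem_OO haO
  obtain ⟨Y, hYdef⟩ : ∃ Y, Y = algebraMap (FN (M1 * (q : ℕ))) F' f * C.y := ⟨_, rfl⟩
  obtain ⟨ν, hνdef⟩ : ∃ ν, ν = (Y - 1) / (ζ' - 1) := ⟨_, rfl⟩
  have hY : 1 + (ζ' - 1) * ν = Y := by rw [hνdef]; field_simp; ring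
  have hYq : Y ^ (q : ℕ) - 1 = (ζ' - 1) ^ (q : ℕ) * (c0' * algebraMap (FN (M1 * (q : ℕ))) F' a) := by
    have e1 : Y ^ (q : ℕ) - 1 = algebraMap (FN (M1 * (q : ℕ))) F' (f ^ (q : ℕ) * t - 1) := by
      rw [hYdef, mul_pow, C.y_pow, map_sub, map_mul, map_pow, map_one]
    rw [e1, ha, map_mul, hζ'def, hc0'def]
    simp only [kc, RingHom.comp_apply, map_mul, map_pow, map_sub, map_one]
    ring
  have hνO : ν ∈ O := by
    have h := isIntegral_nu (q : ℕ) q.2 O ζ' hζ' hζO ν _ (mul_mem hc0O haO') (by rw [hY]; exact hYq)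
    rw [hOdef] at h ⊢
    exact OO_closed h
  have hOδ : ∀ x ∈ O, C.δ x ∈ O := fun x hx => by
    rw [hOdef] at hx ⊢; exact δ_mem_OO C hx
  have hOact : ∀ (σ : ↥(Iq q)), ∀ x ∈ O, C.act σ x ∈ O := fun σ x hx => by
    rw [hOdef] at hx ⊢; exact act_mem_OO C σ hx
  have hδζ : C.δ ζ' = ζ' := by rw [hζ'def]; exact C.δ.commutes _
  have hδc0 : C.δ c0' = c0' := by rw [hc0'def]; exact C.δ.commutes _
  have hδY : C.δ (1 + (ζ' - 1) * ν) = ζ' * (1 + (ζ' - 1) * ν) := by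
    rw [hY, hYdef, map_mul, C.δ.commutes, C.δ_y, hζ'def]
    simp only [kc, RingHom.comp_apply]
    ring
  obtain ⟨eA, heA, ⟨bb, hbb, heb⟩, ⟨a2, ha2, hea⟩, orth, sum⟩ :=
    exists_eA (q : ℕ) q.2 O ζ' hζ' hζO C.δ hOδ hδζ ν hνO hδY c0' hδc0
      ⟨_, haO', by rw [hY]; exact hYq⟩
  -- the action on constants
  have hactk : ∀ (σ : ↥(Iq q)) (x : Kb), C.act σ (kc q M1 F' x) = kc q M1 F' ((σ : GQ) x) := fun σ x => by
    show C.act σ (algebraMap (FN (M1 * (q : ℕ))) F' (algebraMap Kb (FN (M1 * (q : ℕ))) x)) = _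
    rw [C.act_alg, gal_algebraMap]
    rfl
  have hc0act : ∀ σ : ↥(Iq q), ∃ u ∈ O, C.act σ c0' = c0' * u := fun σ => by
    refine ⟨kc q M1 F' ((σ : GQ) c0 / c0), hkO _ ?_, ?_⟩
    · have hne : (σ : GQ) c0 ≠ 0 := (map_ne_zero _).2 hc0
      refine (wq_nonneg_iff q (div_ne_zero hne hc0)).1 ?_
      rw [RVal.w_div hne hc0, pres_Dq q _ (Iq_le_Dq q σ.2) c0, sub_self]
    · rw [hc0'def, hactk, ← map_mul]
      congr 1
      field_simp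
  have key : ∀ τ : ↥(Iq q), ∃ w ∈ O, ∃ a' ∈ O, C.act τ ν = ν * w + c0' * a' := by
    intro τ
    obtain ⟨c, a3, hc, hτζ, ha3, hact⟩ := stab hq hT C hζ hf hc0 hc0' ⟨a, haO, ha⟩ h1 h2 τ
    refine act_nu (q : ℕ) q.2 O ζ' hζ' hζO (C.act τ) c hc ?_ ν hνO c0'
      (algebraMap (FN (M1 * (q : ℕ))) F' a3) (by rw [hOdef]; exact alg_mem_OO ha3) ?_
    · rw [hζ'def, hactk, hτζ, map_pow]
    · rw [hY, hYdef, hact, hζ'def, hc0'def]
      simp only [kc, RingHom.comp_apply, map_mul, map_add, map_sub, map_one]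
  have hst : ∀ σ : ↥(Iq q), ∃ a ∈ O, C.act σ eA - eA = c0' * a := by
    intro σ
    refine eA_congr O c0' hc0O heA (hOact σ _ heA) ⟨bb, hbb, heb⟩ ⟨a2, ha2, hea⟩
      (ν' := C.act σ ν) ⟨C.act σ bb, hOact σ _ hbb, by rw [heb, map_add, map_one, map_mul]⟩ ?_ (key σ) ?_
    · obtain ⟨u, hu, hcu⟩ := hc0act σ
      refine ⟨u * C.act σ a2, mul_mem hu (hOact σ _ ha2), ?_⟩
      rw [← map_mul, hea, map_mul, hcu]; ring
    · obtain ⟨w, hw, a', ha', h⟩ := key σ⁻¹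
      obtain ⟨u, hu, hcu⟩ := hc0act σ
      have h3 : C.act σ (C.act σ⁻¹ ν) = ν := by
        have : (C.act σ * C.act σ⁻¹) ν = ν := by
          rw [← map_mul, mul_inv_cancel, map_one]; rfl
        exact this
      refine ⟨C.act σ w, hOact σ _ hw, u * C.act σ a', mul_mem hu (hOact σ _ ha'), ?_⟩
      calc ν = C.act σ (C.act σ⁻¹ ν) := h3.symm
        _ = C.act σ (ν * w + c0' * a') := by rw [h]
        _ = C.act σ ν * C.act σ w + c0' * (u * C.act σ a') := by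
          rw [map_add, map_mul, map_mul, hcu]; ring
  have hidem : ∃ a ∈ O, eA * eA - eA = c0' * a :=
    ⟨a2 * bb, mul_mem ha2 hbb, by
      have : eA * eA - eA = (eA * ν) * bb := by
        conv_lhs => rw [heb]
        rw [heb]; ring
      rw [this, hea]; ring⟩
  have hfin : (Set.range fun σ : ↥(Iq q) => C.act σ eA).Finite := by
    obtain ⟨θ, hθ⟩ := C.lev eA
    exact finite_orbit C.act θ (mainAux_finite θ) eA (fun σ h => hθ σ h)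
  obtain ⟨e0, he0O, he0fix, ⟨a5, ha5, he05⟩⟩ :=
    exists_fixed_approx C.act O hOact c0' hc0O eA heA hfin hidem hst
  obtain ⟨N, u, hu, hN⟩ := mainAux_pow hc0 hc0'
  have h0 : IsScalarTower (Rn S b 𝔫) (Mod.EE q M1) C.Ep := inferInstance
  refine @sheet_of_big (Rn S b 𝔫) (Mod.EE q M1) C.Ep (FN (M1 * (q : ℕ))) F' _ _ _ _ _ _ _ _ _ _ _ _ h0 _ _
    ((q : ℕ) : Rn S b 𝔫) (mainAux_q_mem S b 𝔫 hq) (mainAux_q_ne S b 𝔫) C.δE (q : ℕ) q.2.pos (δE_pow C)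
    (δE_fix C hζ) C.δ (fun x => rfl) O hOδ ?_ ?_ c0' hc0O hδc0 N ?_ eA heA orth
    ⟨0, zero_mem _, by rw [sum]; simp⟩ ⟨e0, he0fix⟩ ⟨a5, ha5, he05⟩
  · intro x
    rw [hOdef]
    exact alg_mem_OO (coe_Rn_mem_Os x)
  · intro x hx
    rw [hOdef] at hx
    exact desc C hζ x hx
  · refine ⟨kc q M1 F' u, hkO u hu, ?_⟩
    rw [hc0'def, ← map_pow, hN, map_mul, map_natCast, map_natCast, map_natCast]

/-- the degenerate case -/
theorem exists_sheet_of_one (C : Cov q M1 S.hc t F') (b : Bool)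
    (𝔫 : Ideal (Mod.BB S b)) [𝔫.IsPrime] (hζ : C.ζ = 1) :
    ∃ D : Alg.Sheet (E := Mod.EE q M1) (Rn S b 𝔫) C.Ep ((q : ℕ) : Rn S b 𝔫), D.δ = C.δE := by
  have hδ : ∀ x : C.Ep, C.δE x = x := fun x => by
    obtain ⟨f, hf⟩ := deg C hζ (x : F')
    apply Subtype.ext
    rw [C.coe_δE, ← hf, C.δ.commutes]
  refine ⟨{ δ := C.δE, n := 1, hn := Nat.one_pos, pow := fun x => by rw [pow_one]; exact hδ x,
            fix := fun x _ => ?_, e := 1, int := isIntegral_one, orth := fun k h1 h2 => by omega,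
            sum := ⟨0, isIntegral_zero, by simp⟩ }, rfl⟩
  obtain ⟨f, hf⟩ := deg C hζ (x : F')
  have hfE : f ∈ Mod.EE q M1 := mem_EE_of_alg_mem C (by rw [hf]; exact x.2)
  exact ⟨⟨f, hfE⟩, Subtype.ext hf⟩

/-- **(C3)** -/
theorem exists_sheet (hT : GoodT q M1 S.hc t) (C : Cov q M1 S.hc t F') (b : Bool)
    (𝔫 : Ideal (Mod.BB S b)) [𝔫.IsPrime] (hq : ((q : ℕ) : Mod.BB S b) ∈ 𝔫) :
    ∃ D : Alg.Sheet (E := Mod.EE q M1) (Rn S b 𝔫) C.Ep ((q : ℕ) : Rn S b 𝔫), D.δ = C.δE := by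
  by_cases hζ : C.ζ = 1
  · exact exists_sheet_of_one S C b 𝔫 hζ
  · have hprim : IsPrimitiveRoot C.ζ (q : ℕ) := by
      haveI : Fact (q : ℕ).Prime := ⟨q.2⟩
      have h := orderOf_eq_prime C.ζ_pow hζ
      have h' := IsPrimitiveRoot.orderOf C.ζ
      rwa [h] at h'
    obtain ⟨D, hD, -⟩ := exists_sheet_of_prim S hT C b 𝔫 hq hprim
    exact ⟨D, hD⟩

end Fermat.Agent.S44.Cov.Sh
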