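import Fermat.Agent.S05.Defs
import Fermat.Agent.S33.Abs.ASPoly

/-!
# S44 / GEO / COVER / C3 (SHEET) : Artin-Schreier congruences for an `RVal`      [key S44/C3-AS]   (S05.RVal + S33/Abs/ASPoly + Mathlib)   (helper4)

`w : RVal F`, `(1 + π)^p = 1`, `π ≠ 0`, `w π > 0`, `w p > 0`.

* `as_val`: `w Z ≥ 0` ⟹ `((1 + π Z)^p - 1)/π^p ≡ Z^p - Z` (difference of value `> 0`).
  Proof: `X := ((1 + π Z)^p - 1)/π^p`, `S33.as_eq' hp hπ h0 (hZ : (1 + π Z)^p = 1 + π^p X)` : `asQ p π * (Z^p - Z - X) = π * (Z * (Z * asQ' p (π Z) - asQ' p π))`.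
  `asQ p π = 1 + π asQ' p π` (`asQ_eq`) has value `0` (`asQ' p x` has value `≥ 0` for `w x ≥ 0`: sum of naturals times powers; `w n ≥ 0` by induction from `w 1 = 0`); the right side has value `> 0`.
* `wp_val`: `w φ ≥ 0`, `w (ψ - φ - m) > 0`, `m : ℕ` ⟹ `(ψ^p - ψ) - (φ^p - φ)` has value `> 0`.
  Proof: `ψ = φ + m + η`.  `(x + y)^p - x^p - y^p = p * (...)` (`S33.one_add_pow_eq`-style / `add_pow` + `Nat.Prime.dvd_choose_self`; or `(x+y)^p - x^p - y^p ∈ (p)` via `add_pow_char`-in-quotient, or use `sub_dvd_pow_sub_pow`):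
  simplest: `ψ^p - (φ + m)^p = η * (...)` (`sub_dvd_pow_sub_pow`), `(φ + m)^p - φ^p - m^p = p * g(φ, m)` with `w g ≥ 0`, `m^p - m = p * k` (`ZMod.pow_card` / `Nat.ModEq.pow_totient` / `Int.ModEq`: Fermat).
(`RVal` API: `GE.add`, `GE.mul`, `GT.add`, `GT.mul_GE`, ... in `S05/Defs.lean`, `S55/B`, `S33/Val`.)
-/

set_option autoImplicit false

open Fermat.Agent.S05

namespace Fermat.Agent.S44.Cov.Sh

/-- the valuation ring of an `RVal` -/
def asRing {F : Type*} [Field F] (w : RVal F) : Subring F where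
  carrier := {x | w.GE x 0}
  mul_mem' := fun {a b} ha hb => by
    have := RVal.GE.mul ha hb
    rwa [add_zero] at this
  one_mem' := RVal.EQ_one.GE le_rfl
  add_mem' := fun ha hb => RVal.GE.add ha hb
  zero_mem' := RVal.GE_zero 0
  neg_mem' := fun ha => RVal.GE.neg ha

theorem as_val {F : Type*} [Field F] (w : RVal F) {p : ℕ} (hp : p.Prime) {π : F} (hπ : (1 + π) ^ p = 1)
    (hπ0 : π ≠ 0) (hw : w.GT π 0) (hp0 : (p : F) ≠ 0) {Z : F} (hZ : w.GE Z 0) :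
    w.GT (((1 + π * Z) ^ p - 1) * (π ^ p)⁻¹ - (Z ^ p - Z)) 0 := by
  have hπp : π ^ p ≠ 0 := pow_ne_zero _ hπ0
  have hZ' : (1 + π * Z) ^ p = 1 + π ^ p * (((1 + π * Z) ^ p - 1) * (π ^ p)⁻¹) := by
    field_simp
    ring
  have key := S33.as_eq' hp hπ (mul_ne_zero hp0 hπ0) hZ'
  have hπR : π ∈ asRing w := hw.GE le_rfl
  have hZR : Z ∈ asRing w := hZ
  have h1 : Z * (Z * S33.asQ' p (π * Z) - S33.asQ' p π) ∈ asRing w :=
    mul_mem hZR (sub_mem (mul_mem hZR (S33.asQ'_mem _ p (mul_mem hπR hZR))) (S33.asQ'_mem _ p hπR))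
  have h2 : w.GT (π * (Z * (Z * S33.asQ' p (π * Z) - S33.asQ' p π))) 0 := by
    have := hw.mul_GE (show w.GE _ 0 from h1)
    rwa [add_zero] at this
  have h3 : w.EQ (S33.asQ p π) 0 := by
    rw [S33.asQ_eq hp]
    refine RVal.EQ_one.add_GT ?_
    have := hw.mul_GE (show w.GE _ 0 from S33.asQ'_mem (asRing w) p hπR)
    rwa [add_zero] at this
  rw [← key, mul_comm] at h2
  have h4 := RVal.GT.of_mul_eq_left rfl h3 h2
  rw [sub_zero] at h4
  have e : ((1 + π * Z) ^ p - 1) * (π ^ p)⁻¹ - (Z ^ p - Z) =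
      -(Z ^ p - Z - ((1 + π * Z) ^ p - 1) * (π ^ p)⁻¹) := by ring
  rw [e]
  exact h4.neg

theorem wp_val {F : Type*} [Field F] (w : RVal F) {p : ℕ} (hp : p.Prime) (hwp : w.GT (p : F) 0)
    {φ ψ : F} (m : ℕ) (hφ : w.GE φ 0) (h : w.GT (ψ - φ - (m : F)) 0) :
    w.GT ((ψ ^ p - ψ) - (φ ^ p - φ)) 0 := by
  have : Fact p.Prime := ⟨hp⟩
  have hmR : (m : F) ∈ asRing w := natCast_mem _ m
  have hφR : φ ∈ asRing w := hφ
  have haR : φ + (m : F) ∈ asRing w := add_mem hφR hmR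
  have hψR : ψ ∈ asRing w := by
    have : ψ = (ψ - φ - (m : F)) + (φ + (m : F)) := by ring
    rw [this]
    exact add_mem (show w.GE _ 0 from h.GE le_rfl) haR
  obtain ⟨c, hc⟩ := sub_dvd_pow_sub_pow (⟨ψ, hψR⟩ : asRing w) ⟨φ + (m : F), haR⟩ p
  have hc' : ψ ^ p - (φ + (m : F)) ^ p = (ψ - (φ + (m : F))) * (c : F) := congrArg Subtype.val hc
  obtain ⟨g, hg⟩ := exists_add_pow_prime_eq hp (⟨φ, hφR⟩ : asRing w) ⟨(m : F), hmR⟩
  have hg' : (φ + (m : F)) ^ p = φ ^ p + (m : F) ^ p + (p : F) * (φ * (m : F) * (g : F)) := by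
    have := congrArg Subtype.val hg
    simpa [mul_assoc] using this
  obtain ⟨k, hk⟩ : (p : ℤ) ∣ (m : ℤ) ^ p - m := by
    rw [← ZMod.intCast_zmod_eq_zero_iff_dvd]
    push_cast
    rw [ZMod.pow_card, sub_self]
  have hk' : (m : F) ^ p - (m : F) = (p : F) * (k : F) := by
    have := congrArg (Int.cast : ℤ → F) hk
    push_cast at this
    exact this
  have e : (ψ ^ p - ψ) - (φ ^ p - φ) =
      (ψ - φ - (m : F)) * (c : F) + (p : F) * (φ * (m : F) * (g : F)) + (p : F) * (k : F) - (ψ - φ - (m : F)) := by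
    linear_combination hc' + hg' + hk'
  rw [e]
  have t1 : w.GT ((ψ - φ - (m : F)) * (c : F)) 0 := by
    have := h.mul_GE (show w.GE (c : F) 0 from c.2)
    rwa [add_zero] at this
  have t2 : w.GT ((p : F) * (φ * (m : F) * (g : F))) 0 := by
    have := hwp.mul_GE (show w.GE (φ * (m : F) * (g : F)) 0 from mul_mem (mul_mem hφR hmR) g.2)
    rwa [add_zero] at this
  have t3 : w.GT ((p : F) * (k : F)) 0 := by
    have := hwp.mul_GE (RVal.GE_intCast (v := w) k)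
    rwa [add_zero] at this
  exact ((t1.add t2).add t3).sub h

end Fermat.Agent.S44.Cov.Sh
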