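import Fermat.Agent.S44.Geo.Cov.Sh.Fix
import Fermat.Agent.S44.Geo.Cov.Loc0

/-!
# S44 / GEO / COVER / C3 (SHEET) : the degenerate case `ζ = 1` of `exists_sheet`          (helper29)
-/

set_option autoImplicit false
set_option synthInstance.maxHeartbeats 400000

open HahnSeries ModularCurve AlgebraicCurve Fermat.Agent.S24 Fermat.Agent.S29 Fermat.Agent.S18
  Fermat.Agent.ES Fermat.Agent.ES.Alg Fermat.Agent.S34.Mod Fermat.Agent.S05 Fermat.Agent.S55.B ExtCitation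
  Fermat.Agent.S33 Fermat.Agent.S33.M
open Fermat.Agent.S55 (Dq Iq)

noncomputable section

namespace Fermat.Agent.S44.Cov.Sh

variable {q : Nat.Primes} {M1 r : ℕ} [NeZero M1] [NeZero (q : ℕ)] [NeZero r]

variable {hc : Nat.Coprime (q : ℕ) M1} {t : FN (M1 * (q : ℕ))} {F' : Type} [Field F']
  [Algebra (FN (M1 * (q : ℕ))) F'] (C : Cov q M1 hc t F')

theorem isPrimitiveRoot_zeta (hζ : C.ζ ≠ 1) : IsPrimitiveRoot C.ζ (q : ℕ) := by
  haveI : Fact (q : ℕ).Prime := ⟨q.2⟩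
  have h := orderOf_eq_prime C.ζ_pow hζ
  rw [← h]
  exact IsPrimitiveRoot.orderOf C.ζ

/-- the degenerate case of `exists_sheet` -/
theorem exists_sheet_deg (hζ : C.ζ = 1) (S0 : Setup M1 (q : ℕ) r (AA q)) (b : Bool)
    (𝔫 : Ideal (Mod.BB S0 b)) [𝔫.IsPrime] :
    ∃ D : Alg.Sheet (E := Mod.EE q M1) (Rn S0 b 𝔫) C.Ep ((q : ℕ) : Rn S0 b 𝔫), D.δ = C.δE := by
  have hδ : ∀ x : C.Ep, C.δE x = x := by
    intro x
    apply Subtype.ext
    rw [C.coe_δE]
    obtain ⟨f, hf⟩ := deg C hζ (x : F')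
    rw [← hf]
    exact C.δ.commutes f
  refine ⟨{
    δ := C.δE
    n := 1
    hn := one_pos
    pow := fun x => by rw [pow_one]; exact hδ x
    fix := fun x _ => by
      obtain ⟨f, hf⟩ := deg C hζ (x : F')
      have hf' : f ∈ Mod.EE q M1 := mem_EE_of_alg_mem C (by rw [hf]; exact x.2)
      exact ⟨⟨f, hf'⟩, Subtype.ext hf⟩
    e := 1
    int := isIntegral_one
    orth := fun k h0 h1 => absurd h1 (by omega)
    sum := ⟨0, isIntegral_zero, by simp⟩ }, rfl⟩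

end Fermat.Agent.S44.Cov.Sh
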