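import Mathlib

/-!
# S44 / GEO / COVER / C3 (SHEET) : gluing two Artin-Schreier roots at a closed point      [key S44/C3-GLUE]   (Mathlib only)   (helper4)

`B` a ring, `ρ₁, ρ₂ : B → Ωᵢ` (fields of characteristic `p`) the restrictions to the two components, `𝔫` a prime containing `ker ρ₁` or `ker ρ₂`.
`a₁, a₂, Φ ∈ B` with `℘(a₁) = Φ` on the first, `℘(a₂) = Φ` on the second component (`℘ x = x^p - x`).
Then `d (a₁ - a₂ - m) = z₁ + z₂` with `m ∈ ℕ`, `d ∉ 𝔫`, `ρᵢ d ≠ 0`, `ρᵢ zᵢ = 0`.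

## Proof
CASE A `ker ρ₁ ≤ 𝔫`, `ker ρ₂ ≤ 𝔫`.  `𝔠 := ker ρ₁ ⊔ ker ρ₂ ≤ 𝔫`, `(p : B) ∈ ker ρ₁ ≤ 𝔠` so `B ⧸ 𝔠` has characteristic `p` (`CharP.quotient'`/ or just: `(p : B⧸𝔠) = 0`, use `ExpChar`-free identities below).
  `D := a₁ - a₂`.  In `B ⧸ 𝔠`:  `D^p - D = (a₁^p - a₁ - Φ) - (a₂^p - a₂ - Φ) = 0` (`sub_pow_char`-type identity: `(x - y)^p = x^p - y^p` when `p = 0`; elementary version: `(x - y)^p - (x^p - y^p) ∈ (p)`, e.g. `sub_pow_char_of_commute`, or via `Ideal.Quotient` + `CharP`).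
  `∏_{m<p} (D - m) - (D^p - D) ∈ (p)` (polynomial identity `∏_{a : ZMod p} (X - C a) = X^p - X`, `FiniteField.X_pow_card_sub_X_...`/`ZMod`; transport with `ZMod.castHom`/`Algebra (ZMod p) (B ⧸ 𝔠)`; reindex `ZMod p ≃ range p`).
  So `∏_{m<p} (D - m) ∈ 𝔠 ≤ 𝔫`; `𝔫` prime: some `D - m ∈ 𝔫`; for `m' ≠ m`, `m' < p`: `D - m' ∉ 𝔫` (else `m - m' ∈ 𝔫`, and `p ∈ 𝔫`, coprime, `1 ∈ 𝔫`).  `d := ∏_{m' ≠ m} (D - m') ∉ 𝔫`, so `ρᵢ d ≠ 0`; `d (D - m) = ∏ ∈ 𝔠` (`Submodule.mem_sup`).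
CASE B `ker ρ₁ ≤ 𝔫`, `¬ ker ρ₂ ≤ 𝔫`: `z ∈ ker ρ₂ \ 𝔫`, `z'` from `sep'` (`ρ₁ z' = 0`, `ρ₂ z' ≠ 0`): `d := z + z'`, `m := 0`, `z₁ := z' (a₁ - a₂)`, `z₂ := z (a₁ - a₂)`.
CASE C symmetric with `sep`.
-/

set_option autoImplicit false
set_option linter.style.haveILetI false

open Finset

namespace Fermat.Agent.S44.Cov.Sh

theorem glueAux_charP {B : Type*} [CommRing B] (p : ℕ) [Fact p.Prime] (J : Ideal B) (hJ : J ≠ ⊤)
    (hp : (p : B) ∈ J) : CharP (B ⧸ J) p := by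
  haveI : Nontrivial (B ⧸ J) := Ideal.Quotient.nontrivial_iff.2 hJ
  rw [CharP.charP_iff_prime_eq_zero (Fact.out : p.Prime)]
  have := Ideal.Quotient.eq_zero_iff_mem.2 hp
  rwa [map_natCast] at this

theorem glueAux_poly (p : ℕ) [Fact p.Prime] :
    ∏ a : ZMod p, (Polynomial.X - Polynomial.C a) = (Polynomial.X ^ p - Polynomial.X : Polynomial (ZMod p)) := by
  have h1 : (Polynomial.X ^ p - Polynomial.X : Polynomial (ZMod p)).roots = Finset.univ.val := by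
    have := FiniteField.roots_X_pow_card_sub_X (ZMod p)
    rwa [ZMod.card] at this
  have hdeg : (Polynomial.X ^ p - Polynomial.X : Polynomial (ZMod p)).natDegree = p :=
    FiniteField.X_pow_card_sub_X_natDegree_eq (ZMod p) (Fact.out : p.Prime).one_lt
  have hmon : (Polynomial.X ^ p - Polynomial.X : Polynomial (ZMod p)).Monic := by
    apply Polynomial.monic_X_pow_sub
    rw [Polynomial.degree_X]
    exact_mod_cast (Fact.out : p.Prime).one_lt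
  have h2 := Polynomial.prod_multiset_X_sub_C_of_monic_of_roots_card_eq hmon (by
    rw [h1, hdeg]
    show Finset.univ.card = p
    rw [Finset.card_univ, ZMod.card])
  rw [h1] at h2
  exact h2

/-- in a ring of characteristic `p` : `∏_a (x - a) = x ^ p - x` -/
theorem glueAux_prod {Q : Type*} [CommRing Q] (p : ℕ) [Fact p.Prime] [CharP Q p] (x : Q) :
    ∏ a : ZMod p, (x - ((a.val : ℕ) : Q)) = x ^ p - x := by
  letI := ZMod.algebra Q p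
  have h := congrArg (Polynomial.aeval x) (glueAux_poly p)
  rw [map_prod, map_sub, map_pow, Polynomial.aeval_X] at h
  rw [← h]
  refine Finset.prod_congr rfl fun a _ => ?_
  rw [map_sub, Polynomial.aeval_X, Polynomial.aeval_C]
  congr 1
  have : algebraMap (ZMod p) Q a = algebraMap (ZMod p) Q ((a.val : ℕ) : ZMod p) := by
    rw [ZMod.natCast_zmod_val]
  rw [this, map_natCast]

theorem glue {B Ω₁ Ω₂ : Type*} [CommRing B] [Field Ω₁] [Field Ω₂] (p : ℕ) [Fact p.Prime] [CharP Ω₁ p] [CharP Ω₂ p]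
    (ρ₁ : B →+* Ω₁) (ρ₂ : B →+* Ω₂) (sep : ∃ c, ρ₂ c = 0 ∧ ρ₁ c ≠ 0) (sep' : ∃ c, ρ₁ c = 0 ∧ ρ₂ c ≠ 0)
    (𝔫 : Ideal B) [𝔫.IsPrime] (h𝔫 : RingHom.ker ρ₁ ≤ 𝔫 ∨ RingHom.ker ρ₂ ≤ 𝔫)
    (a₁ a₂ Φ : B) (h₁ : ρ₁ (a₁ ^ p - a₁ - Φ) = 0) (h₂ : ρ₂ (a₂ ^ p - a₂ - Φ) = 0) :
    ∃ (m : ℕ) (d z₁ z₂ : B), d ∉ 𝔫 ∧ ρ₁ d ≠ 0 ∧ ρ₂ d ≠ 0 ∧ ρ₁ z₁ = 0 ∧ ρ₂ z₂ = 0 ∧
      d * (a₁ - a₂ - (m : B)) = z₁ + z₂ ∧ (¬ RingHom.ker ρ₁ ≤ 𝔫 → m = 0) := by
  classical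
  have h𝔫top : 𝔫 ≠ ⊤ := Ideal.IsPrime.ne_top inferInstance
  by_cases hk1 : RingHom.ker ρ₁ ≤ 𝔫
  · by_cases hk2 : RingHom.ker ρ₂ ≤ 𝔫
    · -- CASE A
      set 𝔠 : Ideal B := RingHom.ker ρ₁ ⊔ RingHom.ker ρ₂ with h𝔠
      have h𝔠𝔫 : 𝔠 ≤ 𝔫 := sup_le hk1 hk2
      have hp1 : (p : B) ∈ RingHom.ker ρ₁ := by
        rw [RingHom.mem_ker, map_natCast, CharP.cast_eq_zero]
      have hp𝔠 : (p : B) ∈ 𝔠 := (le_sup_left : RingHom.ker ρ₁ ≤ 𝔠) hp1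
      haveI : CharP (B ⧸ 𝔠) p := glueAux_charP p 𝔠 (fun h => h𝔫top (top_le_iff.1 (h ▸ h𝔠𝔫))) hp𝔠
      haveI : CharP (B ⧸ 𝔫) p := glueAux_charP p 𝔫 h𝔫top (h𝔠𝔫 hp𝔠)
      set D := a₁ - a₂ with hD
      have hprod : ∏ a : ZMod p, (D - ((a.val : ℕ) : B)) ∈ 𝔠 := by
        rw [← Ideal.Quotient.eq_zero_iff_mem, map_prod]
        have e1 : ∀ a : ZMod p, Ideal.Quotient.mk 𝔠 (D - ((a.val : ℕ) : B)) =
            Ideal.Quotient.mk 𝔠 D - ((a.val : ℕ) : B ⧸ 𝔠) := fun a => by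
          rw [map_sub, map_natCast]
        rw [Finset.prod_congr rfl fun a _ => e1 a, glueAux_prod p]
        have e2 : Ideal.Quotient.mk 𝔠 (a₁ ^ p - a₁ - Φ) = 0 :=
          Ideal.Quotient.eq_zero_iff_mem.2 ((le_sup_left : RingHom.ker ρ₁ ≤ 𝔠) h₁)
        have e3 : Ideal.Quotient.mk 𝔠 (a₂ ^ p - a₂ - Φ) = 0 :=
          Ideal.Quotient.eq_zero_iff_mem.2 ((le_sup_right : RingHom.ker ρ₂ ≤ 𝔠) h₂)
        rw [hD, map_sub, sub_pow_char]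
        simp only [map_sub, map_pow] at e2 e3
        linear_combination e2 - e3
      obtain ⟨a, -, ha⟩ := (Ideal.IsPrime.prod_mem_iff (p := 𝔫)).1 (h𝔠𝔫 hprod)
      have hne : ∀ a' : ZMod p, a' ≠ a → D - ((a'.val : ℕ) : B) ∉ 𝔫 := by
        intro a' haa' hmem
        apply haa'
        have h3 : ((a.val : ℕ) : B) - ((a'.val : ℕ) : B) ∈ 𝔫 := by
          have := 𝔫.sub_mem hmem ha
          have e : D - ((a'.val : ℕ) : B) - (D - ((a.val : ℕ) : B)) =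
              ((a.val : ℕ) : B) - ((a'.val : ℕ) : B) := by ring
          rwa [e] at this
        have h4 : ((a.val : ℕ) : B ⧸ 𝔫) = ((a'.val : ℕ) : B ⧸ 𝔫) := by
          have := Ideal.Quotient.eq_zero_iff_mem.2 h3
          rw [map_sub, map_natCast, map_natCast, sub_eq_zero] at this
          exact this
        rw [CharP.natCast_eq_natCast (B ⧸ 𝔫) p] at h4
        have h5 : a.val = a'.val := Nat.ModEq.eq_of_lt_of_lt h4 (ZMod.val_lt a) (ZMod.val_lt a')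
        exact (ZMod.val_injective p h5).symm
      set d := ∏ a' ∈ Finset.univ.erase a, (D - ((a'.val : ℕ) : B)) with hd
      have hd𝔫 : d ∉ 𝔫 := by
        intro hmem
        obtain ⟨a', ha', hmem'⟩ := (Ideal.IsPrime.prod_mem_iff (p := 𝔫)).1 hmem
        exact hne a' (Finset.ne_of_mem_erase ha') hmem'
      have hdD : d * (D - ((a.val : ℕ) : B)) ∈ 𝔠 := by
        rw [mul_comm, hd, Finset.mul_prod_erase Finset.univ (fun a' : ZMod p => D - ((a'.val : ℕ) : B))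
          (Finset.mem_univ a)]
        exact hprod
      obtain ⟨z₁, hz₁, z₂, hz₂, hz⟩ := Submodule.mem_sup.1 hdD
      exact ⟨a.val, d, z₁, z₂, hd𝔫, fun h => hd𝔫 (hk1 h), fun h => hd𝔫 (hk2 h), hz₁, hz₂, hz.symm,
        fun h => absurd hk1 h⟩
    · -- CASE B
      obtain ⟨z, hz, hz𝔫⟩ := SetLike.not_le_iff_exists.1 hk2
      obtain ⟨z', hz'1, hz'2⟩ := sep'
      have hz1 : ρ₁ z ≠ 0 := fun h => hz𝔫 (hk1 h)
      refine ⟨0, z + z', z' * (a₁ - a₂), z * (a₁ - a₂), ?_, ?_, ?_, ?_, ?_, ?_, fun _ => rfl⟩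
      · intro h
        apply hz𝔫
        have := 𝔫.sub_mem h (hk1 (show z' ∈ RingHom.ker ρ₁ from hz'1))
        rwa [add_sub_cancel_right] at this
      · rw [map_add, hz'1, add_zero]; exact hz1
      · rw [map_add, (show ρ₂ z = 0 from hz), zero_add]; exact hz'2
      · rw [map_mul, hz'1, zero_mul]
      · rw [map_mul, (show ρ₂ z = 0 from hz), zero_mul]
      · rw [Nat.cast_zero]; ring
  · -- CASE C
    have hk2 : RingHom.ker ρ₂ ≤ 𝔫 := h𝔫.resolve_left hk1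
    obtain ⟨z, hz, hz𝔫⟩ := SetLike.not_le_iff_exists.1 hk1
    obtain ⟨z', hz'2, hz'1⟩ := sep
    have hz2 : ρ₂ z ≠ 0 := fun h => hz𝔫 (hk2 h)
    refine ⟨0, z + z', z * (a₁ - a₂), z' * (a₁ - a₂), ?_, ?_, ?_, ?_, ?_, ?_, fun _ => rfl⟩
    · intro h
      apply hz𝔫
      have := 𝔫.sub_mem h (hk2 (show z' ∈ RingHom.ker ρ₂ from hz'2))
      rwa [add_sub_cancel_right] at this
    · rw [map_add, (show ρ₁ z = 0 from hz), zero_add]; exact hz'1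
    · rw [map_add, hz'2, add_zero]; exact hz2
    · rw [map_mul, (show ρ₁ z = 0 from hz), zero_mul]
    · rw [map_mul, hz'2, zero_mul]
    · rw [Nat.cast_zero]; ring

end Fermat.Agent.S44.Cov.Sh
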