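import Fermat.Agent.S44.Geo.Cov.Sh.OsInv
import Fermat.Agent.S44.Geo.Cov.Sh.AS
import Fermat.Agent.S44.Geo.Cov.Sh.Glue
import Fermat.Agent.S44.Geo.Cov.RelVal

/-!
# S44 / GEO / COVER / C3 (SHEET) : `exists_loc` from `exists_loc1`      [key S44/C3-LOC2]   (helper19)

* `locVal` (abstract, one valuation): steps 7, 9 of the header of `Sh/Loc.lean`;
* `exists_loc_aux` : `exists_loc` with the output of `exists_loc1` as a hypothesis.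
-/

set_option autoImplicit false
set_option synthInstance.maxHeartbeats 400000
set_option linter.style.haveILetI false

open HahnSeries ModularCurve AlgebraicCurve Fermat.Agent.S24 Fermat.Agent.S29 Fermat.Agent.S18
  Fermat.Agent.ES Fermat.Agent.ES.Alg Fermat.Agent.S34.Mod Fermat.Agent.S05 Fermat.Agent.S55.B ExtCitation
  Fermat.Agent.S33 Fermat.Agent.S33.M
open Fermat.Agent.S55 (Dq Iq)

noncomputable section

namespace Fermat.Agent.S44.Cov.Sh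

/-- the valuation computation, for one valuation -/
theorem locVal {F : Type*} [Field F] (w : RVal F) {p : ℕ} (hp : p.Prime) {π : F} (hπ : (1 + π) ^ p = 1)
    (hπ0 : π ≠ 0) {e1 : ℝ} (he1 : 0 < e1) (hw : w.GE π e1) (hp0 : (p : F) ≠ 0) (hwp : w.GT (p : F) 0)
    {fb φ X t ψ : F} (m : ℕ) (hfb : fb = 1 + π * φ) (hφ : w.GE φ 0) (hX : fb ^ p * t - 1 = π ^ p * X)
    (hXφ : w.GT (X - (φ ^ p - φ)) 0) (hψ : w.GT (ψ - φ - (m : F)) 0) :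
    w.GE ψ 0 ∧ w.EQ (1 + π * ψ) 0 ∧ w.EQ fb 0 ∧
      w.GT ((fb * (1 + π * ψ)⁻¹) ^ p * t - 1) (p * e1) ∧
      (m = 0 → w.GT (fb * (1 + π * ψ)⁻¹ - 1) e1) := by
  have hπGT : w.GT π 0 := hw.GT he1
  have hψ0 : w.GE ψ 0 := by
    have h1 : ψ = (ψ - φ - (m : F)) + (φ + (m : F)) := by ring
    rw [h1]
    exact (hψ.GE le_rfl).add (hφ.add (RVal.GE_natCast m))
  have hg : w.EQ (1 + π * ψ) 0 := by
    refine RVal.EQ_one.add_GT ?_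
    have := hπGT.mul_GE hψ0
    rwa [add_zero] at this
  have hfbE : w.EQ fb 0 := by
    rw [hfb]
    refine RVal.EQ_one.add_GT ?_
    have := hπGT.mul_GE hφ
    rwa [add_zero] at this
  set g := 1 + π * ψ with hgdef
  have hg0 : g ≠ 0 := hg.ne_zero
  have hgi : w.EQ g⁻¹ 0 := by
    have := hg.inv
    rwa [neg_zero] at this
  have hπp : π ^ p ≠ 0 := pow_ne_zero _ hπ0
  refine ⟨hψ0, hg, hfbE, ?_, ?_⟩
  · set Y := (g ^ p - 1) * (π ^ p)⁻¹ with hY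
    have hYe : g ^ p = 1 + π ^ p * Y := by
      rw [hY]
      field_simp
      ring
    have h1 : (fb * g⁻¹) ^ p * t - 1 = π ^ p * ((X - Y) * (g⁻¹) ^ p) := by
      have h2 : fb ^ p * t = 1 + π ^ p * X := by rw [← hX]; ring
      have h3 : (g⁻¹) ^ p * g ^ p = 1 := by rw [← mul_pow, inv_mul_cancel₀ hg0, one_pow]
      calc (fb * g⁻¹) ^ p * t - 1 = (fb ^ p * t) * (g⁻¹) ^ p - (g⁻¹) ^ p * g ^ p := by
            rw [h3, mul_pow]; ring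
        _ = π ^ p * ((X - Y) * (g⁻¹) ^ p) := by rw [h2, hYe]; ring
    have h4 : w.GT (X - Y) 0 := by
      have e : X - Y = (X - (φ ^ p - φ)) - (Y - (ψ ^ p - ψ)) - ((ψ ^ p - ψ) - (φ ^ p - φ)) := by ring
      rw [e]
      exact (hXφ.sub (as_val w hp hπ hπ0 hπGT hp0 hψ0)).sub (wp_val w hp hwp m hφ hψ)
    have h5 : w.GE ((g⁻¹) ^ p) 0 := by
      have := (hgi.GE le_rfl).pow p
      rwa [mul_zero] at this
    have h6 : w.GT ((X - Y) * (g⁻¹) ^ p) 0 := by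
      have := h4.mul_GE h5
      rwa [add_zero] at this
    rw [h1]
    have := (hw.pow p).mul_GT h6
    rwa [add_zero] at this
  · intro hm
    have h1 : fb * g⁻¹ - 1 = π * ((φ - ψ) * g⁻¹) := by
      have : g⁻¹ * g = 1 := inv_mul_cancel₀ hg0
      calc fb * g⁻¹ - 1 = fb * g⁻¹ - g⁻¹ * g := by rw [this]
        _ = π * ((φ - ψ) * g⁻¹) := by rw [hfb, hgdef]; ring
    have h2 : w.GT (φ - ψ) 0 := by
      have e : φ - ψ = -(ψ - φ - (m : F)) := by rw [hm, Nat.cast_zero]; ring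
      rw [e]
      exact hψ.neg
    have h3 : w.GT ((φ - ψ) * g⁻¹) 0 := by
      have := h2.mul_GE (hgi.GE le_rfl)
      rwa [add_zero] at this
    rw [h1]
    have := hw.mul_GT h3
    rwa [add_zero] at this

variable {q : Nat.Primes} {M1 r : ℕ} [NeZero M1] [NeZero (q : ℕ)] [NeZero r]
variable (S : Setup M1 (q : ℕ) r (AA q)) (b : Bool)

set_option maxHeartbeats 1600000 in
/-- [S44/C3-LOC2] : `exists_loc` from the output of `exists_loc1` -/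
theorem exists_loc_aux (𝔫 : Ideal (Mod.BB S b)) [𝔫.IsPrime] (hq : ((q : ℕ) : Mod.BB S b) ∈ 𝔫)
    {t : FN (M1 * (q : ℕ))} {ζ : Kb} (hζ : IsPrimitiveRoot ζ (q : ℕ))
    (H : ∃ (fb φ X : FN (M1 * (q : ℕ))) (a1 a2 Φ : Mod.BB S b),
      fb ^ (q : ℕ) * t ∈ KL.C0 (AA q) (S.θM b) (FN (M1 * (q : ℕ))) ∧
      fb = 1 + algebraMap Kb (FN (M1 * (q : ℕ))) (ζ - 1) * φ ∧ GE2 S.hc φ 0 ∧
      fb ^ (q : ℕ) * t - 1 = algebraMap Kb (FN (M1 * (q : ℕ))) (ζ - 1) ^ (q : ℕ) * X ∧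
      GT2 S.hc (X - (φ ^ (q : ℕ) - φ)) 0 ∧
      (wG q (M1 * (q : ℕ))).GT (cF a1 - φ) 0 ∧ (wZ q S.hc).GT (cF a2 - φ) 0 ∧ GT2 S.hc (cF Φ - X) 0) :
    ∃ (f : FN (M1 * (q : ℕ))) (c0 : Kb), f ≠ 0 ∧ c0 ≠ 0 ∧ (wq q).GT c0 0 ∧
      (∃ a ∈ Os S b 𝔫, f ^ (q : ℕ) * t - 1 =
        algebraMap Kb (FN (M1 * (q : ℕ))) ((ζ - 1) ^ (q : ℕ) * c0) * a) ∧
      (RingHom.ker (Mod.r1 S b) ≤ 𝔫 → (wG q (M1 * (q : ℕ))).GT (f - 1) (1 / (((q : ℕ) : ℝ) - 1))) ∧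
      (¬ RingHom.ker (Mod.r1 S b) ≤ 𝔫 → (wZ q S.hc).GT (f - 1) (1 / (((q : ℕ) : ℝ) - 1))) := by
  classical
  obtain ⟨fb, φ, X, a1, a2, Φ, hC, hfb, hφ, hX, hXφ, ha1, ha2, hΦ⟩ := H
  haveI : Fact (q : ℕ).Prime := ⟨q.2⟩
  haveI : CharP (kA (AA q)) (q : ℕ) := charP_kA q.2 S.hA
  haveI : CharP (LaurentSeries (kA (AA q))) (q : ℕ) :=
    (RingHom.charP_iff (algebraMap (kA (AA q)) (LaurentSeries (kA (AA q))))
      (algebraMap (kA (AA q)) (LaurentSeries (kA (AA q)))).injective (q : ℕ)).mp inferInstance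
  set jπ : FN (M1 * (q : ℕ)) := algebraMap Kb (FN (M1 * (q : ℕ))) (ζ - 1) with hjπ
  set e1 : ℝ := 1 / (((q : ℕ) : ℝ) - 1) with he1
  have he1pos : 0 < e1 := by
    have : (1 : ℝ) < (q : ℕ) := by exact_mod_cast q.2.one_lt
    rw [he1]
    apply div_pos one_pos
    linarith
  have hwπ : (wq q).EQ (ζ - 1) e1 := w_pi q hζ
  have hπ0 : ζ - 1 ≠ 0 := hwπ.ne_zero
  have hjπ0 : jπ ≠ 0 := (map_ne_zero _).2 hπ0
  have hjπp : (1 + jπ) ^ (q : ℕ) = 1 := by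
    rw [hjπ, ← map_one (algebraMap Kb (FN (M1 * (q : ℕ)))), ← map_add, ← map_pow, add_sub_cancel,
      hζ.pow_eq_one, map_one]
  have hjπGE : GE2 S.hc jπ e1 := GE2_algebraMap (hwπ.GE le_rfl)
  have hpF0 : (((q : ℕ) : ℕ) : FN (M1 * (q : ℕ))) ≠ 0 := by
    rw [← map_natCast (algebraMap Kb (FN (M1 * (q : ℕ))))]
    exact (map_ne_zero _).2 (Nat.cast_ne_zero.2 q.2.ne_zero)
  have hpGT : GT2 S.hc (((q : ℕ) : ℕ) : FN (M1 * (q : ℕ))) 0 := by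
    have := GT2_algebraMap (hc := S.hc) (c := (((q : ℕ) : ℕ) : Kb)) (t := 0)
      (Or.inr (by rw [wq_q]; exact one_pos))
    rwa [map_natCast] at this
  have h₁ : Mod.r1 S b (a1 ^ (q : ℕ) - a1 - Φ) = 0 := by
    rw [Mod.r1_eq_zero_iff]
    have e : cF (a1 ^ (q : ℕ) - a1 - Φ) = ((cF a1 ^ (q : ℕ) - cF a1) - (φ ^ (q : ℕ) - φ)) - (cF Φ - X) -
        (X - (φ ^ (q : ℕ) - φ)) := by
      show cF a1 ^ (q : ℕ) - cF a1 - cF Φ = _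
      ring
    show (wG q (M1 * (q : ℕ))).GT (cF (a1 ^ (q : ℕ) - a1 - Φ)) 0
    rw [e]
    exact ((wp_val _ q.2 hpGT.1 0 hφ.1 (by rw [Nat.cast_zero, sub_zero]; exact ha1)).sub hΦ.1).sub hXφ.1
  have h₂ : Mod.r2 S b (a2 ^ (q : ℕ) - a2 - Φ) = 0 := by
    rw [Mod.r2_eq_zero_iff]
    have e : cF (a2 ^ (q : ℕ) - a2 - Φ) = ((cF a2 ^ (q : ℕ) - cF a2) - (φ ^ (q : ℕ) - φ)) - (cF Φ - X) -
        (X - (φ ^ (q : ℕ) - φ)) := by
      show cF a2 ^ (q : ℕ) - cF a2 - cF Φ = _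
      ring
    show (wZ q S.hc).GT (cF (a2 ^ (q : ℕ) - a2 - Φ)) 0
    rw [e]
    exact ((wp_val _ q.2 hpGT.2 0 hφ.2 (by rw [Nat.cast_zero, sub_zero]; exact ha2)).sub hΦ.2).sub hXφ.2
  have h𝔫 : RingHom.ker (Mod.r1 S b) ≤ 𝔫 ∨ RingHom.ker (Mod.r2 S b) ≤ 𝔫 := by
    rw [← Ideal.IsPrime.inf_le inferInstance, Mod.ker_inf, Ideal.span_singleton_le_iff_mem]
    exact hq
  obtain ⟨m, d, z1, z2, hd, hd1, hd2, hz1, hz2, hdz, hm⟩ := glue (q : ℕ) (Mod.r1 S b) (Mod.r2 S b)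
    (Mod.nodalModel S b).sep (Mod.nodalModel S b).sep' 𝔫 h𝔫 a1 a2 Φ h₁ h₂
  have hd0 : cF d ≠ 0 := cF_ne_zero hd
  have hdGi : (wG q (M1 * (q : ℕ))).GE (cF d)⁻¹ 0 := by
    have := (wG_EQ_BB S b hd1).inv
    rw [neg_zero] at this
    exact this.GE le_rfl
  have hdZi : (wZ q S.hc).GE (cF d)⁻¹ 0 := by
    have := (wZ_EQ_BB S b hd2).inv
    rw [neg_zero] at this
    exact this.GE le_rfl
  have hz1G : (wG q (M1 * (q : ℕ))).GT (cF z1) 0 := (Mod.r1_eq_zero_iff S b z1).1 hz1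
  have hz2Z : (wZ q S.hc).GT (cF z2) 0 := (Mod.r2_eq_zero_iff S b z2).1 hz2
  set ψ : FN (M1 * (q : ℕ)) := cF a1 - cF z1 * (cF d)⁻¹ with hψ
  have hψOs : ψ ∈ Os S b 𝔫 :=
    sub_mem (C0_le_Os a1.2) (mul_mem (C0_le_Os z1.2) (inv_cF_mem_Os hd))
  have hψG : (wG q (M1 * (q : ℕ))).GT (ψ - φ - ((0 : ℕ) : FN (M1 * (q : ℕ)))) 0 := by
    have e : ψ - φ - ((0 : ℕ) : FN (M1 * (q : ℕ))) = (cF a1 - φ) - cF z1 * (cF d)⁻¹ := by
      rw [hψ, Nat.cast_zero]; ring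
    rw [e]
    refine ha1.sub ?_
    have := hz1G.mul_GE hdGi
    rwa [add_zero] at this
  have hψZ : (wZ q S.hc).GT (ψ - φ - (m : FN (M1 * (q : ℕ)))) 0 := by
    have e0 : cF d * (cF a1 - cF a2 - (m : FN (M1 * (q : ℕ)))) = cF z1 + cF z2 := by
      have := congrArg (fun x : Mod.BB S b => ((Mod.EE q M1).subtype.comp (Mod.BB S b).subtype) x) hdz
      simp only [map_mul, map_sub, map_add, map_natCast] at this
      exact this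
    have e1' : cF a1 - cF a2 - (m : FN (M1 * (q : ℕ))) = (cF z1 + cF z2) * (cF d)⁻¹ := by
      rw [← e0, mul_comm (cF d), mul_assoc, mul_inv_cancel₀ hd0, mul_one]
    have e : ψ - φ - (m : FN (M1 * (q : ℕ))) = (cF a2 - φ) + cF z2 * (cF d)⁻¹ := by
      rw [hψ]
      linear_combination e1'
    rw [e]
    refine ha2.add ?_
    have := hz2Z.mul_GE hdZi
    rwa [add_zero] at this
  obtain ⟨hψ0G, hgG, hfbG, hdeepG, hfG⟩ := locVal (wG q (M1 * (q : ℕ))) q.2 hjπp hjπ0 he1pos hjπGE.1 hpF0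
    hpGT.1 0 hfb hφ.1 hX hXφ.1 hψG
  obtain ⟨hψ0Z, hgZ, -, hdeepZ, hfZ⟩ := locVal (wZ q S.hc) q.2 hjπp hjπ0 he1pos hjπGE.2 hpF0
    hpGT.2 m hfb hφ.2 hX hXφ.2 hψZ
  set g : FN (M1 * (q : ℕ)) := 1 + jπ * ψ with hg
  have hπA : ζ - 1 ∈ AA q := ratfAux_mem_of_GE (hwπ.GE he1pos.le)
  have hgOs : g ∈ Os S b 𝔫 := add_mem (one_mem _) (mul_mem (const_mem_Os hπA) hψOs)
  have hg1 : g - cF (1 : Mod.BB S b) = jπ * ψ := by
    show 1 + jπ * ψ - 1 = _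
    ring
  have hgiOs : g⁻¹ ∈ Os S b 𝔫 := by
    rcases h𝔫 with h | h
    · refine inv_mem_Os₁ h hgOs (d := 1) one_not_mem ?_
      rw [hg1]
      have := (hjπGE.1.GT he1pos).mul_GE hψ0G
      rwa [add_zero] at this
    · refine inv_mem_Os₂ h hgOs (d := 1) one_not_mem ?_
      rw [hg1]
      have := (hjπGE.2.GT he1pos).mul_GE hψ0Z
      rwa [add_zero] at this
  refine ⟨fb * g⁻¹, ?_⟩
  have hfOs : (fb * g⁻¹) ^ (q : ℕ) * t - 1 ∈ Os S b 𝔫 := by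
    have e : (fb * g⁻¹) ^ (q : ℕ) * t - 1 = (fb ^ (q : ℕ) * t) * (g⁻¹) ^ (q : ℕ) - 1 := by
      rw [mul_pow]; ring
    rw [e]
    exact sub_mem (mul_mem (C0_le_Os hC) (pow_mem hgiOs _)) (one_mem _)
  obtain ⟨c, hc0, hlt, hGE⟩ := exists_const_of_GT2 (hc := S.hc) ⟨hdeepG, hdeepZ⟩
  have hπq : (ζ - 1) ^ (q : ℕ) ≠ 0 := pow_ne_zero _ hπ0
  refine ⟨c * ((ζ - 1) ^ (q : ℕ))⁻¹, mul_ne_zero hfbG.ne_zero (inv_ne_zero hgG.ne_zero),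
    mul_ne_zero hc0 (inv_ne_zero hπq), ?_, ⟨_, div_mem_Os hfOs hc0 hGE, ?_⟩, fun _ => hfG rfl,
    fun h => hfZ (hm h)⟩
  · exact ((RVal.EQ_self hc0).mul (hwπ.pow (q : ℕ)).inv).GT (by linarith)
  · have e : (ζ - 1) ^ (q : ℕ) * (c * ((ζ - 1) ^ (q : ℕ))⁻¹) = c := by
      rw [mul_comm c, ← mul_assoc, mul_inv_cancel₀ hπq, one_mul]
    have hc0' : algebraMap Kb (FN (M1 * (q : ℕ))) c ≠ 0 := (map_ne_zero _).2 hc0
    rw [e, mul_comm _ (algebraMap Kb (FN (M1 * (q : ℕ))) c)⁻¹, ← mul_assoc, mul_inv_cancel₀ hc0', one_mul]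

end Fermat.Agent.S44.Cov.Sh
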