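import Fermat.Agent.S44.Geo.Cov.Sh.OsInv
import Fermat.Agent.S44.Geo.Cov.Sh.AS
import Fermat.Agent.S44.Geo.Cov.Sh.Glue
import Fermat.Agent.S44.Geo.Cov.Sh.Loc2

/-!
# S44 / GEO / COVER / C3 (SHEET) : the local trivialisation `f_s`      [keys S44/C3-LOC1, S44/C3-LOC2]   (helper4)

`p = q`, `F = FN (M1 p)`, `t` good (`GoodT`), `ζ` a primitive `p`-th root of unity in `Kb`, `π = ζ - 1`, `e1 = 1/(p-1) = w π` (`S33.w_pi`), `jπ = algebraMap Kb F π`.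

## [S44/C3-LOC1] `exists_loc1`   (~200 lines)
1. `M.exists_II_pi S b ht.pdiv _` (`GE2 (t - 1) (p/(p-1))` from `ht.deep₁, ht.deep₂`, `p/(p-1) ≤ 2 ≤ 4`): `fb ∈ IIb S b t` (i.e. `fb^p t ∈ C_b`), `GE2 (fb - 1) e1`.
2. `φ := (fb - 1)/jπ`, `GE2 φ 0` (`M.GE2_iff` with `c = π`).
3. `X := (fb^p t - 1)/jπ^p`.  `X - (φ^p - φ) = [((1 + π φ)^p - 1)/π^p - (φ^p - φ)] + fb^p (t - 1)/π^p`; first bracket: `Sh.as_val` for `wG` and `wZ`; second: value `≥ 4 - p e1 > 0` (`fb` has value `≥ 0`).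
   So `GE2 X 0`; `fb^p t - 1 ∈ C_b ⊆ B0`, `X ∈ B0` (`Mod.const_mem_B0`), `X ∈ C_b` (`Mod.mem_C0_of_GE`).
4. `φ' : VV := ⟨φ, (M.mem_VV_iff S).2 _⟩`.  `(twoComp S).res₁ φ'` is a root of `T^p - T - ρ1 X` (from 3.: `res₁` kills elements of value `> 0`: `GT_zero_iff`, as in `Mod.rho1_eq_zero_iff`), so `(ρ1 S b).IsIntegralElem (res₁ φ')`;
   `(nodalChart S b).normal₁ φ' _ : ∃ c1 : C_b, ρ1 c1 = res₁ φ'`;  `Mod.exists_rat S b c1 : ∃ a1 : B, r1 a1 = ρ1 c1 ∧ ..`; so `wG (a1 - φ) > 0`.  Same for `a2` (`normal₂`, `wZ`).  `Φ` := `Mod.exists_rat S b ⟨X, _⟩`.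
   (See `Mod/Rng.lean normal₁` for the exact way these lemmas are combined.)

## [S44/C3-LOC2] `exists_loc`   (~250 lines)
5. `Sh.glue p (r1 S b) (r2 S b) sep sep' 𝔫 h𝔫 a1 a2 Φ h₁ h₂` (`(Mod.nodalModel S b).sep, .sep'`; `h𝔫`: `ker r1 ⊓ ker r2 = (p) ≤ 𝔫` (`Mod.ker_inf`), `𝔫` prime: `Ideal.IsPrime.inf_le`; `h₁ : r1 (a1^p - a1 - Φ) = 0 ⟸ wG (..) > 0` by `Mod.r1_eq_zero_iff`, `wp_val` with `m = 0`):
   `m, d, z1, z2`, `d (a1 - a2 - m) = z1 + z2`.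
6. `ψ := a1 - z1/d ∈ Os` (`= a2 + m + z2/d`).   `wG (ψ - φ) > 0` (`wG (z1/d) > 0`: `r1 z1 = 0`, `r1 d ≠ 0`), `wZ (ψ - φ - m) > 0`.   So `GE2 ψ 0`.
7. `g := 1 + jπ ψ ∈ Os`, `g⁻¹ ∈ Os` (`inv_mem_Os₁` or `inv_mem_Os₂` with `d = 1`), `GE2 (g⁻¹) 0` and `GE2 (g - 1) e1`.    `f := fb g⁻¹`.    `f^p t = (fb^p t) g⁻¹^p ∈ Os`.
   `f^p t - 1 = jπ^p (X - Y) g⁻¹^p`, `Y := (g^p - 1)/jπ^p ≡ ψ^p - ψ` (`as_val`), `X ≡ φ^p - φ`, `(ψ^p - ψ) ≡ (φ^p - φ)` (`wp_val`, `m = 0` for `wG`, `m` for `wZ`).  So `GT2 (f^p t - 1) (p e1)`.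
8. `M.exists_const_of_GT2`: `c`, `p e1 < w c`, `GE2 (f^p t - 1) (w c)`; `c0 := c/π^p`, `w c0 > 0`; `a := (f^p t - 1)/c ∈ Os` (`div_mem_Os`).
9. `f - 1 = jπ (φ - ψ) g⁻¹`: `wG (f - 1) > e1`; if `¬ ker r1 ≤ 𝔫` then `m = 0` and `wZ (f - 1) > e1`.
-/

set_option autoImplicit false
set_option synthInstance.maxHeartbeats 400000

open HahnSeries ModularCurve AlgebraicCurve Fermat.Agent.S24 Fermat.Agent.S29 Fermat.Agent.S18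
  Fermat.Agent.ES Fermat.Agent.ES.Alg Fermat.Agent.S34.Mod Fermat.Agent.S05 Fermat.Agent.S55.B ExtCitation
  Fermat.Agent.S33 Fermat.Agent.S33.M
open Fermat.Agent.S55 (Dq Iq)

noncomputable section

namespace Fermat.Agent.S44.Cov.Sh

variable {q : Nat.Primes} {M1 r : ℕ} [NeZero M1] [NeZero (q : ℕ)] [NeZero r]
variable (S : Setup M1 (q : ℕ) r (AA q)) (b : Bool)

theorem locAux_res₁ (x : KL.VV (AA q) S.τM (FN (M1 * (q : ℕ)))) :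
    (twoComp S).res₁ x = 0 ↔ (wG q (M1 * (q : ℕ))).GT (x : FN (M1 * (q : ℕ))) 0 := by
  rw [res₁_apply]
  exact (GT_zero_iff _).symm

theorem locAux_res₂ (x : KL.VV (AA q) S.τM (FN (M1 * (q : ℕ)))) :
    (twoComp S).res₂ x = 0 ↔ (wZ q S.hc).GT (x : FN (M1 * (q : ℕ))) 0 := by
  rw [res₂_apply, wZ_GT_iff]
  exact (GT_zero_iff _).symm

theorem locAux_monic {R : Type*} [CommRing R] [Nontrivial R] {p : ℕ} (hp : 1 < p) (c : R) :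
    (Polynomial.X ^ p - (Polynomial.X + Polynomial.C c) : Polynomial R).Monic := by
  refine (Polynomial.monic_X_pow p).sub_of_left ?_
  rw [Polynomial.degree_X_pow, Polynomial.degree_X_add_C]
  exact_mod_cast hp

theorem locAux_pow {x : FN (M1 * (q : ℕ))} (h : GE2 S.hc x 0) (n : ℕ) : GE2 S.hc (x ^ n) 0 :=
  (mem_VV_iff S).1 (pow_mem ((mem_VV_iff S).2 h) n)

set_option maxHeartbeats 3200000 in
/-- [S44/C3-LOC1] -/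
theorem exists_loc1 {t : FN (M1 * (q : ℕ))} (ht : GoodT q M1 S.hc t) {ζ : Kb}
    (hζ : IsPrimitiveRoot ζ (q : ℕ)) :
    ∃ (fb φ X : FN (M1 * (q : ℕ))) (a1 a2 Φ : Mod.BB S b),
      fb ^ (q : ℕ) * t ∈ KL.C0 (AA q) (S.θM b) (FN (M1 * (q : ℕ))) ∧
      fb = 1 + algebraMap Kb (FN (M1 * (q : ℕ))) (ζ - 1) * φ ∧ GE2 S.hc φ 0 ∧
      fb ^ (q : ℕ) * t - 1 = algebraMap Kb (FN (M1 * (q : ℕ))) (ζ - 1) ^ (q : ℕ) * X ∧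
      GT2 S.hc (X - (φ ^ (q : ℕ) - φ)) 0 ∧
      (wG q (M1 * (q : ℕ))).GT (cF a1 - φ) 0 ∧ (wZ q S.hc).GT (cF a2 - φ) 0 ∧ GT2 S.hc (cF Φ - X) 0 := by
  have hp1 : (1 : ℝ) < ((q : ℕ) : ℝ) := by exact_mod_cast q.2.one_lt
  have hp2 : (2 : ℝ) ≤ ((q : ℕ) : ℝ) := by exact_mod_cast q.2.two_le
  have hpm : (0 : ℝ) < ((q : ℕ) : ℝ) - 1 := by linarith
  have hπ := w_pi q hζ
  have hπ0 : ζ - 1 ≠ 0 := hπ.1
  have hwπ : (wq q).w (ζ - 1) = 1 / (((q : ℕ) : ℝ) - 1) := hπ.2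
  have hle2 : ((q : ℕ) : ℝ) / (((q : ℕ) : ℝ) - 1) ≤ 2 := by rw [div_le_iff₀ hpm]; linarith
  have hdeep : GE2 S.hc (t - 1) 4 := ⟨ht.deep₁, ht.deep₂⟩
  obtain ⟨fb, hfb, hfb1⟩ := exists_II_pi S b ht.pdiv (hdeep.mono (by linarith))
  rw [← hwπ] at hfb1
  obtain ⟨φ, hφ0, hφ⟩ := (GE2_iff S hπ0).1 hfb1
  obtain ⟨jπ, hjπ⟩ : ∃ j, j = algebraMap Kb (FN (M1 * (q : ℕ))) (ζ - 1) := ⟨_, rfl⟩
  rw [← hjπ] at hφ ⊢
  have hjπ0 : jπ ≠ 0 := by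
    rw [hjπ]
    exact (map_ne_zero (algebraMap Kb (FN (M1 * (q : ℕ))))).2 hπ0
  have efb : fb = 1 + jπ * φ := by rw [← hφ]; ring
  obtain ⟨X, hX⟩ : ∃ X, X = (fb ^ (q : ℕ) * t - 1) * (jπ ^ (q : ℕ))⁻¹ := ⟨_, rfl⟩
  have eX : fb ^ (q : ℕ) * t - 1 = jπ ^ (q : ℕ) * X := by
    rw [hX]; field_simp
  have h1π : (1 + jπ) ^ (q : ℕ) = 1 := by
    rw [hjπ, ← map_one (algebraMap Kb (FN (M1 * (q : ℕ)))), ← map_add, ← map_pow, add_sub_cancel,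
      hζ.pow_eq_one]
  have hGTπ : GT2 S.hc jπ 0 := by
    rw [hjπ]
    exact GT2_algebraMap (Or.inr (by rw [hwπ]; positivity))
  have hpF : (((q : ℕ) : ℕ) : FN (M1 * (q : ℕ))) ≠ 0 := Nat.cast_ne_zero.2 q.2.ne_zero
  have A1 := as_val (wG q (M1 * (q : ℕ))) q.2 h1π hjπ0 hGTπ.1 hpF hφ0.1
  have A2 := as_val (wZ q S.hc) q.2 h1π hjπ0 hGTπ.2 hpF hφ0.2
  have hone : GE2 S.hc (1 : FN (M1 * (q : ℕ))) 0 := (mem_VV_iff S).mp (one_mem _)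
  have hfb0 : GE2 S.hc fb 0 := by
    have h2 := (hGTπ.mul_GE2 hφ0).toGE2
    rw [add_zero] at h2
    rw [efb]; exact hone.add h2
  have hinv : GE2 S.hc ((jπ ^ (q : ℕ))⁻¹) (-(((q : ℕ) : ℝ) / (((q : ℕ) : ℝ) - 1))) := by
    have e : (jπ ^ (q : ℕ))⁻¹ = algebraMap Kb (FN (M1 * (q : ℕ))) (((ζ - 1) ^ (q : ℕ))⁻¹) := by
      rw [hjπ, map_inv₀, map_pow]
    rw [e]
    refine GE2_algebraMap (Or.inr ?_)
    rw [RVal.w_inv (pow_ne_zero _ hπ0), RVal.w_pow hπ0, hwπ]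
    apply le_of_eq
    ring
  have hB : GT2 S.hc (fb ^ (q : ℕ) * (t - 1) * (jπ ^ (q : ℕ))⁻¹) 0 := by
    have := ((locAux_pow S hfb0 (q : ℕ)).mul hdeep).mul hinv
    exact this.toGT2 (by linarith)
  have hXφ : GT2 S.hc (X - (φ ^ (q : ℕ) - φ)) 0 := by
    have e : X - (φ ^ (q : ℕ) - φ) = (((1 + jπ * φ) ^ (q : ℕ) - 1) * (jπ ^ (q : ℕ))⁻¹ -
        (φ ^ (q : ℕ) - φ)) + fb ^ (q : ℕ) * (t - 1) * (jπ ^ (q : ℕ))⁻¹ := by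
      rw [hX, efb]; ring
    rw [e]
    exact GT2.add ⟨A1, A2⟩ hB
  have hX0 : GE2 S.hc X 0 := by
    have := hXφ.toGE2.add ((locAux_pow S hφ0 (q : ℕ)).sub hφ0)
    rwa [sub_add_cancel] at this
  have hXC : X ∈ KL.C0 (AA q) (S.θM b) (FN (M1 * (q : ℕ))) := by
    refine Mod.mem_C0_of_GE S b ?_ hX0.1 hX0.2
    have e : (jπ ^ (q : ℕ))⁻¹ = algebraMap Kb (FN (M1 * (q : ℕ))) (((ζ - 1) ^ (q : ℕ))⁻¹) := by
      rw [hjπ, map_inv₀, map_pow]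
    rw [hX, e]
    exact mul_mem (KL.C0_le_B0 _ (sub_mem hfb (one_mem _))) (Mod.const_mem_B0 S b _)
  -- (4)
  obtain ⟨φ', hφ'⟩ : ∃ φ' : KL.VV (AA q) S.τM (FN (M1 * (q : ℕ))), (φ' : FN (M1 * (q : ℕ))) = φ :=
    ⟨⟨φ, (mem_VV_iff S).2 hφ0⟩, rfl⟩
  obtain ⟨Xc, hXc⟩ : ∃ Xc : KL.C0 (AA q) (S.θM b) (FN (M1 * (q : ℕ))), (Xc : FN (M1 * (q : ℕ))) = X :=
    ⟨⟨X, hXC⟩, rfl⟩
  have hneg : GT2 S.hc (φ ^ (q : ℕ) - (φ + X)) 0 := by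
    have h := hXφ
    have e : φ ^ (q : ℕ) - (φ + X) = -(X - (φ ^ (q : ℕ) - φ)) := by ring
    rw [e]
    exact ⟨h.1.neg, h.2.neg⟩
  have i1 : (ρ1 S b).IsIntegralElem ((twoComp S).res₁ φ') := by
    refine ⟨_, locAux_monic q.2.one_lt Xc, ?_⟩
    rw [Polynomial.eval₂_sub, Polynomial.eval₂_add, Polynomial.eval₂_pow, Polynomial.eval₂_X,
      Polynomial.eval₂_C]
    show (twoComp S).res₁ φ' ^ (q : ℕ) - ((twoComp S).res₁ φ' +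
      (twoComp S).res₁ (Subring.inclusion (C0M_le S b) Xc)) = 0
    rw [← map_pow, ← map_add, ← map_sub, locAux_res₁]
    show (wG q (M1 * (q : ℕ))).GT ((φ' : FN (M1 * (q : ℕ))) ^ (q : ℕ) - ((φ' : FN (M1 * (q : ℕ))) +
      (Xc : FN (M1 * (q : ℕ))))) 0
    rw [hφ', hXc]
    exact hneg.1
  have i2 : (ρ2 S b).IsIntegralElem ((twoComp S).res₂ φ') := by
    refine ⟨_, locAux_monic q.2.one_lt Xc, ?_⟩
    rw [Polynomial.eval₂_sub, Polynomial.eval₂_add, Polynomial.eval₂_pow, Polynomial.eval₂_X,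
      Polynomial.eval₂_C]
    show (twoComp S).res₂ φ' ^ (q : ℕ) - ((twoComp S).res₂ φ' +
      (twoComp S).res₂ (Subring.inclusion (C0M_le S b) Xc)) = 0
    rw [← map_pow, ← map_add, ← map_sub, locAux_res₂]
    show (wZ q S.hc).GT ((φ' : FN (M1 * (q : ℕ))) ^ (q : ℕ) - ((φ' : FN (M1 * (q : ℕ))) +
      (Xc : FN (M1 * (q : ℕ))))) 0
    rw [hφ', hXc]
    exact hneg.2
  obtain ⟨c1, hc1⟩ := (nodalChart S b).normal₁ φ' i1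
  obtain ⟨c2, hc2⟩ := (nodalChart S b).normal₂ φ' i2
  obtain ⟨a1, ha1, -⟩ := Mod.exists_rat S b c1
  obtain ⟨a2, -, ha2⟩ := Mod.exists_rat S b c2
  obtain ⟨Φ, hΦ1, hΦ2⟩ := Mod.exists_rat S b Xc
  refine ⟨fb, φ, X, a1, a2, Φ, hfb, efb, hφ0, eX, hXφ, ?_, ?_, ?_, ?_⟩
  · have h : (twoComp S).res₁ (⟨cF a1, Mod.coe_mem_VV S b a1⟩ - φ') = 0 := by
      rw [map_sub, sub_eq_zero, ← hc1]
      exact ha1
    rw [locAux_res₁] at h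
    rw [← hφ']
    exact h
  · have h : (twoComp S).res₂ (⟨cF a2, Mod.coe_mem_VV S b a2⟩ - φ') = 0 := by
      rw [map_sub, sub_eq_zero, ← hc2]
      exact ha2
    rw [locAux_res₂] at h
    rw [← hφ']
    exact h
  · have h : (twoComp S).res₁ (⟨cF Φ, Mod.coe_mem_VV S b Φ⟩ - Subring.inclusion (C0M_le S b) Xc) = 0 := by
      rw [map_sub, sub_eq_zero]
      exact hΦ1
    rw [locAux_res₁] at h
    rw [← hXc]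
    exact h
  · have h : (twoComp S).res₂ (⟨cF Φ, Mod.coe_mem_VV S b Φ⟩ - Subring.inclusion (C0M_le S b) Xc) = 0 := by
      rw [map_sub, sub_eq_zero]
      exact hΦ2
    rw [locAux_res₂] at h
    rw [← hXc]
    exact h

/-- [S44/C3-LOC2] **the local trivialisation** -/
theorem exists_loc (𝔫 : Ideal (Mod.BB S b)) [𝔫.IsPrime] (hq : ((q : ℕ) : Mod.BB S b) ∈ 𝔫)
    {t : FN (M1 * (q : ℕ))} (ht : GoodT q M1 S.hc t) {ζ : Kb} (hζ : IsPrimitiveRoot ζ (q : ℕ)) :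
    ∃ (f : FN (M1 * (q : ℕ))) (c0 : Kb), f ≠ 0 ∧ c0 ≠ 0 ∧ (wq q).GT c0 0 ∧
      (∃ a ∈ Os S b 𝔫, f ^ (q : ℕ) * t - 1 =
        algebraMap Kb (FN (M1 * (q : ℕ))) ((ζ - 1) ^ (q : ℕ) * c0) * a) ∧
      (RingHom.ker (Mod.r1 S b) ≤ 𝔫 → (wG q (M1 * (q : ℕ))).GT (f - 1) (1 / (((q : ℕ) : ℝ) - 1))) ∧
      (¬ RingHom.ker (Mod.r1 S b) ≤ 𝔫 → (wZ q S.hc).GT (f - 1) (1 / (((q : ℕ) : ℝ) - 1))) :=
  exists_loc_aux S b 𝔫 hq hζ (exists_loc1 S b ht hζ)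

end Fermat.Agent.S44.Cov.Sh
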