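import Fermat.Agent.S44.Geo.Cov.Loc0
import Fermat.Agent.S33.M.Imp

/-!
# S44 / GEO / COVER / C3 (SHEET) : the semi-local ring `O_s = (B ∖ 𝔫)⁻¹ C_b ⊂ F`      [keys S44/C3-OS1 .. OS4]   (helper4)

`F = FN (M1 p)`, `C_b = KL.C0 (AA q) (S.θM b) F`, `B = Mod.BB S b = C_b ∩ E`, `𝔫` a prime of `B`.      `x ∈ Os ↔ ∃ d ∈ B ∖ 𝔫, x d ∈ C_b`.

## [S44/C3-OS1]  `mem_Rn_of_mem_Os`, `coe_Rn_mem_Os`, `gal_mem_Os`, `div_mem_Os`, `GE₁_of_mem_Os`, `GE₂_of_mem_Os`   (~120 lines, easy)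
* `mem_Rn_of_mem_Os`: `x ∈ E`, `x d ∈ C_b` ⟹ `a := x d ∈ B` (`Mod.mem_BB`), `x = a / d` (`d ≠ 0` as `d ∉ 𝔫`), `Cov.mem_Rn`.     `coe_Rn_mem_Os`: converse.
* `gal_mem_Os`: `gal σ (x d) = gal σ x * d` (`d ∈ E = ratF .. (Iq q)`: `d.1.2 σ hσ`), `gal_mem_C0 S (mem_decomp_of_mem_inertia hσ) b`.
* `div_mem_Os`: `x d ∈ C_b ⊆ B0` (`KL.C0_le_B0`-type lemma, see `Mod/Ker.lean` proof of `ker_inf`), `x d / c ∈ B0` (`Mod.const_mem_B0`, subring), values `≥ 0` (`d ∈ VV`: `Mod.coe_mem_VV`, `M.mem_VV_iff`; `ratfAux_EQ_algebraMap`/`GE2_algebraMap`), `Mod.mem_C0_of_GE`.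
* `GE₁_of_mem_Os`: `x d ∈ C_b ⊆ VV`, `r1 d ≠ 0` (`d ∉ 𝔫 ⊇ ker r1`) so `wG d = 0` (`Mod.r1_eq_zero_iff`: not `GT d 0`, and `GE d 0`).

(OS2 = `Sh/OsCl.lean`, OS3 = `Sh/OsNorm.lean`, OS4 = `Sh/OsInv.lean`.)
-/

set_option autoImplicit false
set_option synthInstance.maxHeartbeats 400000

open HahnSeries ModularCurve AlgebraicCurve Fermat.Agent.S24 Fermat.Agent.S29 Fermat.Agent.S18
  Fermat.Agent.ES Fermat.Agent.ES.Alg Fermat.Agent.S34.Mod Fermat.Agent.S05 Fermat.Agent.S55.B ExtCitation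
  Fermat.Agent.S33 Fermat.Agent.S33.M
open Fermat.Agent.S55 (Dq Iq)

noncomputable section

namespace Fermat.Agent.S44.Cov.Sh

variable {q : Nat.Primes} {M1 r : ℕ} [NeZero M1] [NeZero (q : ℕ)] [NeZero r]
variable (S : Setup M1 (q : ℕ) r (AA q)) (b : Bool) (𝔫 : Ideal (Mod.BB S b)) [h𝔫 : 𝔫.IsPrime]

/-- `B → F` -/
abbrev cF {S : Setup M1 (q : ℕ) r (AA q)} {b : Bool} (d : Mod.BB S b) : FN (M1 * (q : ℕ)) :=
  ((d : Mod.EE q M1) : FN (M1 * (q : ℕ)))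

/-- `O_s = (B ∖ 𝔫)⁻¹ C_b` -/
def Os : Subring (FN (M1 * (q : ℕ))) where
  carrier := {x | ∃ d : Mod.BB S b, d ∉ 𝔫 ∧ x * cF d ∈ KL.C0 (AA q) (S.θM b) (FN (M1 * (q : ℕ)))}
  mul_mem' := by
    rintro x y ⟨d, hd, hx⟩ ⟨d', hd', hy⟩
    refine ⟨d * d', fun h => (h𝔫.mem_or_mem h).elim hd hd', ?_⟩
    have : x * y * cF (d * d') = (x * cF d) * (y * cF d') := by
      show x * y * (cF d * cF d') = _
      ring
    rw [this]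
    exact mul_mem hx hy
  one_mem' := ⟨1, fun h => h𝔫.ne_top ((Ideal.eq_top_iff_one _).2 h), by
    show (1 : FN (M1 * (q : ℕ))) * 1 ∈ _
    rw [mul_one]; exact one_mem _⟩
  add_mem' := by
    rintro x y ⟨d, hd, hx⟩ ⟨d', hd', hy⟩
    refine ⟨d * d', fun h => (h𝔫.mem_or_mem h).elim hd hd', ?_⟩
    have : (x + y) * cF (d * d') = (x * cF d) * cF d' + (y * cF d') * cF d := by
      show (x + y) * (cF d * cF d') = _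
      ring
    rw [this]
    exact add_mem (mul_mem hx d'.2) (mul_mem hy d.2)
  zero_mem' := ⟨1, fun h => h𝔫.ne_top ((Ideal.eq_top_iff_one _).2 h), by
    rw [zero_mul]; exact zero_mem _⟩
  neg_mem' := by
    rintro x ⟨d, hd, hx⟩
    exact ⟨d, hd, by rw [neg_mul]; exact neg_mem hx⟩

variable {S b 𝔫}

theorem mem_Os {x : FN (M1 * (q : ℕ))} : x ∈ Os S b 𝔫 ↔
    ∃ d : Mod.BB S b, d ∉ 𝔫 ∧ x * cF d ∈ KL.C0 (AA q) (S.θM b) (FN (M1 * (q : ℕ))) := Iff.rfl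

theorem one_not_mem : (1 : Mod.BB S b) ∉ 𝔫 := fun h => h𝔫.ne_top ((Ideal.eq_top_iff_one _).2 h)

theorem C0_le_Os {x : FN (M1 * (q : ℕ))} (hx : x ∈ KL.C0 (AA q) (S.θM b) (FN (M1 * (q : ℕ)))) :
    x ∈ Os S b 𝔫 :=
  ⟨1, one_not_mem, by show x * 1 ∈ _; rw [mul_one]; exact hx⟩

theorem cF_ne_zero {d : Mod.BB S b} (hd : d ∉ 𝔫) : cF d ≠ 0 := fun h =>
  hd (by rw [show d = 0 from Subtype.ext (Subtype.ext h)]; exact zero_mem _)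

theorem inv_cF_mem_Os {d : Mod.BB S b} (hd : d ∉ 𝔫) : (cF d)⁻¹ ∈ Os S b 𝔫 :=
  ⟨d, hd, by rw [inv_mul_cancel₀ (cF_ne_zero hd)]; exact one_mem _⟩

/-- constants of `A` -/
theorem const_mem_Os {a : Kb} (ha : a ∈ AA q) : algebraMap Kb (FN (M1 * (q : ℕ))) a ∈ Os S b 𝔫 :=
  C0_le_Os (l3Aux_const_mem S b ha)

/-! ### [S44/C3-OS1] -/

theorem mem_Rn_of_mem_Os {x : Mod.EE q M1} (hx : (x : FN (M1 * (q : ℕ))) ∈ Os S b 𝔫) : x ∈ Rn S b 𝔫 := by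
  obtain ⟨d, hd, h⟩ := hx
  have hd0 : (d : Mod.EE q M1) ≠ 0 := fun h0 => cF_ne_zero hd (by show ((d : Mod.EE q M1) : FN (M1 * (q : ℕ))) = 0; rw [h0]; rfl)
  have ha : x * (d : Mod.EE q M1) ∈ Mod.BB S b := h
  rw [Cov.mem_Rn]
  exact ⟨⟨_, ha⟩, d, hd, by rw [mul_assoc, mul_inv_cancel₀ hd0, mul_one]⟩

theorem coe_Rn_mem_Os (x : Rn S b 𝔫) : (((x : Mod.EE q M1)) : FN (M1 * (q : ℕ))) ∈ Os S b 𝔫 := by
  obtain ⟨β, s, hs, e⟩ := (Cov.mem_Rn b 𝔫).1 x.2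
  rw [e]
  exact (Os S b 𝔫).mul_mem (C0_le_Os β.2) (inv_cF_mem_Os hs)

theorem gal_mem_Os {σ : GQ} (hσ : σ ∈ Iq q) {x : FN (M1 * (q : ℕ))} (hx : x ∈ Os S b 𝔫) :
    gal (M1 * (q : ℕ)) σ x ∈ Os S b 𝔫 := by
  obtain ⟨d, hd, h⟩ := hx
  refine ⟨d, hd, ?_⟩
  have h1 := gal_mem_C0 S (mem_decomp_of_mem_inertia hσ) b h
  rw [map_mul, d.1.2 σ hσ] at h1
  exact h1

/-- saturation -/
theorem div_mem_Os {x : FN (M1 * (q : ℕ))} (hx : x ∈ Os S b 𝔫) {c : Kb} (hc : c ≠ 0)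
    (h : GE2 S.hc x ((wq q).w c)) : x * (algebraMap Kb (FN (M1 * (q : ℕ))) c)⁻¹ ∈ Os S b 𝔫 := by
  obtain ⟨d, hd, hxd⟩ := hx
  refine ⟨d, hd, ?_⟩
  have hdV : GE2 S.hc (cF d) 0 := (M.mem_VV_iff S).1 (Mod.coe_mem_VV S b d)
  have hci : GE2 S.hc (algebraMap Kb (FN (M1 * (q : ℕ))) c⁻¹) (-(wq q).w c) :=
    GE2_algebraMap (Or.inr (by rw [RVal.w_inv hc]))
  have e : x * (algebraMap Kb (FN (M1 * (q : ℕ))) c)⁻¹ * cF d =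
      (x * cF d) * algebraMap Kb (FN (M1 * (q : ℕ))) c⁻¹ := by
    rw [map_inv₀]; ring
  have hv : GE2 S.hc ((x * cF d) * algebraMap Kb (FN (M1 * (q : ℕ))) c⁻¹) 0 := by
    have := (h.mul hdV).mul hci
    simpa using this
  rw [e]
  exact Mod.mem_C0_of_GE S b (mul_mem (KL.C0_le_B0 _ hxd) (Mod.const_mem_B0 S b _)) hv.1 hv.2

theorem GE₁_of_mem_Os (h1 : RingHom.ker (Mod.r1 S b) ≤ 𝔫) {x : FN (M1 * (q : ℕ))} (hx : x ∈ Os S b 𝔫) :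
    (wG q (M1 * (q : ℕ))).GE x 0 := by
  obtain ⟨d, hd, hxd⟩ := hx
  have hdV : GE2 S.hc (cF d) 0 := (M.mem_VV_iff S).1 (Mod.coe_mem_VV S b d)
  have hxV : GE2 S.hc (x * cF d) 0 := (M.mem_VV_iff S).1 (C0M_le S b hxd)
  have hd0 := cF_ne_zero hd
  have hdE : (wG q (M1 * (q : ℕ))).EQ (cF d) 0 := by
    refine ⟨hd0, le_antisymm ?_ (hdV.1.le_w hd0)⟩
    by_contra hlt
    exact hd (h1 ((Mod.r1_eq_zero_iff S b d).2 (Or.inr (not_le.1 hlt))))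
  have := RVal.GE.of_mul_eq_left rfl hdE hxV.1
  simpa using this

theorem GE₂_of_mem_Os (h2 : RingHom.ker (Mod.r2 S b) ≤ 𝔫) {x : FN (M1 * (q : ℕ))} (hx : x ∈ Os S b 𝔫) :
    (wZ q S.hc).GE x 0 := by
  obtain ⟨d, hd, hxd⟩ := hx
  have hdV : GE2 S.hc (cF d) 0 := (M.mem_VV_iff S).1 (Mod.coe_mem_VV S b d)
  have hxV : GE2 S.hc (x * cF d) 0 := (M.mem_VV_iff S).1 (C0M_le S b hxd)
  have hd0 := cF_ne_zero hd
  have hdE : (wZ q S.hc).EQ (cF d) 0 := by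
    refine ⟨hd0, le_antisymm ?_ (hdV.2.le_w hd0)⟩
    by_contra hlt
    exact hd (h2 ((Mod.r2_eq_zero_iff S b d).2 (Or.inr (not_le.1 hlt))))
  have := RVal.GE.of_mul_eq_left rfl hdE hxV.2
  simpa using this

end Fermat.Agent.S44.Cov.Sh
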