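import Fermat.Agent.S33.M.Imp
import Fermat.Agent.S44.Geo.Cov.Sh.Abs2

/-!
# S44 / GEO / COVER / C3 (SHEET) : finite orbits in `F`, norms      (helper4)

## [S44/C3-OS3]  `exists_norm`   (~80 lines)
`exists_theta_fun x` + `exists_theta`: `θ` with `gal σ x = x` for `σ ∈ Iq q` fixing `θ`; the orbit of `θ` under `GQ` is finite (roots of `minpoly ℚ θ`); so `{gal σ x | σ ∈ Iq q}` is finite (`Sh.finite_orbit`-argument); `s :=` its `toFinset`;
`gal τ` permutes `s` (`Finset.prod_image`), so `∏ s ∈ ratF .. (Iq q) = EE`.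

-/

set_option autoImplicit false
set_option synthInstance.maxHeartbeats 400000

open HahnSeries ModularCurve AlgebraicCurve Fermat.Agent.S24 Fermat.Agent.S29 Fermat.Agent.S18
  Fermat.Agent.ES Fermat.Agent.ES.Alg Fermat.Agent.S34.Mod Fermat.Agent.S05 Fermat.Agent.S55.B ExtCitation
  Fermat.Agent.S33 Fermat.Agent.S33.M
open Fermat.Agent.S55 (Dq Iq)

noncomputable section

namespace Fermat.Agent.S44.Cov.Sh

variable {q : Nat.Primes} {M1 r : ℕ} [NeZero M1] [NeZero (q : ℕ)] [NeZero r]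
/-! ### [S44/C3-OS3] -/

theorem osNorm_gal_inv {N : ℕ} [NeZero N] (τ : GQ) (x : FN N) : gal N τ (gal N τ⁻¹ x) = x := by
  rw [← ratfAux_gal_mul, mul_inv_cancel, ratfAux_gal_one]

theorem osNorm_finite (H : Subgroup GQ) {N : ℕ} [NeZero N] (x : FN N) :
    (Set.range fun σ : H => gal N (σ : GQ) x).Finite := by
  classical
  obtain ⟨L, hL, h⟩ := exists_level x
  let f : H → (L →ₐ[ℚ] Qb) := fun σ => (((σ : GQ) : Qb ≃ₐ[ℚ] Qb) : Qb →ₐ[ℚ] Qb).comp L.val
  have hf : ∀ σ τ : H, f σ = f τ → gal N (σ : GQ) x = gal N (τ : GQ) x := by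
    intro σ τ hστ
    have h1 : gal N ((τ : GQ)⁻¹ * σ) x = x := h _ (fun a ha => by
      have h2 : (σ : GQ) a = (τ : GQ) a := DFunLike.congr_fun hστ ⟨a, ha⟩
      show (τ : GQ)⁻¹ ((σ : GQ) a) = a
      rw [h2]
      exact (τ : GQ).symm_apply_apply a)
    rw [ratfAux_gal_mul] at h1
    have h3 := congrArg (gal N (τ : GQ)) h1
    rwa [osNorm_gal_inv] at h3
  have : Finite (L →ₐ[ℚ] Qb) := inferInstance
  let g : (L →ₐ[ℚ] Qb) → FN N := fun φ => if hφ : ∃ σ, f σ = φ then gal N (hφ.choose : GQ) x else 0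
  refine (Set.finite_range g).subset ?_
  rintro _ ⟨σ, rfl⟩
  refine ⟨f σ, ?_⟩
  have hφ : ∃ σ', f σ' = f σ := ⟨σ, rfl⟩
  show (if hφ : ∃ σ', f σ' = f σ then gal N (hφ.choose : GQ) x else 0) = _
  rw [dif_pos hφ]
  exact hf _ _ hφ.choose_spec

/-- the orbit of `x` under `I` is finite, its product is rational -/
theorem exists_norm (q : Nat.Primes) {N : ℕ} [NeZero N] (x : FN N) : ∃ s : Finset (FN N), x ∈ s ∧
    (∀ z ∈ s, ∃ σ ∈ Iq q, z = gal N σ x) ∧ ∏ z ∈ s, z ∈ ratF N (Iq q) := by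
  classical
  have hfin := osNorm_finite (Iq q) x
  refine ⟨hfin.toFinset, ?_, ?_, ?_⟩
  · rw [Set.Finite.mem_toFinset]
    exact ⟨1, ratfAux_gal_one x⟩
  · intro z hz
    rw [Set.Finite.mem_toFinset] at hz
    obtain ⟨σ, rfl⟩ := hz
    exact ⟨σ, σ.2, rfl⟩
  · intro τ hτ
    rw [map_prod]
    have himg : hfin.toFinset.image (gal N τ) = hfin.toFinset := by
      ext z
      simp only [Finset.mem_image, Set.Finite.mem_toFinset, Set.mem_range]
      constructor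
      · rintro ⟨_, ⟨σ, rfl⟩, rfl⟩
        exact ⟨⟨τ, hτ⟩ * σ, ratfAux_gal_mul _ _ _⟩
      · rintro ⟨σ, rfl⟩
        refine ⟨_, ⟨⟨τ, hτ⟩⁻¹ * σ, rfl⟩, ?_⟩
        show gal N τ (gal N (τ⁻¹ * (σ : GQ)) x) = _
        rw [ratfAux_gal_mul, osNorm_gal_inv]
    conv_rhs => rw [← himg]
    rw [Finset.prod_image]
    intro a _ b _ hab
    exact (gal N τ).injective hab

end Fermat.Agent.S44.Cov.Sh
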