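import Fermat.Agent.S44.Geo.Cov.Sh.Os
import Fermat.Agent.S44.Geo.Cov.Sh.OsNorm

/-!
# S44 / GEO / COVER / C3 (SHEET) : units of `O_s` by the norm trick      (helper4)

## [S44/C3-OS4]  `inv_mem_Os₁`, `inv_mem_Os₂`   (~120 lines)       (UNITS BY THE NORM TRICK)
`x ∈ Os`, `d ∈ B ∖ 𝔫`, `ker r1 ≤ 𝔫`, `wG (x - d) > 0` ⟹ `x⁻¹ ∈ Os`.
 Reduce to `x ∈ C_b`: `x d' = a ∈ C_b`, `a - d d' = d' (x - d)`, `d d' ∉ 𝔫`, `x⁻¹ = d' a⁻¹`.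
 `x ∈ C_b`: `s` from `exists_norm`, `Nx := ∏ s ∈ E ∩ C_b = B` (`gal_mem_C0`); every `z = gal σ x ∈ s` has `wG (z - d) > 0` (`z - d = gal σ (x - d)`, `brAux_GT_gal`); so `wG (Nx - d^m) > 0`, `m = s.card` (induction, all factors `≥ 0`);
 `r1 (Nx - d^m) = 0` (`Mod.r1_eq_zero_iff`), `Nx - d^m ∈ 𝔫`, `d^m ∉ 𝔫`, so `Nx ∉ 𝔫`.  `x⁻¹ * Nx = ∏ (s.erase x) ∈ C_b`.
-/

set_option autoImplicit false
set_option synthInstance.maxHeartbeats 400000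

open HahnSeries ModularCurve AlgebraicCurve Fermat.Agent.S24 Fermat.Agent.S29 Fermat.Agent.S18
  Fermat.Agent.ES Fermat.Agent.ES.Alg Fermat.Agent.S34.Mod Fermat.Agent.S05 Fermat.Agent.S55.B ExtCitation
  Fermat.Agent.S33 Fermat.Agent.S33.M
open Fermat.Agent.S55 (Dq Iq)

noncomputable section

namespace Fermat.Agent.S44.Cov.Sh

variable {q : Nat.Primes} {M1 r : ℕ} [NeZero M1] [NeZero (q : ℕ)] [NeZero r]
variable {S : Setup M1 (q : ℕ) r (AA q)} {b : Bool} {𝔫 : Ideal (Mod.BB S b)} [h𝔫 : 𝔫.IsPrime]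

/-! ### [S44/C3-OS4] -/

/-- a product of elements congruent to `d` is congruent to a power of `d` -/
theorem osInv_prod {K : Type*} [Field K] (v : RVal K) (O : Subring K) (hO : ∀ y ∈ O, v.GE y 0)
    {d : K} (hd : d ∈ O) (s : Finset K) (hs : ∀ z ∈ s, z ∈ O ∧ v.GT (z - d) 0) :
    v.GT (∏ z ∈ s, z - d ^ s.card) 0 := by
  classical
  induction s using Finset.induction_on with
  | empty => simp only [Finset.prod_empty, Finset.card_empty, pow_zero, sub_self]; exact RVal.GT_zero 0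
  | insert z s hz ih =>
    rw [Finset.prod_insert hz, Finset.card_insert_of_notMem hz]
    have h1 := ih (fun y hy => hs y (Finset.mem_insert_of_mem hy))
    have h2 := hs z (Finset.mem_insert_self z s)
    have hP : ∏ y ∈ s, y ∈ O := Subring.prod_mem _ (fun y hy => (hs y (Finset.mem_insert_of_mem hy)).1)
    have e : z * ∏ y ∈ s, y - d ^ (s.card + 1) =
        (z - d) * ∏ y ∈ s, y + d * (∏ y ∈ s, y - d ^ s.card) := by ring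
    rw [e]
    have h3 := h2.2.mul_GE (hO _ hP)
    have h4 := (hO _ hd).mul_GT h1
    rw [add_zero] at h3 h4
    exact h3.add h4

theorem osInv_aux0 (v : RVal (FN (M1 * (q : ℕ))))
    (hgal : ∀ σ ∈ Iq q, ∀ y, v.GT y 0 → v.GT (gal (M1 * (q : ℕ)) σ y) 0)
    (hC : ∀ y ∈ KL.C0 (AA q) (S.θM b) (FN (M1 * (q : ℕ))), v.GE y 0)
    (hker : ∀ β : Mod.BB S b, v.GT (cF β) 0 → β ∈ 𝔫)
    {x : FN (M1 * (q : ℕ))} (hx : x ∈ KL.C0 (AA q) (S.θM b) (FN (M1 * (q : ℕ))))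
    {d : Mod.BB S b} (hd : d ∉ 𝔫) (h : v.GT (x - cF d) 0) : x⁻¹ ∈ Os S b 𝔫 := by
  classical
  by_cases hx0 : x = 0
  · rw [hx0, inv_zero]; exact zero_mem _
  obtain ⟨s, hxs, hs, hN⟩ := exists_norm q x
  have hsC : ∀ z ∈ s, z ∈ KL.C0 (AA q) (S.θM b) (FN (M1 * (q : ℕ))) ∧ v.GT (z - cF d) 0 := by
    intro z hz
    obtain ⟨σ, hσ, rfl⟩ := hs z hz
    refine ⟨gal_mem_C0 S (Iq_le_Dq q hσ) b hx, ?_⟩
    have e : gal (M1 * (q : ℕ)) σ x - cF d = gal (M1 * (q : ℕ)) σ (x - cF d) := by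
      rw [map_sub, d.1.2 σ hσ]
    rw [e]
    exact hgal σ hσ _ h
  have hNC : ∏ z ∈ s, z ∈ KL.C0 (AA q) (S.θM b) (FN (M1 * (q : ℕ))) :=
    Subring.prod_mem _ (fun z hz => (hsC z hz).1)
  let β : Mod.BB S b := ⟨⟨∏ z ∈ s, z, hN⟩, hNC⟩
  have h1 := osInv_prod v _ hC d.2 s hsC
  have h2 : β - d ^ s.card ∈ 𝔫 := hker _ h1
  have hβ : β ∉ 𝔫 := by
    intro hβ
    have h3 : d ^ s.card ∈ 𝔫 := by
      have := 𝔫.sub_mem hβ h2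
      rwa [sub_sub_cancel] at this
    exact hd (h𝔫.mem_of_pow_mem _ h3)
  refine ⟨β, hβ, ?_⟩
  have e : x⁻¹ * cF β = ∏ z ∈ s.erase x, z := by
    show x⁻¹ * ∏ z ∈ s, z = _
    rw [← Finset.mul_prod_erase s (fun z => z) hxs, ← mul_assoc, inv_mul_cancel₀ hx0, one_mul]
  rw [e]
  exact Subring.prod_mem _ (fun z hz => (hsC z (Finset.mem_of_mem_erase hz)).1)

theorem osInv_aux (v : RVal (FN (M1 * (q : ℕ))))
    (hgal : ∀ σ ∈ Iq q, ∀ y, v.GT y 0 → v.GT (gal (M1 * (q : ℕ)) σ y) 0)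
    (hC : ∀ y ∈ KL.C0 (AA q) (S.θM b) (FN (M1 * (q : ℕ))), v.GE y 0)
    (hker : ∀ β : Mod.BB S b, v.GT (cF β) 0 → β ∈ 𝔫)
    {x : FN (M1 * (q : ℕ))} (hx : x ∈ Os S b 𝔫)
    {d : Mod.BB S b} (hd : d ∉ 𝔫) (h : v.GT (x - cF d) 0) : x⁻¹ ∈ Os S b 𝔫 := by
  obtain ⟨d', hd', ha⟩ := hx
  have h1 : v.GT (x * cF d' - cF (d * d')) 0 := by
    have e : x * cF d' - cF (d * d') = (x - cF d) * cF d' := by
      show x * cF d' - cF d * cF d' = _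
      ring
    rw [e]
    have := h.mul_GE (hC _ d'.2)
    rwa [add_zero] at this
  have h2 : (x * cF d')⁻¹ ∈ Os S b 𝔫 :=
    osInv_aux0 v hgal hC hker ha (fun h => (h𝔫.mem_or_mem h).elim hd hd') h1
  have e : x⁻¹ = (x * cF d')⁻¹ * cF d' := by
    rw [mul_inv, mul_assoc, inv_mul_cancel₀ (cF_ne_zero hd'), mul_one]
  rw [e]
  exact mul_mem h2 (C0_le_Os d'.2)

theorem inv_mem_Os₁ (h1 : RingHom.ker (Mod.r1 S b) ≤ 𝔫) {x : FN (M1 * (q : ℕ))} (hx : x ∈ Os S b 𝔫)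
    {d : Mod.BB S b} (hd : d ∉ 𝔫) (h : (wG q (M1 * (q : ℕ))).GT (x - cF d) 0) : x⁻¹ ∈ Os S b 𝔫 :=
  osInv_aux _ (fun σ hσ y hy => brAux_GT_gal (Iq_le_Dq q hσ) hy)
    (fun y hy => ((mem_VV_iff S).1 (C0M_le S b hy)).1)
    (fun β hβ => h1 ((RingHom.mem_ker).2 ((Mod.r1_eq_zero_iff S b β).2 hβ))) hx hd h

theorem inv_mem_Os₂ (h2 : RingHom.ker (Mod.r2 S b) ≤ 𝔫) {x : FN (M1 * (q : ℕ))} (hx : x ∈ Os S b 𝔫)
    {d : Mod.BB S b} (hd : d ∉ 𝔫) (h : (wZ q S.hc).GT (x - cF d) 0) : x⁻¹ ∈ Os S b 𝔫 :=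
  osInv_aux _ (fun σ hσ y hy => (wZ_GT_iff S.hc).2 (by
      rw [← gal_Wq S.hq S.hc]
      exact brAux_GT_gal (Iq_le_Dq q hσ) ((wZ_GT_iff S.hc).1 hy)))
    (fun y hy => ((mem_VV_iff S).1 (C0M_le S b hy)).2)
    (fun β hβ => h2 ((RingHom.mem_ker).2 ((Mod.r2_eq_zero_iff S b β).2 hβ))) hx hd h

end Fermat.Agent.S44.Cov.Sh
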